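import Fermat.Agent.FLTSmall.Germain

/-!
# The first case of Fermat's Last Theorem for the exponents 5, 7, 11, 13
(Sophie Germain's theorem with the auxiliary primes 11, 29, 23, 53).
-/

set_option autoImplicit false

namespace Fermat.Agent.FLTSmall

theorem germain_cond_of_finset {p q : ℕ} [Fact q.Prime] (hp : p ≠ 0) (S : Finset (ZMod q))
    (hS : ∀ a : ZMod q, a ^ p ∈ S)
    (hsum : ∀ r ∈ S, ∀ s ∈ S, ∀ t ∈ S, r + s + t = 0 → r = 0 ∨ s = 0 ∨ t = 0) :
    ∀ a b c : ZMod q, a ^ p + b ^ p + c ^ p = 0 → a = 0 ∨ b = 0 ∨ c = 0 := by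
  intro a b c h
  rcases hsum _ (hS a) _ (hS b) _ (hS c) h with h | h | h
  · exact Or.inl (pow_eq_zero_iff hp |>.mp h)
  · exact Or.inr (Or.inl (pow_eq_zero_iff hp |>.mp h))
  · exact Or.inr (Or.inr (pow_eq_zero_iff hp |>.mp h))

instance fact_prime_eleven : Fact (Nat.Prime 11) := ⟨by norm_num⟩
instance fact_prime_twentynine : Fact (Nat.Prime 29) := ⟨by norm_num⟩
instance fact_prime_twentythree : Fact (Nat.Prime 23) := ⟨by norm_num⟩
instance fact_prime_fiftythree : Fact (Nat.Prime 53) := ⟨by norm_num⟩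

theorem caseI_five {x y z : ℤ} (hxy : IsCoprime x y) (hyz : IsCoprime y z) (hzx : IsCoprime z x)
    (h : x ^ 5 + y ^ 5 + z ^ 5 = 0) : (5 : ℤ) ∣ x * y * z := by
  have := germain (p := 5) (q := 11) (by norm_num) (by decide)
    (germain_cond_of_finset (by norm_num) {0, 1, -1} (by decide) (by decide)) (by decide)
    hxy hyz hzx h
  exact_mod_cast this

theorem caseI_seven {x y z : ℤ} (hxy : IsCoprime x y) (hyz : IsCoprime y z) (hzx : IsCoprime z x)
    (h : x ^ 7 + y ^ 7 + z ^ 7 = 0) : (7 : ℤ) ∣ x * y * z := by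
  have := germain (p := 7) (q := 29) (by norm_num) (by decide)
    (germain_cond_of_finset (by norm_num) {0, 1, -1, 12, -12} (by decide) (by decide)) (by decide)
    hxy hyz hzx h
  exact_mod_cast this

theorem caseI_eleven {x y z : ℤ} (hxy : IsCoprime x y) (hyz : IsCoprime y z)
    (hzx : IsCoprime z x) (h : x ^ 11 + y ^ 11 + z ^ 11 = 0) : (11 : ℤ) ∣ x * y * z := by
  have := germain (p := 11) (q := 23) (by norm_num) (by decide)
    (germain_cond_of_finset (by norm_num) {0, 1, -1} (by decide) (by decide)) (by decide)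
    hxy hyz hzx h
  exact_mod_cast this

set_option maxRecDepth 20000 in
theorem caseI_thirteen {x y z : ℤ} (hxy : IsCoprime x y) (hyz : IsCoprime y z)
    (hzx : IsCoprime z x) (h : x ^ 13 + y ^ 13 + z ^ 13 = 0) : (13 : ℤ) ∣ x * y * z := by
  have := germain (p := 13) (q := 53) (by norm_num) (by decide)
    (germain_cond_of_finset (by norm_num) {0, 1, -1, 23, -23} (by decide) (by decide)) (by decide)
    hxy hyz hzx h
  exact_mod_cast this

end Fermat.Agent.FLTSmall
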