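import Fermat.Agent.FLTSmall.CaseIIAux
import Fermat.Prelude.Def_FLTPrelim_FreyPackage

/-!
# Second case of Fermat's Last Theorem in a cyclotomic field with class number one

Let `p` be an odd prime and `K` the `p`-th cyclotomic field.  Assume that `𝓞 K` is a principal
ideal domain and that Kummer's lemma holds for `K` (a unit of `𝓞 K` congruent to a rational
integer modulo `p` is a `p`-th power).  Then `a ^ p + b ^ p = c ^ p` has no solution in coprime
integers with `p ∣ c`, `c ≠ 0` (`caseII_generic`), and, given the first case, Fermat's Last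
Theorem holds for the exponent `p` (`flt_of_caseI_of_kummer`).
-/

set_option autoImplicit false

namespace Fermat.Agent.FLTSmall

open NumberField Polynomial

section cyclotomic

variable {p : ℕ} [hp : Fact p.Prime] {K : Type*} [Field K] [NumberField K]
  [hcycl : IsCyclotomicExtension {p} ℚ K]

/-- Every `p`-th power in `𝓞 K` is congruent to a rational integer modulo `p`. -/
theorem exists_int_dvd_pow_sub {ζ : K} (hζ : IsPrimitiveRoot ζ p) (ρ : 𝓞 K) :
    ∃ n : ℤ, (p : 𝓞 K) ∣ ρ ^ p - n := by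
  have htop := IsCyclotomicExtension.Rat.adjoin_singleton_eq_top hζ
  have hρ : ρ ∈ Algebra.adjoin ℤ {hζ.toInteger} := by rw [htop]; exact Algebra.mem_top
  induction hρ using Algebra.adjoin_induction with
  | mem x hx =>
    rw [Set.mem_singleton_iff] at hx
    refine ⟨1, ?_⟩
    rw [hx, hζ.toInteger_isPrimitiveRoot.pow_eq_one]
    simp
  | algebraMap r =>
    refine ⟨r ^ p, ?_⟩
    simp
  | add x y _ _ hx hy =>
    obtain ⟨n, a, ha⟩ := hx
    obtain ⟨m, b, hb⟩ := hy
    obtain ⟨r, hr⟩ := exists_add_pow_prime_eq hp.out x y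
    refine ⟨n + m, a + b + x * y * r, ?_⟩
    push_cast
    linear_combination hr + ha + hb
  | mul x y _ _ hx hy =>
    obtain ⟨n, a, ha⟩ := hx
    obtain ⟨m, b, hb⟩ := hy
    refine ⟨n * m, a * y ^ p + n * b, ?_⟩
    push_cast
    rw [mul_pow]
    linear_combination (y ^ p) * ha + (n : 𝓞 K) * hb

/-- The hypotheses of the abstract descent hold in the ring of integers of the `p`-th cyclotomic
field, provided it is a PID and Kummer's lemma holds. -/
theorem caseIIHyp_of_cyclotomic (hodd : p ≠ 2) {ζ : K} (hζ : IsPrimitiveRoot ζ p)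
    (hKummer : ∀ u : (𝓞 K)ˣ, (∃ n : ℤ, (p : 𝓞 K) ∣ (u : 𝓞 K) - n) → ∃ v : (𝓞 K)ˣ, u = v ^ p) :
    CaseIIHyp (𝓞 K) p hζ.toInteger where
  prime_p := hp.out
  odd := hodd
  prim := hζ.toInteger_isPrimitiveRoot
  prime_lam := hζ.zeta_sub_one_prime'
  card := by
    rw [hζ.card_quotient_toInteger_sub_one, hζ.norm_toInteger_sub_one_of_prime_ne_two' hodd]
    simp
  p_dvd := (IsCyclotomicExtension.Rat.associated_zeta_sub_one_pow_prime p hζ).symm.dvd
  pow_cong := exists_int_dvd_pow_sub hζ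
  kummer := hKummer

/-- **Second case of Fermat's Last Theorem** for an odd prime `p` such that the `p`-th cyclotomic
field has class number one and satisfies Kummer's lemma: `a ^ p + b ^ p = c ^ p` has no solution
in coprime integers with `p ∣ c` and `c ≠ 0`. -/
theorem caseII_generic (hodd : p ≠ 2) [IsPrincipalIdealRing (𝓞 K)]
    (hKummer : ∀ u : (𝓞 K)ˣ, (∃ n : ℤ, (p : 𝓞 K) ∣ (u : 𝓞 K) - n) → ∃ v : (𝓞 K)ˣ, u = v ^ p)
    {a b c : ℤ} (hab : IsCoprime a b) (hc : (p : ℤ) ∣ c) (hc0 : c ≠ 0)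
    (H : a ^ p + b ^ p = c ^ p) : False := by
  have hζ := IsCyclotomicExtension.zeta_spec p ℚ K
  have h := caseIIHyp_of_cyclotomic hodd hζ hKummer
  have hpb : ¬ (p : ℤ) ∣ b := by
    intro hb
    have hpa : (p : ℤ) ∣ a ^ p := by
      have : a ^ p = c ^ p - b ^ p := by rw [← H]; ring
      rw [this]
      exact dvd_sub (dvd_pow hc hp.out.ne_zero) (dvd_pow hb hp.out.ne_zero)
    have hpa' : (p : ℤ) ∣ a := (Nat.prime_iff_prime_int.mp hp.out).dvd_of_dvd_pow hpa
    have hu : IsUnit (p : ℤ) := hab.isUnit_of_dvd' hpa' hb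
    exact (Nat.prime_iff_prime_int.mp hp.out).not_isUnit hu
  refine h.no_solution (x := (a : 𝓞 K)) (y := (b : 𝓞 K)) (c := (c : 𝓞 K)) (u := 1) ?_ ?_ ?_ ?_ ?_
  · rw [IsCyclotomicExtension.Rat.zeta_sub_one_dvd_intCast_iff' p hζ]; exact hpb
  · exact hab.intCast
  · rw [IsCyclotomicExtension.Rat.zeta_sub_one_dvd_intCast_iff' p hζ]; exact hc
  · exact_mod_cast hc0
  · rw [Units.val_one, one_mul]; exact_mod_cast congrArg (fun z : ℤ => (z : 𝓞 K)) H

/-- **Fermat's Last Theorem for a regular-type exponent**: if the `p`-th cyclotomic field has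
class number one and satisfies Kummer's lemma, and the first case holds for `p`, then
`a ^ p + b ^ p = c ^ p` has no solution in nonzero coprime integers. -/
theorem flt_of_caseI_of_kummer (hodd : p ≠ 2) [IsPrincipalIdealRing (𝓞 K)]
    (hKummer : ∀ u : (𝓞 K)ˣ, (∃ n : ℤ, (p : 𝓞 K) ∣ (u : 𝓞 K) - n) → ∃ v : (𝓞 K)ˣ, u = v ^ p)
    (hCaseI : ∀ x y z : ℤ, IsCoprime x y → IsCoprime y z → IsCoprime z x →
      x ^ p + y ^ p + z ^ p = 0 → (p : ℤ) ∣ x * y * z)
    {a b c : ℤ} (hab : IsCoprime a b) (ha : a ≠ 0) (hb : b ≠ 0) (hc : c ≠ 0)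
    (H : a ^ p + b ^ p = c ^ p) : False := by
  have hpodd : Odd p := hp.out.odd_of_ne_two hodd
  have hppos : 0 < p := hp.out.pos
  have hpp : Prime (p : ℤ) := Nat.prime_iff_prime_int.mp hp.out
  have hbc : IsCoprime b c := by
    have h1 : IsCoprime b (a ^ p + b * b ^ (p - 1)) :=
      (hab.symm.pow_right).add_mul_left_right _
    have h2 : a ^ p + b * b ^ (p - 1) = c ^ p := by
      rw [← pow_succ', Nat.sub_add_cancel hp.out.one_le, H]
    rw [h2] at h1
    exact (IsCoprime.pow_right_iff hppos).mp h1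
  have hac : IsCoprime a c := by
    have h1 : IsCoprime a (b ^ p + a * a ^ (p - 1)) :=
      (hab.pow_right).add_mul_left_right _
    have h2 : b ^ p + a * a ^ (p - 1) = c ^ p := by
      rw [← pow_succ', Nat.sub_add_cancel hp.out.one_le, ← H, add_comm]
    rw [h2] at h1
    exact (IsCoprime.pow_right_iff hppos).mp h1
  have h0 : a ^ p + b ^ p + (-c) ^ p = 0 := by rw [hpodd.neg_pow, H]; ring
  have hdvd := hCaseI a b (-c) hab hbc.neg_right hac.symm.neg_left h0
  rcases hpp.dvd_mul.mp hdvd with hd | hd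
  · rcases hpp.dvd_mul.mp hd with hd | hd
    · -- `p ∣ a`
      refine caseII_generic (K := K) hodd hKummer (a := c) (b := -b) (c := a)
        hbc.symm.neg_right hd ha ?_
      rw [hpodd.neg_pow, ← H]; ring
    · -- `p ∣ b`
      refine caseII_generic (K := K) hodd hKummer (a := c) (b := -a) (c := b)
        hac.symm.neg_right hd hb ?_
      rw [hpodd.neg_pow, ← H]; ring
  · exact caseII_generic (K := K) hodd hKummer hab ((dvd_neg).mp hd) hc H

/-- Under the same hypotheses there is no Frey package with exponent `p`. -/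
theorem freyPackage_false_of_caseI_of_kummer (hodd : p ≠ 2) [IsPrincipalIdealRing (𝓞 K)]
    (hKummer : ∀ u : (𝓞 K)ˣ, (∃ n : ℤ, (p : 𝓞 K) ∣ (u : 𝓞 K) - n) → ∃ v : (𝓞 K)ˣ, u = v ^ p)
    (hCaseI : ∀ x y z : ℤ, IsCoprime x y → IsCoprime y z → IsCoprime z x →
      x ^ p + y ^ p + z ^ p = 0 → (p : ℤ) ∣ x * y * z)
    (P : FreyPackage) (hPp : P.p = p) : False := by
  have hab : IsCoprime P.a P.b := by
    rw [← gcd_isUnit_iff, P.hgcdab]; exact isUnit_one
  have H := P.hFLT
  rw [hPp] at H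
  exact flt_of_caseI_of_kummer (K := K) hodd hKummer hCaseI hab P.ha0 P.hb0 P.hc0 H

end cyclotomic

end Fermat.Agent.FLTSmall
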