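import Mathlib

/-!
# Second case of Fermat's Last Theorem: the abstract descent (Kummer)

We work in an abstract principal ideal domain `R` containing a primitive `p`-th root of unity
`ζ` (`p` an odd prime) such that `ζ - 1` is prime with residue field of cardinality `p`,
`p ∣ (ζ - 1)^(p-1)`, every `p`-th power is congruent to a rational integer modulo `p`, and
"Kummer's lemma" holds (a unit congruent to a rational integer modulo `p` is a `p`-th power).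
Under these hypotheses (bundled in `CaseIIHyp`), the equation `x ^ p + y ^ p = u * c ^ p` with
`u` a unit, `ζ - 1 ∤ y`, `ζ - 1 ∣ c`, `c ≠ 0` and `x`, `y` coprime has no solution.
-/

namespace Fermat.Agent.FLTSmall

open Polynomial Finset

set_option linter.unusedSectionVars false

/-- The hypotheses needed for Kummer's descent in the second case. -/
structure CaseIIHyp (R : Type*) [CommRing R] (p : ℕ) (ζ : R) : Prop where
  prime_p : p.Prime
  odd : p ≠ 2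
  prim : IsPrimitiveRoot ζ p
  prime_lam : Prime (ζ - 1)
  card : Nat.card (R ⧸ Ideal.span {ζ - 1}) = p
  p_dvd : (p : R) ∣ (ζ - 1) ^ (p - 1)
  pow_cong : ∀ ρ : R, ∃ n : ℤ, (p : R) ∣ ρ ^ p - n
  kummer : ∀ u : Rˣ, (∃ n : ℤ, (p : R) ∣ (u : R) - n) → ∃ v : Rˣ, u = v ^ p

namespace CaseIIHyp

variable {R : Type*} [CommRing R] [IsDomain R] {p : ℕ} {ζ : R}

section basic

variable (h : CaseIIHyp R p ζ)
include h

theorem lam_ne_zero : ζ - 1 ≠ 0 := h.prime_lam.ne_zero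

theorem three_le : 3 ≤ p := by
  have := h.prime_p.two_le
  have := h.odd
  omega

theorem one_mem : (1 : R) ∈ nthRootsFinset p (1 : R) := by
  rw [mem_nthRootsFinset h.prime_p.pos]; exact one_pow _

theorem zeta_mem : ζ ∈ nthRootsFinset p (1 : R) := h.prim.mem_nthRootsFinset h.prime_p.pos

theorem zeta_inv_mem : ζ ^ (p - 1) ∈ nthRootsFinset p (1 : R) := by
  rw [mem_nthRootsFinset h.prime_p.pos, ← pow_mul, mul_comm, pow_mul, h.prim.pow_eq_one, one_pow]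

theorem zeta_mul_inv : ζ * ζ ^ (p - 1) = 1 := by
  rw [← pow_succ', Nat.sub_add_cancel h.prime_p.one_le, h.prim.pow_eq_one]

theorem zeta_ne_one : ζ ≠ 1 := h.prim.ne_one h.prime_p.one_lt

theorem zeta_inv_ne_one : ζ ^ (p - 1) ≠ 1 :=
  h.prim.pow_ne_one_of_pos_of_lt (by have := h.three_le; omega) (by have := h.three_le; omega)

theorem zeta_ne_zeta_inv : ζ ≠ ζ ^ (p - 1) := by
  intro he
  have h2 : ζ ^ 2 = 1 := by
    have := h.zeta_mul_inv
    rw [← he] at this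
    rw [sq]; exact this
  exact h.prim.pow_ne_one_of_pos_of_lt (by norm_num) (by have := h.three_le; omega) h2

theorem isUnit_one_add_zeta : IsUnit (1 + ζ) := by
  have := h.prim.geom_sum_isUnit h.prime_p.two_le (j := 2)
    ((Nat.coprime_primes Nat.prime_two h.prime_p).mpr (Ne.symm h.odd))
  simpa [Finset.sum_range_succ] using this

theorem lam_dvd_p : ζ - 1 ∣ (p : R) := h.prim.sub_one_dvd_natCast h.prime_p.one_lt

theorem lam_dvd_sub {η₁ η₂ : R} (hη₁ : η₁ ∈ nthRootsFinset p (1 : R))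
    (hη₂ : η₂ ∈ nthRootsFinset p (1 : R)) : ζ - 1 ∣ η₁ - η₂ :=
  h.prim.sub_one_dvd_sub h.prime_p hη₁ hη₂

theorem exists_unit_sub {η₁ η₂ : R} (hη₁ : η₁ ∈ nthRootsFinset p (1 : R))
    (hη₂ : η₂ ∈ nthRootsFinset p (1 : R)) (hne : η₁ ≠ η₂) :
    ∃ v : Rˣ, η₁ - η₂ = (ζ - 1) * v := by
  obtain ⟨v, hv⟩ := h.prim.nthRootsFinset_pairwise_associated_sub_one_sub_of_prime h.prime_p
    hη₁ hη₂ hne
  exact ⟨v, hv.symm⟩

theorem isUnit_of_mem {η : R} (hη : η ∈ nthRootsFinset p (1 : R)) : IsUnit η := by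
  rw [mem_nthRootsFinset h.prime_p.pos] at hη
  exact IsUnit.of_pow_eq_one hη h.prime_p.ne_zero

end basic

section factors

variable (h : CaseIIHyp R p ζ)
include h

/-- `x ^ p + y ^ p` is the product of the `x + η * y` over the `p`-th roots of unity `η`. -/
theorem pow_add_pow_eq_prod (x y : R) :
    x ^ p + y ^ p = ∏ η ∈ nthRootsFinset p (1 : R), (x + η * y) :=
  h.prim.pow_add_pow_eq_prod_add_mul x y (h.prime_p.odd_of_ne_two h.odd)

/-- If `ζ - 1` divides `x ^ p + y ^ p` then it divides every factor `x + η * y`. -/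
theorem lam_dvd_add_mul {x y : R} (hdvd : ζ - 1 ∣ x ^ p + y ^ p) {η : R}
    (hη : η ∈ nthRootsFinset p (1 : R)) : ζ - 1 ∣ x + η * y := by
  rw [h.pow_add_pow_eq_prod x y, h.prime_lam.dvd_finsetProd_iff] at hdvd
  obtain ⟨η₀, hη₀, hd⟩ := hdvd
  have : x + η * y = (x + η₀ * y) + (η - η₀) * y := by ring
  rw [this]
  exact dvd_add hd (Dvd.dvd.mul_right (h.lam_dvd_sub hη hη₀) y)

/-- Difference of two quotients `(x + η * y) / (ζ - 1)`. -/
theorem quot_sub {x y η₁ η₂ t₁ t₂ : R} {v : Rˣ} (hv : η₁ - η₂ = (ζ - 1) * v)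
    (h₁ : x + η₁ * y = (ζ - 1) * t₁) (h₂ : x + η₂ * y = (ζ - 1) * t₂) :
    t₁ - t₂ = v * y := by
  apply mul_left_cancel₀ h.lam_ne_zero
  rw [mul_sub, ← h₁, ← h₂, ← mul_assoc, ← hv]; ring

theorem quot_sub' {x y η₁ η₂ t₁ t₂ : R} {v : Rˣ} (hv : η₁ - η₂ = (ζ - 1) * v)
    (h₁ : x + η₁ * y = (ζ - 1) * t₁) (h₂ : x + η₂ * y = (ζ - 1) * t₂) :
    η₁ * t₂ - η₂ * t₁ = v * x := by
  apply mul_left_cancel₀ h.lam_ne_zero
  rw [mul_sub, mul_left_comm, ← h₂, mul_left_comm (ζ - 1) η₂, ← h₁, ← mul_assoc, ← hv]; ring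

/-- Two distinct quotients are coprime. -/
theorem quot_isCoprime {x y η₁ η₂ t₁ t₂ : R} (hxy : IsCoprime x y)
    (hη₁ : η₁ ∈ nthRootsFinset p (1 : R)) (hη₂ : η₂ ∈ nthRootsFinset p (1 : R)) (hne : η₁ ≠ η₂)
    (h₁ : x + η₁ * y = (ζ - 1) * t₁) (h₂ : x + η₂ * y = (ζ - 1) * t₂) : IsCoprime t₁ t₂ := by
  obtain ⟨v, hv⟩ := h.exists_unit_sub hη₁ hη₂ hne
  obtain ⟨a, b, hab⟩ := hxy
  have e1 := h.quot_sub hv h₁ h₂
  have e2 := h.quot_sub' hv h₁ h₂
  refine ⟨(v⁻¹ : Rˣ) * (b - a * η₂), (v⁻¹ : Rˣ) * (a * η₁ - b), ?_⟩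
  have : ((v⁻¹ : Rˣ) : R) * (b - a * η₂) * t₁ + ((v⁻¹ : Rˣ) : R) * (a * η₁ - b) * t₂
      = ((v⁻¹ : Rˣ) : R) * (a * (η₁ * t₂ - η₂ * t₁) + b * (t₁ - t₂)) := by ring
  rw [this, e1, e2]
  have : ((v⁻¹ : Rˣ) : R) * (a * (v * x) + b * (v * y)) = ((v⁻¹ : Rˣ) : R) * v * (a * x + b * y) := by
    ring
  rw [this, hab, Units.inv_mul, one_mul]

/-- At most one quotient is divisible by `ζ - 1`. -/
theorem quot_not_dvd {x y η₁ η₂ t₁ t₂ : R} (hy : ¬ ζ - 1 ∣ y)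
    (hη₁ : η₁ ∈ nthRootsFinset p (1 : R)) (hη₂ : η₂ ∈ nthRootsFinset p (1 : R)) (hne : η₁ ≠ η₂)
    (h₁ : x + η₁ * y = (ζ - 1) * t₁) (h₂ : x + η₂ * y = (ζ - 1) * t₂)
    (hd : ζ - 1 ∣ t₁ - t₂) : False := by
  obtain ⟨v, hv⟩ := h.exists_unit_sub hη₁ hη₂ hne
  rw [h.quot_sub hv h₁ h₂] at hd
  exact hy ((Units.dvd_mul_left).mp hd)

/-- Some factor is divisible by `(ζ - 1) ^ 2` (pigeonhole in the residue field). -/
theorem exists_sq_dvd {x y : R} (hy : ¬ ζ - 1 ∣ y) (hdvd : ζ - 1 ∣ x ^ p + y ^ p) :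
    ∃ η ∈ nthRootsFinset p (1 : R), (ζ - 1) ^ 2 ∣ x + η * y := by
  classical
  choose! t ht using fun η (hη : η ∈ nthRootsFinset p (1 : R)) => h.lam_dvd_add_mul hdvd hη
  let f : (nthRootsFinset p (1 : R)) → R ⧸ Ideal.span {ζ - 1} :=
    fun η => Ideal.Quotient.mk _ (t η)
  have hinj : Function.Injective f := by
    intro η₁ η₂ he
    by_contra hne
    have : ζ - 1 ∣ t η₁ - t η₂ := by
      rw [← Ideal.mem_span_singleton, ← Ideal.Quotient.eq]; exact he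
    exact h.quot_not_dvd hy η₁.2 η₂.2 (fun e => hne (Subtype.ext e)) (ht _ η₁.2) (ht _ η₂.2) this
  have hfin : Finite (R ⧸ Ideal.span {ζ - 1}) :=
    Nat.finite_of_card_ne_zero (by rw [h.card]; exact h.prime_p.ne_zero)
  have hsurj : Function.Surjective f :=
    (Function.Injective.bijective_of_nat_card_le hinj (by
      rw [h.card, Nat.card_eq_fintype_card, Fintype.card_coe, h.prim.card_nthRootsFinset])).2
  obtain ⟨η, hη⟩ := hsurj 0
  refine ⟨η, η.2, ?_⟩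
  rw [ht _ η.2, sq]
  apply mul_dvd_mul_left
  rw [← Ideal.mem_span_singleton, ← Ideal.Quotient.eq_zero_iff_mem]; exact hη

end factors

section descent

variable [IsPrincipalIdealRing R] (h : CaseIIHyp R p ζ)
include h

/-- Pairwise coprime elements whose product is a unit times a `p`-th power are each associated
to a `p`-th power. -/
theorem exists_assoc_pow {t : R → R} {u : Rˣ} {c₁ : R}
    (hcop : ∀ η₁ ∈ nthRootsFinset p (1 : R), ∀ η₂ ∈ nthRootsFinset p (1 : R), η₁ ≠ η₂ →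
      IsCoprime (t η₁) (t η₂))
    (hprod : ∏ η ∈ nthRootsFinset p (1 : R), t η = u * c₁ ^ p) {η : R}
    (hη : η ∈ nthRootsFinset p (1 : R)) :
    ∃ ρ : R, ∃ ε : Rˣ, t η = ε * ρ ^ p := by
  classical
  have hsplit := Finset.mul_prod_erase _ t hη
  have hco : IsCoprime (t η) (∏ η' ∈ (nthRootsFinset p (1 : R)).erase η, t η') := by
    apply IsCoprime.prod_right
    intro η' hη'
    rw [Finset.mem_erase] at hη'
    exact hcop η hη η' hη'.2 (Ne.symm hη'.1)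
  have hassoc : Associated (c₁ ^ p)
      (t η * ∏ η' ∈ (nthRootsFinset p (1 : R)).erase η, t η') := by
    rw [hsplit, hprod]
    exact ⟨u, by ring⟩
  obtain ⟨ρ, ε, hε⟩ := exists_associated_pow_of_associated_pow_mul hco hassoc
  exact ⟨ρ, ε, by rw [← hε]; ring⟩

/-- The descent step. -/
theorem descent {x y c : R} {u : Rˣ} (hy : ¬ ζ - 1 ∣ y) (hxy : IsCoprime x y)
    (hc : ζ - 1 ∣ c) (hc0 : c ≠ 0) (H : x ^ p + y ^ p = u * c ^ p)
    (hsq : (ζ - 1) ^ 2 ∣ x + y) :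
    ∃ x' y' c' : R, ∃ u' : Rˣ, ¬ ζ - 1 ∣ y' ∧ IsCoprime x' y' ∧ ζ - 1 ∣ c' ∧ c' ≠ 0 ∧
      x' ^ p + y' ^ p = u' * c' ^ p ∧ (ζ - 1) * c' ∣ c := by
  classical
  have hp0 : p ≠ 0 := h.prime_p.ne_zero
  have hdvd : ζ - 1 ∣ x ^ p + y ^ p := by
    rw [H]; exact Dvd.dvd.mul_left (dvd_pow hc hp0) _
  choose! t ht using fun η (hη : η ∈ nthRootsFinset p (1 : R)) => h.lam_dvd_add_mul hdvd hη
  obtain ⟨c₁, rfl⟩ := hc
  have hc₁ : c₁ ≠ 0 := right_ne_zero_of_mul hc0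
  -- the product of the quotients
  have hprod : ∏ η ∈ nthRootsFinset p (1 : R), t η = u * c₁ ^ p := by
    apply mul_left_cancel₀ (pow_ne_zero p h.lam_ne_zero)
    have : (ζ - 1) ^ p * ∏ η ∈ nthRootsFinset p (1 : R), t η
        = ∏ η ∈ nthRootsFinset p (1 : R), (x + η * y) := by
      rw [Finset.prod_congr rfl (fun η hη => ht η hη), Finset.prod_mul_distrib,
        Finset.prod_const, h.prim.card_nthRootsFinset]
    rw [this, ← h.pow_add_pow_eq_prod, H, mul_pow]; ring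
  have hcop : ∀ η₁ ∈ nthRootsFinset p (1 : R), ∀ η₂ ∈ nthRootsFinset p (1 : R), η₁ ≠ η₂ →
      IsCoprime (t η₁) (t η₂) :=
    fun η₁ hη₁ η₂ hη₂ hne => h.quot_isCoprime hxy hη₁ hη₂ hne (ht _ hη₁) (ht _ hη₂)
  obtain ⟨ρ₀, ε₀, h0⟩ := h.exists_assoc_pow hcop hprod h.one_mem
  obtain ⟨ρ₁, ε₁, h1⟩ := h.exists_assoc_pow hcop hprod h.zeta_mem
  obtain ⟨ρ₂, ε₂, h2⟩ := h.exists_assoc_pow hcop hprod h.zeta_inv_mem
  -- `ζ - 1 ∣ t 1`
  have ht1 : ζ - 1 ∣ t 1 := by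
    have := ht 1 h.one_mem
    rw [one_mul] at this
    rw [this, sq] at hsq
    exact (mul_dvd_mul_iff_left h.lam_ne_zero).mp hsq
  have hρ₀ : ζ - 1 ∣ ρ₀ := by
    rw [h0] at ht1
    exact h.prime_lam.dvd_of_dvd_pow ((Units.dvd_mul_left).mp ht1)
  have htζ' : ¬ ζ - 1 ∣ t (ζ ^ (p - 1)) := fun hd =>
    h.quot_not_dvd hy h.zeta_inv_mem h.one_mem h.zeta_inv_ne_one (ht _ h.zeta_inv_mem)
      (ht _ h.one_mem) (dvd_sub hd ht1)
  have hρ₂ : ¬ ζ - 1 ∣ ρ₂ := fun hd =>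
    htζ' (by rw [h2]; exact Dvd.dvd.mul_left (dvd_pow hd hp0) _)
  -- the three-term identity
  have hid : ζ * t (ζ ^ (p - 1)) + t ζ = (1 + ζ) * t 1 := by
    apply mul_left_cancel₀ h.lam_ne_zero
    have e0 := ht 1 h.one_mem
    have e1 := ht ζ h.zeta_mem
    have e2 := ht _ h.zeta_inv_mem
    have hz := h.zeta_mul_inv
    calc (ζ - 1) * (ζ * t (ζ ^ (p - 1)) + t ζ)
        = ζ * ((ζ - 1) * t (ζ ^ (p - 1))) + (ζ - 1) * t ζ := by ring
      _ = ζ * (x + ζ ^ (p - 1) * y) + (x + ζ * y) := by rw [← e2, ← e1]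
      _ = ζ * x + (ζ * ζ ^ (p - 1)) * y + (x + ζ * y) := by ring
      _ = (1 + ζ) * (x + 1 * y) := by rw [hz]; ring
      _ = (ζ - 1) * ((1 + ζ) * t 1) := by rw [e0]; ring
  -- units
  obtain ⟨ω, hω⟩ := h.isUnit_one_add_zeta
  obtain ⟨ζu, hζu⟩ := h.isUnit_of_mem h.zeta_mem
  set E : Rˣ := ζu * ε₂ * ε₁⁻¹ with hE
  set W : Rˣ := ε₁⁻¹ * ω * ε₀ with hW
  have hstar : (E : R) * ρ₂ ^ p + ρ₁ ^ p = W * ρ₀ ^ p := by
    rw [h0, h1, h2, ← hω, ← hζu] at hid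
    have : (E : R) * ρ₂ ^ p + ρ₁ ^ p
        = ((ε₁⁻¹ : Rˣ) : R) * (ζu * (ε₂ * ρ₂ ^ p) + ε₁ * ρ₁ ^ p) := by
      rw [hE]; push_cast
      have : ((ε₁⁻¹ : Rˣ) : R) * ε₁ = 1 := Units.inv_mul ε₁
      linear_combination (-(ρ₁ ^ p)) * this
    rw [this, hid, hW]; push_cast; ring
  -- `E` is congruent to an integer mod `p`
  have hEint : ∃ n : ℤ, (p : R) ∣ (E : R) - n := by
    obtain ⟨n₁, a₁, h₁'⟩ := h.pow_cong ρ₁
    obtain ⟨n₂, a₂, h₂'⟩ := h.pow_cong ρ₂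
    have h₀' : (p : R) ∣ ρ₀ ^ p := by
      obtain ⟨r, rfl⟩ := hρ₀
      have : ((ζ - 1) * r) ^ p = (ζ - 1) ^ (p - 1) * ((ζ - 1) * r ^ p) := by
        have h6 : (ζ - 1) ^ p = (ζ - 1) ^ (p - 1) * (ζ - 1) := by
          rw [← pow_succ, Nat.sub_add_cancel h.prime_p.one_le]
        rw [mul_pow, h6]; ring
      rw [this]
      exact Dvd.dvd.mul_right h.p_dvd _
    obtain ⟨a₀, h₀'⟩ := h₀'
    have hn₂ : ¬ (p : ℤ) ∣ n₂ := by
      intro hd
      apply hρ₂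
      apply h.prime_lam.dvd_of_dvd_pow (n := p)
      have h3 : (p : R) ∣ (n₂ : R) := by
        obtain ⟨k, rfl⟩ := hd
        exact ⟨k, by push_cast; ring⟩
      have h4 : (p : R) ∣ ρ₂ ^ p := by
        have := dvd_add (Dvd.intro _ h₂'.symm) h3
        simpa using this
      exact h.lam_dvd_p.trans h4
    have hcop' : IsCoprime (p : ℤ) n₂ :=
      (Nat.prime_iff_prime_int.mp h.prime_p).coprime_iff_not_dvd.mpr hn₂
    obtain ⟨a, b, hab⟩ := hcop'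
    have hab' : (a : R) * (p : R) + (b : R) * (n₂ : R) = 1 := by
      have := congrArg (fun z : ℤ => (z : R)) hab
      simpa using this
    refine ⟨-(n₁ * b), (E : R) * a + b * (W * a₀ - E * a₂ - a₁), ?_⟩
    push_cast
    linear_combination (-(E : R)) * hab' + (b : R) * hstar - (b : R) * h₁' - (b * E : R) * h₂'
      + (b * W : R) * h₀'
  obtain ⟨v, hv⟩ := h.kummer E hEint
  refine ⟨ρ₁, v * ρ₂, ρ₀, W, ?_, ?_, hρ₀, ?_, ?_, ?_⟩
  · exact fun hd => hρ₂ ((Units.dvd_mul_left).mp hd)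
  · have hco := hcop ζ h.zeta_mem _ h.zeta_inv_mem h.zeta_ne_zeta_inv
    rw [h1, h2] at hco
    rw [isCoprime_mul_unit_left_left ε₁.isUnit, isCoprime_mul_unit_left_right ε₂.isUnit,
      IsCoprime.pow_iff h.prime_p.pos h.prime_p.pos] at hco
    exact (isCoprime_mul_unit_left_right v.isUnit _ _).mpr hco
  · rintro rfl
    have : ∏ η ∈ nthRootsFinset p (1 : R), t η = 0 :=
      Finset.prod_eq_zero h.one_mem (by rw [h0, zero_pow hp0, mul_zero])
    rw [hprod] at this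
    exact (mul_ne_zero u.ne_zero (pow_ne_zero p hc₁)) this
  · rw [mul_pow, ← Units.val_pow_eq_pow_val, ← hv, add_comm]; exact hstar
  · apply mul_dvd_mul_left
    have h5 : ρ₀ ^ p ∣ u * c₁ ^ p := by
      rw [← hprod]
      exact Dvd.dvd.trans (Dvd.intro_left _ h0.symm) (Finset.dvd_prod_of_mem t h.one_mem)
    exact (UniqueFactorizationMonoid.pow_dvd_pow_iff_dvd hp0).mp ((Units.dvd_mul_left).mp h5)

/-- Iterating the descent: `c` is divisible by every power of `ζ - 1`. -/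
theorem pow_dvd_of_solution (n : ℕ) : ∀ {x y c : R} {u : Rˣ}, ¬ ζ - 1 ∣ y → IsCoprime x y →
    ζ - 1 ∣ c → c ≠ 0 → x ^ p + y ^ p = u * c ^ p → (ζ - 1) ^ n ∣ c := by
  induction n with
  | zero => intros; simp
  | succ n ih =>
    intro x y c u hy hxy hc hc0 H
    have hdvd : ζ - 1 ∣ x ^ p + y ^ p := by
      rw [H]; exact Dvd.dvd.mul_left (dvd_pow hc h.prime_p.ne_zero) _
    obtain ⟨η, hη, hsq⟩ := h.exists_sq_dvd hy hdvd
    have hηu := h.isUnit_of_mem hη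
    have hηp : η ^ p = 1 := (mem_nthRootsFinset h.prime_p.pos 1).mp hη
    have hy' : ¬ ζ - 1 ∣ η * y := fun hd => hy ((hηu.dvd_mul_left).mp hd)
    have hxy' : IsCoprime x (η * y) := (isCoprime_mul_unit_left_right hηu _ _).mpr hxy
    have H' : x ^ p + (η * y) ^ p = u * c ^ p := by rw [mul_pow, hηp, one_mul, H]
    obtain ⟨x', y', c', u', hy'', hxy'', hc', hc0', H'', hdiv⟩ :=
      h.descent hy' hxy' hc hc0 H' hsq
    have := ih hy'' hxy'' hc' hc0' H''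
    rw [pow_succ']
    exact (mul_dvd_mul_left _ this).trans hdiv

/-- **Kummer's descent**: the generalised second case equation has no solution. -/
theorem no_solution {x y c : R} {u : Rˣ} (hy : ¬ ζ - 1 ∣ y) (hxy : IsCoprime x y)
    (hc : ζ - 1 ∣ c) (hc0 : c ≠ 0) (H : x ^ p + y ^ p = u * c ^ p) : False := by
  have hfin : FiniteMultiplicity (ζ - 1) c :=
    FiniteMultiplicity.of_not_isUnit h.prime_lam.not_isUnit hc0
  obtain ⟨n, hn⟩ := hfin
  exact hn (h.pow_dvd_of_solution (n + 1) hy hxy hc hc0 H)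

end descent

end CaseIIHyp

end Fermat.Agent.FLTSmall
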