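import Mathlib

/-!
# FLTSmall (K2): tools for proving that `ℤ[ζ_p]` is a PID

* `pid_of_bound`: reduction of `IsPrincipalIdealRing (𝓞 K)` for the `p`-th cyclotomic field to a
  numerical bound on the Minkowski constant and a check at the primes below the bound.
* `exists_isPrincipal_primesOver_of_cert`: a certificate-based criterion for the existence of a
  principal prime ideal above a rational prime `q`.
-/

set_option autoImplicit false
set_option linter.style.haveILetI false
set_option linter.unusedSectionVars false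

namespace Fermat.Agent.FLTSmall

open NumberField Polynomial Ideal IsCyclotomicExtension IsCyclotomicExtension.Rat Module
  InfinitePlace Real RingOfIntegers

section OrderOf

/-- A lower bound for `q ^ orderOf q` from non-triviality of small powers. -/
theorem lt_pow_orderOf {p : ℕ} [Fact p.Prime] {q B k : ℕ} (hq : 0 < q)
    (hunit : (q : ZMod p) ≠ 0)
    (hk : ∀ j < k, 0 < j → (q : ZMod p) ^ j ≠ 1) (hB : B < q ^ k) :
    B < q ^ orderOf (q : ZMod p) := by
  have hfin : IsOfFinOrder (q : ZMod p) := by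
    rw [isOfFinOrder_iff_pow_eq_one]
    exact ⟨p - 1, Nat.sub_pos_of_lt (Fact.out : p.Prime).one_lt, ZMod.pow_card_sub_one_eq_one hunit⟩
  have hpos : 0 < orderOf (q : ZMod p) := hfin.orderOf_pos
  have hle : k ≤ orderOf (q : ZMod p) := by
    by_contra hlt
    exact hk _ (not_le.mp hlt) hpos (pow_orderOf_eq_one _)
  exact hB.trans_le (Nat.pow_le_pow_right hq hle)

end OrderOf

section Reduction

variable (K : Type*) [Field K] [NumberField K]

/-- Reduction of the PID property of the `p`-th cyclotomic ring to the primes below a bound. -/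
theorem pid_of_bound (p : ℕ) [Fact p.Prime] [IsCyclotomicExtension {p} ℚ K] (B : ℕ)
    (hM : (4 / π) ^ nrComplexPlaces K *
      ((finrank ℚ K).factorial / (finrank ℚ K) ^ (finrank ℚ K) * √|(discr K : ℝ)|) < B + 1)
    (h : ∀ q : ℕ, q.Prime → q ≤ B → q ≠ p →
      B < q ^ orderOf (q : ZMod p) ∨
        ∃ P ∈ primesOver (span {(q : ℤ)}) (𝓞 K), Submodule.IsPrincipal P) :
    IsPrincipalIdealRing (𝓞 K) := by
  haveI : IsGalois ℚ K := IsCyclotomicExtension.isGalois {p} ℚ K
  apply isPrincipalIdealRing_of_isPrincipal_of_lt_or_isPrincipal_of_mem_primesOver_of_mem_Icc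
  intro q hq hqp
  have hfloor : ⌊(4 / π) ^ nrComplexPlaces K *
      ((finrank ℚ K).factorial / (finrank ℚ K) ^ (finrank ℚ K) * √|(discr K : ℝ)|)⌋₊ ≤ B := by
    rw [← Nat.lt_succ_iff, Nat.floor_lt (by positivity)]
    exact_mod_cast hM
  have hqB : q ≤ B := (Finset.mem_Icc.mp hq).2.trans hfloor
  haveI : Fact q.Prime := ⟨hqp⟩
  obtain ⟨⟨P, hP⟩⟩ := (span {(q : ℤ)}).nonempty_primesOver (S := 𝓞 K)
  haveI := hP.1
  haveI := hP.2
  by_cases hqp' : q = p
  · subst hqp'
    refine ⟨P, hP, Or.inr ?_⟩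
    rw [eq_span_zeta_sub_one_of_liesOver' q K (zeta_spec q ℚ K) P]
    exact ⟨⟨_, rfl⟩⟩
  · rcases h q hqp hqB hqp' with h1 | h1
    · refine ⟨P, hP, Or.inl ?_⟩
      have hnd : ¬ q ∣ p := by
        intro hdvd
        exact hqp' ((Nat.prime_dvd_prime_iff_eq hqp (Fact.out : p.Prime)).mp hdvd)
      rw [inertiaDeg_eq_of_not_dvd q K P hnd]
      exact lt_of_le_of_lt hfloor h1
    · obtain ⟨P', hP', hprin⟩ := h1
      exact ⟨P', hP', Or.inr hprin⟩

end Reduction

section Certificate

variable {K : Type*} [Field K] [NumberField K]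

/-- A certificate for a principal prime above `q`: `Q` is a lift of a monic irreducible factor of
the minimal polynomial of `θ` modulo `q`, and `α` generates `(q, Q(θ))`. -/
theorem exists_isPrincipal_primesOver_of_cert (θ : 𝓞 K) (hθ : Algebra.adjoin ℤ {θ} = ⊤)
    (q : ℕ) [Fact q.Prime] (Q : ℤ[X])
    (hirr : Irreducible (Q.map (Int.castRingHom (ZMod q))))
    (hmonic : (Q.map (Int.castRingHom (ZMod q))).Monic)
    (hdvd : Q.map (Int.castRingHom (ZMod q)) ∣ (minpoly ℤ θ).map (Int.castRingHom (ZMod q)))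
    (α β γ μ ν : 𝓞 K)
    (h1 : (q : 𝓞 K) = α * β) (h2 : aeval θ Q = α * γ)
    (h3 : α = (q : 𝓞 K) * μ + aeval θ Q * ν) :
    ∃ P ∈ primesOver (span {(q : ℤ)}) (𝓞 K), Submodule.IsPrincipal P := by
  have hexp : ¬ q ∣ exponent θ := by
    rw [exponent_eq_one_iff.mpr hθ]
    exact (Fact.out : q.Prime).not_dvd_one
  have h₀ : map (Int.castRingHom (ZMod q)) (minpoly ℤ θ) ≠ 0 :=
    map_monic_ne_zero (minpoly.monic θ.isIntegral)
  have hQ : Q.map (Int.castRingHom (ZMod q)) ∈ monicFactorsMod θ q := by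
    rw [Multiset.mem_toFinset, Polynomial.mem_normalizedFactors_iff h₀]
    exact ⟨hirr, hmonic, hdvd⟩
  refine ⟨((NumberField.Ideal.primesOverSpanEquivMonicFactorsMod hexp).symm ⟨_, hQ⟩ :
    Ideal (𝓞 K)), Subtype.prop _, ?_⟩
  rw [NumberField.Ideal.primesOverSpanEquivMonicFactorsMod_symm_apply_eq_span hexp hQ]
  have : span {(q : 𝓞 K), aeval θ Q} = span {α} := by
    apply le_antisymm
    · rw [span_le]
      intro x hx
      rcases hx with rfl | rfl
      · exact mem_span_singleton.mpr ⟨β, h1⟩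
      · exact mem_span_singleton.mpr ⟨γ, h2⟩
    · rw [span_le]
      intro x hx
      rw [Set.mem_singleton_iff] at hx
      subst hx
      rw [SetLike.mem_coe, mem_span_pair]
      exact ⟨μ, ν, by rw [h3]; ring⟩
  rw [this]
  exact ⟨⟨α, rfl⟩⟩

end Certificate

end Fermat.Agent.FLTSmall
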