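import Mathlib

/-!
# Sophie Germain's theorem (generalised form, with an auxiliary prime `q`)

Let `p` be an odd prime and `q` a prime such that
* `x ^ p + y ^ p + z ^ p = 0` in `ZMod q` forces `x * y * z = 0`, and
* `p` is not a `p`-th power in `ZMod q`.
Then every solution of `x ^ p + y ^ p + z ^ p = 0` in pairwise coprime integers has `p ∣ x * y * z`
(the first case of Fermat's Last Theorem holds for the exponent `p`).
-/

set_option autoImplicit false

namespace Fermat.Agent.FLTSmall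

open Finset

/-- The cofactor `(y ^ p + z ^ p) / (y + z)`. -/
def germainPhi (p : ℕ) (y z : ℤ) : ℤ := ∑ i ∈ range p, y ^ i * (-z) ^ (p - 1 - i)

theorem germainPhi_mul {p : ℕ} (hp : Odd p) (y z : ℤ) :
    germainPhi p y z * (y + z) = y ^ p + z ^ p := by
  have := geom_sum₂_mul y (-z) p
  rw [hp.neg_pow, sub_neg_eq_add, sub_neg_eq_add] at this
  exact this

/-- `φ(y, z) ≡ p * y ^ (p - 1)` modulo `y + z`. -/
theorem add_dvd_germainPhi_sub (p : ℕ) (y z : ℤ) :
    y + z ∣ germainPhi p y z - p * y ^ (p - 1) := by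
  have h1 : (p : ℤ) * y ^ (p - 1) = ∑ i ∈ range p, y ^ i * y ^ (p - 1 - i) := by
    rw [Finset.sum_congr rfl (fun i hi => ?_), Finset.sum_const, card_range, nsmul_eq_mul]
    rw [← pow_add]
    congr 1
    have := mem_range.mp hi
    omega
  rw [germainPhi, h1, ← Finset.sum_sub_distrib]
  refine Finset.dvd_sum fun i _ => ?_
  rw [← mul_sub]
  refine Dvd.dvd.mul_left ?_ _
  have := sub_dvd_pow_sub_pow (-z) y (p - 1 - i)
  rwa [show -z - y = -(y + z) by ring, neg_dvd] at this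

theorem isCoprime_of_forall_prime {a b : ℤ}
    (h : ∀ r : ℕ, r.Prime → (r : ℤ) ∣ a → (r : ℤ) ∣ b → False) : IsCoprime a b := by
  rw [Int.isCoprime_iff_gcd_eq_one]
  by_contra hne
  obtain ⟨r, hr, hrd⟩ := Nat.exists_prime_and_dvd hne
  exact h r hr ((Int.natCast_dvd_natCast.mpr hrd).trans (Int.gcd_dvd_left a b))
    ((Int.natCast_dvd_natCast.mpr hrd).trans (Int.gcd_dvd_right a b))

/-- If `y, z` are coprime and `p ∤ y ^ p + z ^ p`, then `y + z` and the cofactor are coprime. -/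
theorem isCoprime_add_germainPhi {p : ℕ} (hp : p.Prime) (hodd : Odd p) {y z : ℤ}
    (hyz : IsCoprime y z) (hpx : ¬ (p : ℤ) ∣ y ^ p + z ^ p) :
    IsCoprime (y + z) (germainPhi p y z) := by
  refine isCoprime_of_forall_prime fun r hr h1 h2 => ?_
  have hr' : Prime (r : ℤ) := Nat.prime_iff_prime_int.mp hr
  have h3 : (r : ℤ) ∣ (p : ℤ) * y ^ (p - 1) := by
    have := (h1.trans (add_dvd_germainPhi_sub p y z))
    have h4 := dvd_sub h2 this
    rwa [sub_sub_cancel] at h4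
  rcases hr'.dvd_or_dvd h3 with h | h
  · -- `r = p`
    have : r = p := (Nat.prime_dvd_prime_iff_eq hr hp).mp (Int.natCast_dvd_natCast.mp h)
    subst this
    exact hpx (by rw [← germainPhi_mul hodd]; exact Dvd.dvd.mul_left h1 _)
  · have hy : (r : ℤ) ∣ y := hr'.dvd_of_dvd_pow h
    have hz : (r : ℤ) ∣ z := by
      have := dvd_sub h1 hy
      rwa [add_sub_cancel_left] at this
    exact hr'.not_isUnit (hyz.isUnit_of_dvd' hy hz)

/-- Both factors of `y ^ p + z ^ p = (y + z) φ(y, z) = (-x) ^ p` are `p`-th powers. -/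
theorem exists_pow_eq_of_add_eq {p : ℕ} (hp : p.Prime) (hodd : Odd p) {x y z : ℤ}
    (hyz : IsCoprime y z) (hpx : ¬ (p : ℤ) ∣ x) (h : x ^ p + y ^ p + z ^ p = 0) :
    ∃ A T : ℤ, y + z = A ^ p ∧ germainPhi p y z = T ^ p := by
  have hsum : y ^ p + z ^ p = (-x) ^ p := by rw [hodd.neg_pow]; linarith
  have hpx' : ¬ (p : ℤ) ∣ y ^ p + z ^ p := by
    rw [hsum, hodd.neg_pow, dvd_neg]
    exact fun hd => hpx ((Nat.prime_iff_prime_int.mp hp).dvd_of_dvd_pow hd)
  have hcop := isCoprime_add_germainPhi hp hodd hyz hpx'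
  have hmul : (y + z) * germainPhi p y z = (-x) ^ p := by
    rw [mul_comm, germainPhi_mul hodd, hsum]
  obtain ⟨A, hA⟩ := Int.eq_pow_of_mul_eq_pow_odd_left hcop hodd hmul
  obtain ⟨T, hT⟩ := Int.eq_pow_of_mul_eq_pow_odd_left hcop.symm hodd (by rw [mul_comm]; exact hmul)
  exact ⟨A, T, hA, hT⟩


section core

variable {p q : ℕ}

theorem cast_germainPhi (p : ℕ) (y z : ℤ) (R : Type*) [CommRing R] :
    ((germainPhi p y z : ℤ) : R) = ∑ i ∈ range p, (y : R) ^ i * (-(z : R)) ^ (p - 1 - i) := by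
  simp [germainPhi]

theorem not_dvd_of_isCoprime_of_dvd {q : ℕ} (hq : q.Prime) {a b : ℤ} (hab : IsCoprime a b)
    (ha : (q : ℤ) ∣ a) : ¬ (q : ℤ) ∣ b := fun hb =>
  (Nat.prime_iff_prime_int.mp hq).not_isUnit (hab.isUnit_of_dvd' ha hb)

theorem germain_core (hp : p.Prime) (hodd : Odd p) [hq : Fact q.Prime]
    (h1 : ∀ a b c : ZMod q, a ^ p + b ^ p + c ^ p = 0 → a = 0 ∨ b = 0 ∨ c = 0)
    (h2 : ∀ u : ZMod q, u ^ p ≠ (p : ZMod q))
    {x y z : ℤ} (hxy : IsCoprime x y) (hyz : IsCoprime y z) (hzx : IsCoprime z x)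
    (hpx : ¬ (p : ℤ) ∣ x) (hpy : ¬ (p : ℤ) ∣ y) (hpz : ¬ (p : ℤ) ∣ z)
    (h : x ^ p + y ^ p + z ^ p = 0) (hqx : (q : ℤ) ∣ x) : False := by
  obtain ⟨A, T, hA, hT⟩ := exists_pow_eq_of_add_eq hp hodd hyz hpx h
  obtain ⟨B, S, hB, hS⟩ := exists_pow_eq_of_add_eq hp hodd hzx hpy
    (by linarith : y ^ p + z ^ p + x ^ p = 0)
  obtain ⟨C, -, hC, -⟩ := exists_pow_eq_of_add_eq hp hodd hxy hpz
    (by linarith : z ^ p + x ^ p + y ^ p = 0)
  have hx0 : ((x : ℤ) : ZMod q) = 0 := (ZMod.intCast_zmod_eq_zero_iff_dvd x q).mpr hqx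
  have hy0 : ((y : ℤ) : ZMod q) ≠ 0 := fun h0 =>
    not_dvd_of_isCoprime_of_dvd hq.out hxy hqx ((ZMod.intCast_zmod_eq_zero_iff_dvd y q).mp h0)
  have hz0 : ((z : ℤ) : ZMod q) ≠ 0 := fun h0 =>
    not_dvd_of_isCoprime_of_dvd hq.out hzx.symm hqx
      ((ZMod.intCast_zmod_eq_zero_iff_dvd z q).mp h0)
  have hA' : (y : ZMod q) + z = (A : ZMod q) ^ p := by exact_mod_cast congrArg (Int.cast : ℤ → ZMod q) hA
  have hB' : (z : ZMod q) + x = (B : ZMod q) ^ p := by exact_mod_cast congrArg (Int.cast : ℤ → ZMod q) hB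
  have hC' : (x : ZMod q) + y = (C : ZMod q) ^ p := by exact_mod_cast congrArg (Int.cast : ℤ → ZMod q) hC
  have hsum : (B : ZMod q) ^ p + (C : ZMod q) ^ p + (-(A : ZMod q)) ^ p = 0 := by
    rw [hodd.neg_pow, ← hA', ← hB', ← hC', hx0]
    ring
  rcases h1 _ _ _ hsum with hB0 | hC0 | hA0
  · rw [hB0, zero_pow hp.ne_zero, hx0, add_zero] at hB'
    exact hz0 hB'
  · rw [hC0, zero_pow hp.ne_zero, hx0, zero_add] at hC'
    exact hy0 hC'
  · rw [neg_eq_zero] at hA0
    rw [hA0, zero_pow hp.ne_zero] at hA'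
    have hzy : (z : ZMod q) = -(y : ZMod q) := by linear_combination hA'
    -- `T ^ p = p * y ^ (p - 1)`
    have hT' : (T : ZMod q) ^ p = (p : ZMod q) * (y : ZMod q) ^ (p - 1) := by
      have := congrArg (Int.cast : ℤ → ZMod q) hT
      rw [cast_germainPhi, Int.cast_pow] at this
      rw [← this, hzy, neg_neg]
      rw [Finset.sum_congr rfl (fun i hi => ?_), Finset.sum_const, card_range, nsmul_eq_mul]
      rw [← pow_add]
      congr 1
      have := mem_range.mp hi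
      omega
    -- `S ^ p = y ^ (p - 1)`
    have hS' : (S : ZMod q) ^ p = (y : ZMod q) ^ (p - 1) := by
      have := congrArg (Int.cast : ℤ → ZMod q) hS
      rw [cast_germainPhi, Int.cast_pow] at this
      rw [← this, hx0, neg_zero]
      rw [Finset.sum_eq_single (p - 1)]
      · rw [Nat.sub_self, pow_zero, mul_one, hzy, Even.neg_pow]
        exact hp.even_sub_one (fun h2' => by subst h2'; exact absurd hodd (by decide))
      · intro i hi hne
        have := mem_range.mp hi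
        rw [zero_pow (by omega), mul_zero]
      · intro hnot
        exact absurd (mem_range.mpr (Nat.sub_lt hp.pos one_pos)) hnot
    have hS0 : (S : ZMod q) ≠ 0 := by
      intro h0
      rw [h0, zero_pow hp.ne_zero] at hS'
      exact pow_ne_zero _ hy0 hS'.symm
    refine h2 ((T : ZMod q) / S) ?_
    rw [div_pow, hT', hS']
    field_simp

end core

/-- **Sophie Germain's theorem** (generalised): the first case of Fermat's Last Theorem for the
exponent `p`, given an auxiliary prime `q`. -/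
theorem germain {p q : ℕ} (hp : p.Prime) (hodd : Odd p) [hq : Fact q.Prime]
    (h1 : ∀ a b c : ZMod q, a ^ p + b ^ p + c ^ p = 0 → a = 0 ∨ b = 0 ∨ c = 0)
    (h2 : ∀ u : ZMod q, u ^ p ≠ (p : ZMod q))
    {x y z : ℤ} (hxy : IsCoprime x y) (hyz : IsCoprime y z) (hzx : IsCoprime z x)
    (h : x ^ p + y ^ p + z ^ p = 0) : (p : ℤ) ∣ x * y * z := by
  by_contra hnot
  have hpP : Prime (p : ℤ) := Nat.prime_iff_prime_int.mp hp
  have hpx : ¬ (p : ℤ) ∣ x := fun hd => hnot (Dvd.dvd.mul_right (Dvd.dvd.mul_right hd _) _)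
  have hpy : ¬ (p : ℤ) ∣ y := fun hd => hnot (Dvd.dvd.mul_right (Dvd.dvd.mul_left hd _) _)
  have hpz : ¬ (p : ℤ) ∣ z := fun hd => hnot (Dvd.dvd.mul_left hd _)
  have hmod : (x : ZMod q) ^ p + (y : ZMod q) ^ p + (z : ZMod q) ^ p = 0 := by
    exact_mod_cast congrArg (Int.cast : ℤ → ZMod q) h
  rcases h1 _ _ _ hmod with hx | hy | hz
  · exact germain_core hp hodd h1 h2 hxy hyz hzx hpx hpy hpz h
      ((ZMod.intCast_zmod_eq_zero_iff_dvd x q).mp hx)
  · exact germain_core hp hodd h1 h2 hyz hzx hxy hpy hpz hpx (by linarith)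
      ((ZMod.intCast_zmod_eq_zero_iff_dvd y q).mp hy)
  · exact germain_core hp hodd h1 h2 hzx hxy hyz hpz hpx hpy (by linarith)
      ((ZMod.intCast_zmod_eq_zero_iff_dvd z q).mp hz)

end Fermat.Agent.FLTSmall
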