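import Mathlib

/-!
# Herbrand quotient of a finitely generated abelian group with an automorphism of prime order

Elementary (index-theoretic) computation used for Hilbert's Theorem 92: if `A` is a finitely
generated abelian group, `σ` an endomorphism with `σ ^ p = 1` (`p` prime), `N = 1 + σ + ⋯ + σ^(p-1)`,
`φ = 1 - σ`, `rank A + 1 = p * t` and `rank (ker φ) + 1 = t`, then
`[ker N : im φ] = p * [ker φ : im N]`; in particular `ker N ≠ im φ`.
-/

namespace Fermat.Agent.FLTSmall

open AddSubgroup Polynomial Finset Module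

/-- Index formula: `[A : B] = [f A : f B] * [ker f : ker f ∩ B]`. -/
theorem index_eq_relIndex_map_mul {A A' : Type*} [AddCommGroup A] [AddCommGroup A'] (f : A →+ A')
    (B : AddSubgroup A) :
    B.index = (B.map f).relIndex f.range * (B ⊓ f.ker).relIndex f.ker := by
  have h1 : (B.map f).relIndex f.range = (B ⊔ f.ker).index := by
    have := AddSubgroup.relIndex_map_map f B ⊤
    rw [← AddMonoidHom.range_eq_map] at this
    rw [this, top_sup_eq, AddSubgroup.relIndex_top_right]
  have h2 : (B ⊓ f.ker).relIndex f.ker = B.relIndex (B ⊔ f.ker) := by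
    rw [AddSubgroup.inf_relIndex_right, AddSubgroup.relIndex_sup_left]
  rw [h1, h2, mul_comm]
  exact (AddSubgroup.relIndex_mul_index le_sup_left).symm

/-- one half of the comparison: `[g A : g B] * [ker f : g A] = [ker f' : g' Λ] * [ker f : ker f ∩ B]`
where `B = ι Λ`. -/
theorem herbrand_half {A Λ : Type*} [AddCommGroup A] [AddCommGroup Λ] (f g : A →+ A)
    (f' g' : Λ →+ Λ) (ι : Λ →+ A) (hι : Function.Injective ι)
    (hf : ∀ x, ι (f' x) = f (ι x)) (hg : ∀ x, ι (g' x) = g (ι x))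
    (hfg : ∀ x, f (g x) = 0) :
    (ι.range.map g).relIndex g.range * g.range.relIndex f.ker =
      g'.range.relIndex f'.ker * (ι.range ⊓ f.ker).relIndex f.ker := by
  have e1 : ι.range.map g = g'.range.map ι := by
    ext y
    simp only [AddSubgroup.mem_map, AddMonoidHom.mem_range]
    constructor
    · rintro ⟨_, ⟨x, rfl⟩, rfl⟩
      exact ⟨g' x, ⟨x, rfl⟩, hg x⟩
    · rintro ⟨_, ⟨x, rfl⟩, rfl⟩
      exact ⟨ι x, ⟨x, rfl⟩, (hg x).symm⟩
  have e2 : ι.range ⊓ f.ker = f'.ker.map ι := by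
    ext y
    simp only [AddSubgroup.mem_inf, AddSubgroup.mem_map, AddMonoidHom.mem_range,
      AddMonoidHom.mem_ker]
    constructor
    · rintro ⟨⟨x, rfl⟩, hx⟩
      refine ⟨x, ?_, rfl⟩
      apply hι
      rw [hf, hx, map_zero]
    · rintro ⟨x, hx, rfl⟩
      exact ⟨⟨x, rfl⟩, by rw [← hf, hx, map_zero]⟩
  have l1 : ι.range.map g ≤ g.range := AddSubgroup.map_le_range g _
  have l2 : g.range ≤ f.ker := by
    rintro _ ⟨x, rfl⟩
    exact hfg x
  have l3 : ι.range.map g ≤ ι.range ⊓ f.ker := by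
    rw [e1]
    rintro _ ⟨_, ⟨x, rfl⟩, rfl⟩
    refine ⟨⟨g' x, rfl⟩, ?_⟩
    show ι (g' x) ∈ f.ker
    rw [AddMonoidHom.mem_ker, hg]
    exact hfg _
  have l4 : ι.range ⊓ f.ker ≤ f.ker := inf_le_right
  rw [AddSubgroup.relIndex_mul_relIndex _ _ _ l1 l2,
    ← AddSubgroup.relIndex_mul_relIndex _ _ _ l3 l4]
  congr 1
  rw [e1, e2, AddSubgroup.relIndex_map_map_of_injective _ _ hι]

/-- **Lang's lemma** (index form): the Herbrand quotient of `A` is computed on a finite index
subgroup. -/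
theorem herbrand_transfer {A Λ : Type*} [AddCommGroup A] [AddCommGroup Λ] (f g : A →+ A)
    (f' g' : Λ →+ Λ) (ι : Λ →+ A) (hι : Function.Injective ι)
    (hf : ∀ x, ι (f' x) = f (ι x)) (hg : ∀ x, ι (g' x) = g (ι x))
    (hfg : ∀ x, f (g x) = 0) (hgf : ∀ x, g (f x) = 0)
    (hfin : ι.range.index ≠ 0) (p : ℕ)
    (h : f'.range.relIndex g'.ker = p * g'.range.relIndex f'.ker) :
    f.range.relIndex g.ker = p * g.range.relIndex f.ker := by
  have h1 := herbrand_half f g f' g' ι hι hf hg hfg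
  have h2 := herbrand_half g f g' f' ι hι hg hf hgf
  have n1 := index_eq_relIndex_map_mul f ι.range
  have n2 := index_eq_relIndex_map_mul g ι.range
  set n := ι.range.index
  set df := (ι.range.map f).relIndex f.range
  set dg := (ι.range.map g).relIndex g.range
  set cf := (ι.range ⊓ f.ker).relIndex f.ker
  set cg := (ι.range ⊓ g.ker).relIndex g.ker
  set a1 := g.range.relIndex f.ker
  set a2 := f.range.relIndex g.ker
  set b1 := g'.range.relIndex f'.ker
  set b2 := f'.range.relIndex g'.ker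
  have hdf : df ≠ 0 := fun h0 => hfin (by rw [n1, h0, zero_mul])
  have hdg : dg ≠ 0 := fun h0 => hfin (by rw [n2, h0, zero_mul])
  have key : (df * dg) * a2 = (df * dg) * (p * a1) := by
    calc (df * dg) * a2 = dg * (df * a2) := by ring
      _ = dg * (b2 * cg) := by rw [h2]
      _ = b2 * n := by rw [n2]; ring
      _ = p * b1 * (df * cf) := by rw [h, n1]
      _ = p * df * (b1 * cf) := by ring
      _ = p * df * (dg * a1) := by rw [h1]
      _ = (df * dg) * (p * a1) := by ring
  exact Nat.eq_of_mul_eq_mul_left (Nat.pos_of_ne_zero (mul_ne_zero hdf hdg)) key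

theorem geom_dvd_prod_sub (p : ℕ) [hp : Fact p.Prime] :
    (∑ i ∈ range p, (X : ℤ[X]) ^ i) ∣ ∏ k ∈ range (p - 1), (1 - X ^ (k + 1)) - C (p : ℤ) := by
  have hp0 : p ≠ 0 := hp.out.ne_zero
  have hζ : IsPrimitiveRoot (Complex.exp (2 * Real.pi * Complex.I / p)) p :=
    Complex.isPrimitiveRoot_exp p hp0
  rw [← cyclotomic_prime ℤ p, cyclotomic_eq_minpoly hζ hp.out.pos]
  apply minpoly.isIntegrallyClosed_dvd (hζ.isIntegral hp.out.pos)
  have hp1 : p = (p - 1) + 1 := (Nat.succ_pred_eq_of_pos hp.out.pos).symm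
  have hζ' : IsPrimitiveRoot (Complex.exp (2 * Real.pi * Complex.I / p)) ((p - 1) + 1) := by
    rw [← hp1]; exact hζ
  have := IsPrimitiveRoot.prod_one_sub_pow_eq_order hζ'
  simp only [map_sub, map_prod, map_one, map_pow, aeval_X, aeval_C, this]
  rw [sub_eq_zero]
  have : ((p - 1 : ℕ) : ℂ) + 1 = (p : ℂ) := by
    rw [← Nat.cast_one (R := ℂ), ← Nat.cast_add, ← hp1]
  rw [this]
  simp

theorem natAbs_det_one_sub_of_geom_sum_eq_zero {M : Type*} [AddCommGroup M] [Module.Free ℤ M]
    [Module.Finite ℤ M] (p : ℕ) [hp : Fact p.Prime] (s : Module.End ℤ M)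
    (hs : ∑ i ∈ range p, s ^ i = 0) (t : ℕ) (hrank : Module.finrank ℤ M = (p - 1) * t) :
    (LinearMap.det (1 - s)).natAbs = p ^ t := by
  have hp0 : p ≠ 0 := hp.out.ne_zero
  have hp1 : p - 1 ≠ 0 := Nat.sub_ne_zero_of_lt hp.out.one_lt
  have hsp : s ^ p = 1 := by
    have := mul_neg_geom_sum s p
    rw [hs, mul_zero] at this
    exact (sub_eq_zero.mp this.symm).symm
  let δ : ℤ[X] →* ℤ := LinearMap.det.comp
    ((aeval s : ℤ[X] →ₐ[ℤ] Module.End ℤ M) : ℤ[X] →* Module.End ℤ M)
  have hδ : ∀ P, δ P = LinearMap.det (aeval s P) := fun _ => rfl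
  have hcong : ∀ P Q, (∑ i ∈ range p, (X : ℤ[X]) ^ i) ∣ P - Q → δ P = δ Q := by
    rintro P Q ⟨W, hW⟩
    have h1 : aeval s P = aeval s Q := by
      have := congrArg (aeval s) hW
      simp only [map_sub, map_mul, map_sum, map_pow, aeval_X, hs, zero_mul] at this
      exact sub_eq_zero.mp this
    rw [hδ, hδ, h1]
  have hCp : δ (C (p : ℤ)) = (p : ℤ) ^ (Module.finrank ℤ M) := by
    rw [hδ, aeval_C, Algebra.algebraMap_eq_smul_one, LinearMap.det_smul, map_one, mul_one]
  have h1 := hcong _ _ (geom_dvd_prod_sub p)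
  rw [map_prod] at h1
  have hfac : ∀ k, δ (1 - X ^ k) = δ (1 - X) * δ (∑ j ∈ range k, X ^ j) := by
    intro k; rw [← map_mul, mul_neg_geom_sum]
  simp_rw [hfac] at h1
  rw [prod_mul_distrib, prod_const, card_range, hCp] at h1
  have hne : δ (1 - X) ≠ 0 := by
    intro h0
    rw [h0, zero_pow hp1, zero_mul] at h1
    exact (pow_ne_zero _ (Nat.cast_ne_zero.mpr hp0)) h1.symm
  have hunit : ∀ k ∈ range (p - 1), (δ (∑ j ∈ range (k + 1), X ^ j)).natAbs = 1 := by
    intro k hk
    have hk' : k + 1 < p := by have := mem_range.mp hk; omega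
    have hcop : Nat.Coprime (k + 1) p :=
      Nat.Coprime.symm ((Nat.Prime.coprime_iff_not_dvd hp.out).mpr
          (Nat.not_dvd_of_pos_of_lt (Nat.succ_pos k) hk'))
    obtain ⟨j, hj⟩ : ∃ j, (k + 1) * j % p = 1 := by
      obtain ⟨m, -, hm⟩ := Nat.exists_mul_mod_eq_one_of_coprime hcop hp.out.one_lt
      exact ⟨m, hm⟩
    have e1 : (1 - (X : ℤ[X]) ^ (k + 1)) * ∑ l ∈ range j, (X ^ (k + 1)) ^ l
        = 1 - X ^ ((k + 1) * j) := by
      rw [mul_neg_geom_sum, pow_mul]
    have e2 : δ (1 - X ^ ((k + 1) * j)) = δ (1 - X) := by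
      rw [hδ, hδ]
      congr 1
      simp only [map_sub, map_one, map_pow, aeval_X]
      congr 1
      conv_lhs => rw [← Nat.div_add_mod ((k + 1) * j) p, hj, pow_add, pow_mul, hsp, one_pow,
        one_mul, pow_one]
    have e3 : δ (1 - X) * (δ (∑ j ∈ range (k + 1), X ^ j) *
        δ (∑ l ∈ range j, (X ^ (k + 1)) ^ l)) = δ (1 - X) * 1 := by
      rw [mul_one, ← mul_assoc, ← hfac, ← map_mul, e1, e2]
    exact Int.isUnit_iff_natAbs_eq.mp (IsUnit.of_mul_eq_one _ (mul_left_cancel₀ hne e3))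
  have h2 := congrArg Int.natAbs h1
  have h3 : (∏ k ∈ range (p - 1), δ (∑ j ∈ range (k + 1), X ^ j)).natAbs = 1 := by
    have := map_prod Int.natAbsHom (fun k => δ (∑ j ∈ range (k + 1), X ^ j)) (range (p - 1))
    simp only [Int.natAbsHom_apply] at this
    rw [this]
    exact Finset.prod_eq_one hunit
  rw [Int.natAbs_mul, Int.natAbs_pow, Int.natAbs_pow, Int.natAbs_natCast, hrank, h3, mul_one,
    mul_comm, pow_mul] at h2
  have h4 : δ (1 - X) = LinearMap.det (1 - s) := by
    rw [hδ]; simp only [map_sub, map_one, aeval_X]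
  rw [h4] at h2
  exact Nat.pow_left_injective hp1 h2

/-- Lemma D -/
theorem relIndex_map_range_eq_index {M A : Type*} [AddCommGroup M] [AddCommGroup A]
    (j : M →+ A) (hj : Function.Injective j) (ψ : M →+ M) (φ : A →+ A)
    (h : ∀ x, j (ψ x) = φ (j x)) :
    (j.range.map φ).relIndex j.range = ψ.range.index := by
  have e1 : j.range.map φ = ψ.range.map j := by
    ext y
    simp only [AddSubgroup.mem_map, AddMonoidHom.mem_range]
    constructor
    · rintro ⟨_, ⟨x, rfl⟩, rfl⟩
      exact ⟨ψ x, ⟨x, rfl⟩, h x⟩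
    · rintro ⟨_, ⟨x, rfl⟩, rfl⟩
      exact ⟨j x, ⟨x, rfl⟩, (h x).symm⟩
  rw [e1]
  conv_lhs => rw [AddMonoidHom.range_eq_map j]
  rw [AddSubgroup.relIndex_map_map_of_injective _ _ hj, AddSubgroup.relIndex_top_right]

theorem index_range_eq_natAbs_det {M : Type*} [AddCommGroup M] [Module.Free ℤ M]
    [Module.Finite ℤ M] (f : M →ₗ[ℤ] M) (hf : Function.Injective f) :
    f.toAddMonoidHom.range.index = (LinearMap.det f).natAbs := by
  have h := Submodule.natAbs_det_equiv (LinearMap.range f) (LinearEquiv.ofInjective f hf)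
  have e : (LinearMap.range f).subtype ∘ₗ AddMonoidHom.toIntLinearMap
      ((LinearEquiv.ofInjective f hf : M →+ LinearMap.range f)) = f := by
    ext x
    simp
  rw [e] at h
  rw [h]
  rfl

theorem finrank_range_add_finrank_ker_int {M M' : Type*} [AddCommGroup M] [AddCommGroup M']
    [Module.Finite ℤ M] (f : M →ₗ[ℤ] M') :
    finrank ℤ (LinearMap.range f) + finrank ℤ (LinearMap.ker f) = finrank ℤ M := by
  rw [← f.quotKerEquivRange.finrank_eq]
  exact Submodule.finrank_quotient_add_finrank _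

theorem lattice_herbrand_aux {Λ : Type*} [AddCommGroup Λ] [Module.Free ℤ Λ] [Module.Finite ℤ Λ]
    (p : ℕ) [hp : Fact p.Prime] (σ N φ : Module.End ℤ Λ) (hσ : σ ^ p = 1) (t : ℕ)
    (hN : N = ∑ i ∈ range p, σ ^ i) (hφ : φ = 1 - σ)
    (hrank : Module.finrank ℤ Λ + 1 = p * t)
    (hfix : Module.finrank ℤ (LinearMap.ker φ) + 1 = t) :
    φ.toAddMonoidHom.range.relIndex N.toAddMonoidHom.ker
      = p * N.toAddMonoidHom.range.relIndex φ.toAddMonoidHom.ker := by
  have hp0 : p ≠ 0 := hp.out.ne_zero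
  have hφN : φ * N = 0 := by rw [hφ, hN, mul_neg_geom_sum, hσ, sub_self]
  have hNφ : N * φ = 0 := by rw [hφ, hN, geom_sum_mul_neg, hσ, sub_self]
  have hφN' : ∀ x, φ (N x) = 0 := fun x => by
    rw [← Module.End.mul_apply, hφN, LinearMap.zero_apply]
  have hNφ' : ∀ x, N (φ x) = 0 := fun x => by
    rw [← Module.End.mul_apply, hNφ, LinearMap.zero_apply]
  have hfixpow : ∀ x, φ x = 0 → ∀ i : ℕ, (σ ^ i) x = x := by
    intro x hx i
    have hx' : σ x = x := by
      rw [hφ, LinearMap.sub_apply, Module.End.one_apply, sub_eq_zero] at hx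
      exact hx.symm
    induction i with
    | zero => simp
    | succ i ih => rw [pow_succ, Module.End.mul_apply, hx', ih]
  have hNfix : ∀ x, φ x = 0 → N x = (p : ℤ) • x := by
    intro x hx
    rw [hN, LinearMap.sum_apply]
    simp [hfixpow x hx]
  -- ranks
  have hr1 := finrank_range_add_finrank_ker_int N
  have hr2 : finrank ℤ (LinearMap.range N) = finrank ℤ (LinearMap.ker φ) := by
    apply le_antisymm
    · apply Submodule.finrank_mono
      rintro _ ⟨x, rfl⟩
      exact hφN' x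
    · let g : LinearMap.ker φ →ₗ[ℤ] LinearMap.range N :=
        (N.rangeRestrict).comp (LinearMap.ker φ).subtype
      apply LinearMap.finrank_le_finrank_of_injective (f := g)
      intro x y hxy
      have h1 : N x.1 = N y.1 := congrArg Subtype.val hxy
      rw [hNfix _ x.2, hNfix _ y.2] at h1
      exact Subtype.ext (smul_right_injective Λ (Nat.cast_ne_zero.mpr hp0 : (p : ℤ) ≠ 0) h1)
  have hrK : finrank ℤ (LinearMap.ker N) = (p - 1) * t := by
    have : p * t = (p - 1) * t + t := by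
      conv_lhs => rw [← Nat.succ_pred_eq_of_pos hp.out.pos]
      rw [Nat.succ_mul]; rfl
    omega
  -- restriction to `ker N`
  have hcomm : N * σ = σ * N := by
    rw [hN, Finset.sum_mul, Finset.mul_sum]
    refine Finset.sum_congr rfl fun i _ => ?_
    rw [← pow_succ, ← pow_succ']
  have hσK : ∀ x ∈ LinearMap.ker N, σ x ∈ LinearMap.ker N := by
    intro x hx
    rw [LinearMap.mem_ker] at hx ⊢
    rw [← Module.End.mul_apply, hcomm, Module.End.mul_apply, hx, map_zero]
  set σ' : Module.End ℤ (LinearMap.ker N) := σ.restrict hσK with hσ'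
  have hs' : ∑ i ∈ range p, σ' ^ i = 0 := by
    ext x
    simp only [LinearMap.sum_apply, LinearMap.zero_apply, Submodule.coe_sum, ZeroMemClass.coe_zero]
    have : ∀ i : ℕ, (((σ' ^ i) x : LinearMap.ker N) : Λ) = (σ ^ i) x.1 := by
      intro i
      rw [hσ', Module.End.pow_restrict i hσK, LinearMap.coe_restrict_apply]
    simp only [this]
    have hx : N x.1 = 0 := x.2
    have hN' : ∀ y : Λ, N y = ∑ i ∈ range p, (σ ^ i) y := fun y => by
      rw [hN, LinearMap.sum_apply]
    rw [← hN', hx]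
  have hdet := natAbs_det_one_sub_of_geom_sum_eq_zero p σ' hs' t hrK
  set φ' : Module.End ℤ (LinearMap.ker N) := 1 - σ' with hφ'
  have hφ'coe : ∀ x : LinearMap.ker N, ((φ' x : LinearMap.ker N) : Λ) = φ x.1 := by
    intro x
    rw [hφ', hσ', hφ]
    simp
  have hinj : Function.Injective φ' := by
    rw [← LinearMap.ker_eq_bot, eq_bot_iff]
    intro x hx
    rw [LinearMap.mem_ker] at hx
    have h1 : φ x.1 = 0 := by rw [← hφ'coe, hx]; rfl
    have h2 : N x.1 = 0 := x.2
    rw [hNfix _ h1] at h2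
    have h3 : x.1 = 0 := by
      rcases smul_eq_zero.mp h2 with h | h
      · exact absurd h (Nat.cast_ne_zero.mpr hp0)
      · exact h
    rw [Submodule.mem_bot]
    exact Subtype.ext h3
  have hidx := index_range_eq_natAbs_det φ' hinj
  rw [hdet] at hidx
  -- additive versions
  set f : Λ →+ Λ := φ.toAddMonoidHom with hf
  set g : Λ →+ Λ := N.toAddMonoidHom with hg
  have hjr : ((LinearMap.ker N).subtype.toAddMonoidHom).range = g.ker := by
    ext x
    simp only [AddMonoidHom.mem_range, AddMonoidHom.mem_ker, hg, LinearMap.toAddMonoidHom_coe,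
      Submodule.coe_subtype, Subtype.exists, LinearMap.mem_ker, exists_prop, exists_eq_right]
  have c1 : (g.ker.map f).relIndex g.ker = p ^ t := by
    have := relIndex_map_range_eq_index (LinearMap.ker N).subtype.toAddMonoidHom
      Subtype.val_injective φ'.toAddMonoidHom f (fun x => hφ'coe x)
    rw [hjr, hidx] at this
    exact this
  have hjr2 : ((LinearMap.ker φ).subtype.toAddMonoidHom).range = f.ker := by
    ext x
    simp only [AddMonoidHom.mem_range, AddMonoidHom.mem_ker, hf, LinearMap.toAddMonoidHom_coe,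
      Submodule.coe_subtype, Subtype.exists, LinearMap.mem_ker, exists_prop, exists_eq_right]
  have c4 : (f.ker.map g).relIndex f.ker = p ^ (finrank ℤ (LinearMap.ker φ)) := by
    have := relIndex_map_range_eq_index (LinearMap.ker φ).subtype.toAddMonoidHom
      Subtype.val_injective (nsmulAddMonoidHom p) g (fun x => by
        show ((p • x : LinearMap.ker φ) : Λ) = N x.1
        rw [hNfix _ x.2]
        simp)
    rw [hjr2, AddSubgroup.index_range_nsmul] at this
    exact this
  have c2 : (g.ker.map f).relIndex f.range = (g.ker ⊔ f.ker).index := by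
    have := AddSubgroup.relIndex_map_map f g.ker ⊤
    rwa [← AddMonoidHom.range_eq_map, top_sup_eq, AddSubgroup.relIndex_top_right] at this
  have c3 : (f.ker.map g).relIndex g.range = (g.ker ⊔ f.ker).index := by
    have := AddSubgroup.relIndex_map_map g f.ker ⊤
    rwa [← AddMonoidHom.range_eq_map, top_sup_eq, AddSubgroup.relIndex_top_right, sup_comm]
      at this
  have l1 : f.range ≤ g.ker := by
    rintro _ ⟨x, rfl⟩
    exact hNφ' x
  have l2 : g.range ≤ f.ker := by
    rintro _ ⟨x, rfl⟩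
    exact hφN' x
  have m1 := AddSubgroup.relIndex_mul_relIndex (g.ker.map f) f.range g.ker
    (AddSubgroup.map_le_range f _) l1
  have m2 := AddSubgroup.relIndex_mul_relIndex (f.ker.map g) g.range f.ker
    (AddSubgroup.map_le_range g _) l2
  rw [c2, c1] at m1
  rw [c3, c4] at m2
  have hI : (g.ker ⊔ f.ker).index ≠ 0 := by
    intro h0
    rw [h0, zero_mul] at m1
    exact (pow_ne_zero _ hp0) m1.symm
  have key : (g.ker ⊔ f.ker).index * f.range.relIndex g.ker =
      (g.ker ⊔ f.ker).index * (p * g.range.relIndex f.ker) := by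
    rw [m1, mul_left_comm, m2, ← hfix, pow_succ']
  exact Nat.eq_of_mul_eq_mul_left (Nat.pos_of_ne_zero hI) key

/-- a linear map with torsion kernel does not decrease the rank -/
theorem finrank_le_of_ker_le_torsion {M M' : Type*} [AddCommGroup M] [AddCommGroup M']
    [Module.Finite ℤ M] [Module.Finite ℤ M'] (f : M →ₗ[ℤ] M')
    (hf : LinearMap.ker f ≤ Submodule.torsion ℤ M) : finrank ℤ M ≤ finrank ℤ M' := by
  have h1 := finrank_range_add_finrank_ker_int f
  have h2 : finrank ℤ (LinearMap.ker f) = 0 := by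
    apply Module.IsTorsion.finrank_eq_zero
    intro x
    obtain ⟨a, ha⟩ := (Submodule.mem_torsion_iff _).mp (hf x.2)
    exact ⟨a, Subtype.ext ha⟩
  have h3 : finrank ℤ (LinearMap.range f) ≤ finrank ℤ M' := Submodule.finrank_le _
  omega

theorem herbrand_fg {A : Type*} [AddCommGroup A] [Module.Finite ℤ A]
    (p : ℕ) [hp : Fact p.Prime] (σ : Module.End ℤ A) (hσ : σ ^ p = 1) (t : ℕ)
    (hrank : finrank ℤ A + 1 = p * t)
    (hfix : finrank ℤ (LinearMap.ker (1 - σ)) + 1 = t) :
    (1 - σ).toAddMonoidHom.range.relIndex (∑ i ∈ range p, σ ^ i).toAddMonoidHom.ker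
      = p * (∑ i ∈ range p, σ ^ i).toAddMonoidHom.range.relIndex (1 - σ).toAddMonoidHom.ker := by
  classical
  have hp0 : p ≠ 0 := hp.out.ne_zero
  set T : Submodule ℤ A := Submodule.torsion ℤ A with hTdef
  have : Finite T := Module.finite_of_fg_torsion _ Submodule.torsion_isTorsion
  set w : ℕ := Nat.card T with hw
  have hw0 : w ≠ 0 := Nat.card_pos.ne'
  have hwT : ∀ x ∈ T, (w : ℤ) • x = 0 := by
    intro x hx
    have := card_nsmul_eq_zero' (G := T) (x := ⟨x, hx⟩)
    have h2 := congrArg Subtype.val this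
    simpa using h2
  have hmemT : ∀ x : A, (w : ℤ) • x = 0 → x ∈ T := by
    intro x hx
    rw [hTdef, Submodule.mem_torsion_iff]
    exact ⟨⟨(w : ℤ), mem_nonZeroDivisors_of_ne_zero (Nat.cast_ne_zero.mpr hw0)⟩, hx⟩
  have hT : T ≤ T.comap σ := by
    intro x hx
    rw [Submodule.mem_comap]
    apply hmemT
    rw [← map_smul, hwT x hx, map_zero]
  set σ' : Module.End ℤ (A ⧸ T) := T.mapQ T σ hT with hσ'
  have hσ'p : σ' ^ p = 1 := by
    rw [hσ', ← Submodule.mapQ_pow]
    apply Submodule.linearMap_qext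
    ext x
    simp [hσ]
  set N' : Module.End ℤ (A ⧸ T) := ∑ i ∈ range p, σ' ^ i with hN'
  set φ' : Module.End ℤ (A ⧸ T) := 1 - σ' with hφ'
  set N : Module.End ℤ A := ∑ i ∈ range p, σ ^ i with hN
  set φ : Module.End ℤ A := 1 - σ with hφ
  have hσ'mk : ∀ (i : ℕ) (x : A), (σ' ^ i) (T.mkQ x) = T.mkQ ((σ ^ i) x) := by
    intro i x
    rw [hσ', ← Submodule.mapQ_pow]
    rfl
  have hN'mk : ∀ x, N' (T.mkQ x) = T.mkQ (N x) := by
    intro x
    rw [hN', hN, LinearMap.sum_apply, LinearMap.sum_apply, map_sum]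
    simp only [hσ'mk]
  have hφ'mk : ∀ x, φ' (T.mkQ x) = T.mkQ (φ x) := by
    intro x
    rw [hφ', hφ, hσ']
    simp
  have hle : T ≤ LinearMap.ker ((w : ℤ) • (LinearMap.id : A →ₗ[ℤ] A)) := by
    intro x hx
    rw [LinearMap.mem_ker]
    simpa using hwT x hx
  set ι : (A ⧸ T) →ₗ[ℤ] A := T.liftQ ((w : ℤ) • LinearMap.id) hle with hι
  have hιmk : ∀ x, ι (T.mkQ x) = (w : ℤ) • x := fun x => by
    rw [hι]
    simp
  have hιinj : Function.Injective ι := by
    rw [← LinearMap.ker_eq_bot, eq_bot_iff]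
    intro y hy
    obtain ⟨x, rfl⟩ := T.mkQ_surjective y
    rw [LinearMap.mem_ker, hιmk] at hy
    rw [Submodule.mem_bot, Submodule.mkQ_apply, Submodule.Quotient.mk_eq_zero]
    exact hmemT x hy
  have hιφ : ∀ y, ι (φ' y) = φ (ι y) := by
    intro y
    obtain ⟨x, rfl⟩ := T.mkQ_surjective y
    rw [hφ'mk, hιmk, hιmk, map_smul]
  have hιN : ∀ y, ι (N' y) = N (ι y) := by
    intro y
    obtain ⟨x, rfl⟩ := T.mkQ_surjective y
    rw [hN'mk, hιmk, hιmk, map_smul]
  have hrank' : finrank ℤ (A ⧸ T) + 1 = p * t := by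
    have := Submodule.finrank_quotient_add_finrank T
    have h0 : finrank ℤ T = 0 := Module.IsTorsion.finrank_eq_zero Submodule.torsion_isTorsion
    omega
  have hfix' : finrank ℤ (LinearMap.ker φ') + 1 = t := by
    have h1 : finrank ℤ (LinearMap.ker φ') ≤ finrank ℤ (LinearMap.ker φ) := by
      have hf : ∀ y ∈ LinearMap.ker φ', ι y ∈ LinearMap.ker φ := by
        intro y hy
        rw [LinearMap.mem_ker] at hy ⊢
        rw [← hιφ, hy, map_zero]
      apply LinearMap.finrank_le_finrank_of_injective (f := ι.restrict hf)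
      intro x y hxy
      have := congrArg Subtype.val hxy
      simp only [LinearMap.coe_restrict_apply] at this
      exact Subtype.ext (hιinj this)
    have h2 : finrank ℤ (LinearMap.ker φ) ≤ finrank ℤ (LinearMap.ker φ') := by
      have hf : ∀ x ∈ LinearMap.ker φ, T.mkQ x ∈ LinearMap.ker φ' := by
        intro x hx
        rw [LinearMap.mem_ker] at hx ⊢
        rw [hφ'mk, hx, map_zero]
      apply finrank_le_of_ker_le_torsion (T.mkQ.restrict hf)
      intro x hx
      rw [LinearMap.mem_ker] at hx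
      have h3 := congrArg Subtype.val hx
      simp only [LinearMap.coe_restrict_apply, ZeroMemClass.coe_zero, Submodule.mkQ_apply,
        Submodule.Quotient.mk_eq_zero] at h3
      rw [Submodule.mem_torsion_iff]
      exact ⟨⟨(w : ℤ), mem_nonZeroDivisors_of_ne_zero (Nat.cast_ne_zero.mpr hw0)⟩,
        Subtype.ext (hwT _ h3)⟩
    omega
  have hfin : ι.toAddMonoidHom.range.index ≠ 0 := by
    have : Finite (A ⧸ LinearMap.range ι) := by
      apply Module.finite_of_fg_torsion
      intro y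
      obtain ⟨x, rfl⟩ := (LinearMap.range ι).mkQ_surjective y
      refine ⟨⟨(w : ℤ), mem_nonZeroDivisors_of_ne_zero (Nat.cast_ne_zero.mpr hw0)⟩, ?_⟩
      show (w : ℤ) • (LinearMap.range ι).mkQ x = 0
      rw [← map_smul, Submodule.mkQ_apply, Submodule.Quotient.mk_eq_zero]
      exact ⟨T.mkQ x, hιmk x⟩
    rw [AddSubgroup.index_ne_zero_iff_finite]
    exact this
  have hL := lattice_herbrand_aux p σ' N' φ' hσ'p t hN' hφ' hrank' hfix'
  have hφN : ∀ x, φ (N x) = 0 := fun x => by
    rw [← Module.End.mul_apply, hφ, hN, mul_neg_geom_sum, hσ, sub_self, LinearMap.zero_apply]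
  have hNφ : ∀ x, N (φ x) = 0 := fun x => by
    rw [← Module.End.mul_apply, hφ, hN, geom_sum_mul_neg, hσ, sub_self, LinearMap.zero_apply]
  exact herbrand_transfer φ.toAddMonoidHom N.toAddMonoidHom φ'.toAddMonoidHom
    N'.toAddMonoidHom ι.toAddMonoidHom hιinj hιφ hιN hφN hNφ hfin p hL

/-- **Abstract Hilbert 92.** -/
theorem exists_mem_ker_notMem_range {A : Type*} [AddCommGroup A] [Module.Finite ℤ A]
    (p : ℕ) [hp : Fact p.Prime] (σ : Module.End ℤ A) (hσ : σ ^ p = 1) (t : ℕ)
    (hrank : finrank ℤ A + 1 = p * t)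
    (hfix : finrank ℤ (LinearMap.ker (1 - σ)) + 1 = t) :
    ∃ η : A, (∑ i ∈ range p, σ ^ i) η = 0 ∧ ∀ ε : A, η ≠ ε - σ ε := by
  by_contra hcon
  push Not at hcon
  have h := herbrand_fg p σ hσ t hrank hfix
  have h1 : (1 - σ).toAddMonoidHom.range.relIndex
      (∑ i ∈ range p, σ ^ i).toAddMonoidHom.ker = 1 := by
    rw [AddSubgroup.relIndex_eq_one]
    intro η hη
    obtain ⟨ε, hε⟩ := hcon η hη
    exact ⟨ε, by rw [hε]; rfl⟩
  rw [h1] at h
  have : p ∣ 1 := ⟨_, h⟩
  exact hp.out.one_lt.ne' (Nat.dvd_one.mp this)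

end Fermat.Agent.FLTSmall
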