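import Fermat.Agent.FLTSmall.Herbrand

/-!
# Hilbert's Theorem 92

For a cyclic extension `L/K` of number fields of odd prime degree `p` with group generated by `σ`,
there is a unit `η` of `𝓞 L` of relative norm `1` which is not of the form `ε / σ ε` with `ε` a unit.
-/

namespace Fermat.Agent.FLTSmall

open NumberField Module Finset

variable {K L : Type*} [Field K] [Field L] [Algebra K L]

/-- the action of a `K`-automorphism of `L` on the units of `𝓞 L`. -/
noncomputable def unitsMap (σ : L ≃ₐ[K] L) : (𝓞 L)ˣ →* (𝓞 L)ˣ :=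
  Units.map ((RingOfIntegers.mapRingEquiv σ.toRingEquiv : 𝓞 L ≃+* 𝓞 L) : 𝓞 L →* 𝓞 L)

theorem coe_unitsMap (σ : L ≃ₐ[K] L) (u : (𝓞 L)ˣ) :
    (((unitsMap σ u : (𝓞 L)ˣ) : 𝓞 L) : L) = σ (u : L) := rfl

theorem unitsMap_mul (σ τ : L ≃ₐ[K] L) (u : (𝓞 L)ˣ) :
    unitsMap (σ * τ) u = unitsMap σ (unitsMap τ u) := by
  apply Units.ext
  apply RingOfIntegers.ext
  rfl

theorem unitsMap_one (u : (𝓞 L)ˣ) : unitsMap (1 : L ≃ₐ[K] L) u = u := by
  apply Units.ext
  apply RingOfIntegers.ext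
  rfl

/-- the action of `σ` as an endomorphism of the additive group of units. -/
noncomputable def unitsEnd (σ : L ≃ₐ[K] L) : Module.End ℤ (Additive (𝓞 L)ˣ) :=
  (MonoidHom.toAdditive (unitsMap σ)).toIntLinearMap

theorem unitsEnd_apply (σ : L ≃ₐ[K] L) (η : Additive (𝓞 L)ˣ) :
    unitsEnd σ η = Additive.ofMul (unitsMap σ η.toMul) := rfl

theorem unitsEnd_mul (σ τ : L ≃ₐ[K] L) : unitsEnd (σ * τ) = unitsEnd σ * unitsEnd τ := by
  ext η
  rw [Module.End.mul_apply, unitsEnd_apply, unitsEnd_apply, unitsEnd_apply, unitsMap_mul]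
  rfl

theorem unitsEnd_one : unitsEnd (1 : L ≃ₐ[K] L) = 1 := by
  ext η
  rw [unitsEnd_apply, unitsMap_one]
  rfl

theorem unitsEnd_pow (σ : L ≃ₐ[K] L) (i : ℕ) : unitsEnd σ ^ i = unitsEnd (σ ^ i) := by
  induction i with
  | zero => rw [pow_zero, pow_zero, unitsEnd_one]
  | succ i ih => rw [pow_succ, pow_succ, unitsEnd_mul, ih]

theorem toMul_sum_unitsEnd (σ : L ≃ₐ[K] L) (n : ℕ) (η : Additive (𝓞 L)ˣ) :
    ((∑ i ∈ range n, unitsEnd σ ^ i) η).toMul = ∏ i ∈ range n, unitsMap (σ ^ i) η.toMul := by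
  rw [LinearMap.sum_apply, toMul_sum]
  refine Finset.prod_congr rfl fun i _ => ?_
  rw [unitsEnd_pow, unitsEnd_apply]
  rfl

/-- the inclusion of the units of `𝓞 K` in the units of `𝓞 L`, additively. -/
noncomputable def unitsIncl (K L : Type*) [Field K] [Field L] [Algebra K L] :
    Additive (𝓞 K)ˣ →ₗ[ℤ] Additive (𝓞 L)ˣ :=
  (MonoidHom.toAdditive (Units.map (algebraMap (𝓞 K) (𝓞 L) : 𝓞 K →* 𝓞 L))).toIntLinearMap

theorem coe_unitsIncl (ε : Additive (𝓞 K)ˣ) :
    ((((unitsIncl K L ε).toMul : (𝓞 L)ˣ) : 𝓞 L) : L) = algebraMap K L ((ε.toMul : 𝓞 K) : K) := rfl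

theorem unitsIncl_injective : Function.Injective (unitsIncl K L) := by
  intro x y h
  exact Units.map_injective (f := (algebraMap (𝓞 K) (𝓞 L) : 𝓞 K →* 𝓞 L))
    (RingOfIntegers.algebraMap.injective K L) h

theorem fixed_of_zpowers (σ : L ≃ₐ[K] L) (hσ : ∀ τ : L ≃ₐ[K] L, τ ∈ Subgroup.zpowers σ)
    (x : L) (hx : σ x = x) (τ : L ≃ₐ[K] L) : τ x = x := by
  have h1 : Subgroup.zpowers σ ≤ MulAction.stabilizer (L ≃ₐ[K] L) x := by
    rw [Subgroup.zpowers_le]
    exact hx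
  exact h1 (hσ τ)

theorem range_unitsIncl [FiniteDimensional K L] [IsGalois K L] (σ : L ≃ₐ[K] L)
    (hσ : ∀ τ : L ≃ₐ[K] L, τ ∈ Subgroup.zpowers σ) :
    LinearMap.range (unitsIncl K L) = LinearMap.ker (1 - unitsEnd σ) := by
  ext η
  rw [LinearMap.mem_ker, LinearMap.sub_apply, sub_eq_zero, Module.End.one_apply]
  constructor
  · rintro ⟨ε, rfl⟩
    rw [unitsEnd_apply]
    apply Additive.toMul.injective
    apply Units.ext
    apply RingOfIntegers.ext
    show algebraMap K L _ = σ (algebraMap K L _)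
    rw [σ.commutes]
  · intro hη
    have hfix : σ ((η.toMul : 𝓞 L) : L) = ((η.toMul : 𝓞 L) : L) := by
      conv_rhs => rw [hη]
      rfl
    obtain ⟨a, ha⟩ := (IsGalois.mem_range_algebraMap_iff_fixed _).mpr
      (fixed_of_zpowers σ hσ _ hfix)
    have hai : IsIntegral ℤ a := by
      rw [← isIntegral_algebraMap_iff (algebraMap K L).injective, ha]
      exact RingOfIntegers.isIntegral_coe _
    have hbi : IsIntegral ℤ a⁻¹ := by
      rw [← isIntegral_algebraMap_iff (algebraMap K L).injective, map_inv₀, ha]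
      have : (((η.toMul : 𝓞 L) : L))⁻¹ = (((η.toMul⁻¹ : (𝓞 L)ˣ) : 𝓞 L) : L) := by
        simp
      rw [this]
      exact RingOfIntegers.isIntegral_coe _
    have ha0 : a ≠ 0 := by
      intro h0
      rw [h0, map_zero] at ha
      exact (Units.ne_zero η.toMul) (RingOfIntegers.coe_eq_zero_iff.mp ha.symm)
    refine ⟨Additive.ofMul ⟨⟨a, hai⟩, ⟨a⁻¹, hbi⟩, ?_, ?_⟩, ?_⟩
    · apply RingOfIntegers.ext
      show a * a⁻¹ = 1
      exact mul_inv_cancel₀ ha0
    · apply RingOfIntegers.ext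
      show a⁻¹ * a = 1
      exact inv_mul_cancel₀ ha0
    · apply Additive.toMul.injective
      apply Units.ext
      apply RingOfIntegers.ext
      exact ha

theorem norm_eq_one_of_prod [FiniteDimensional K L] [IsGalois K L] (σ : L ≃ₐ[K] L)
    (hσ : ∀ τ : L ≃ₐ[K] L, τ ∈ Subgroup.zpowers σ)
    (u : (𝓞 L)ˣ) (h : ∏ i ∈ range (Module.finrank K L), unitsMap (σ ^ i) u = 1) :
    Algebra.norm K ((u : 𝓞 L) : L) = 1 := by
  classical
  apply (algebraMap K L).injective
  rw [Algebra.norm_eq_prod_automorphisms, map_one]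
  have hcard : Nat.card (L ≃ₐ[K] L) = finrank K L := IsGalois.card_aut_eq_finrank K L
  rw [← IsCyclic.image_range_card hσ, hcard, Finset.prod_image]
  · have h1 := congrArg (fun v : (𝓞 L)ˣ => ((v : 𝓞 L) : L)) h
    simp only [Units.coe_prod, map_prod, Units.val_one, map_one] at h1
    rw [← h1]
    refine Finset.prod_congr rfl fun i _ => ?_
    rfl
  · intro i hi j hj hij
    have hord : orderOf σ = finrank K L := by
      rw [orderOf_eq_card_of_forall_mem_zpowers hσ, hcard]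
    apply pow_injOn_Iio_orderOf (x := σ)
    · rw [hord]; exact Finset.mem_range.mp hi
    · rw [hord]; exact Finset.mem_range.mp hj
    · exact hij

/-- **Hilbert's Theorem 92** for cyclic extensions of odd prime degree. -/
theorem hilbert92 [NumberField K] [NumberField L] [IsGalois K L] (p : ℕ) [hp : Fact p.Prime]
    (hp2 : p ≠ 2) (hKL : finrank K L = p) (σ : L ≃ₐ[K] L)
    (hσ : ∀ τ : L ≃ₐ[K] L, τ ∈ Subgroup.zpowers σ) :
    ∃ η : (𝓞 L)ˣ, Algebra.norm K ((η : 𝓞 L) : L) = 1 ∧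
      ∀ ε : (𝓞 L)ˣ, ((η : 𝓞 L) : L) ≠ ((ε : 𝓞 L) : L) / σ ((ε : 𝓞 L) : L) := by
  have hodd : Odd (finrank K L) := by
    rw [hKL]
    exact hp.out.odd_of_ne_two hp2
  have := IsUnramifiedAtInfinitePlaces_of_odd_finrank hodd
  have hcard := IsUnramifiedAtInfinitePlaces.card_infinitePlace K L
  have ht : 0 < Fintype.card (InfinitePlace K) := Fintype.card_pos
  have hσp : unitsEnd σ ^ p = 1 := by
    rw [unitsEnd_pow, ← hKL, ← IsGalois.card_aut_eq_finrank, pow_card_eq_one', unitsEnd_one]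
  have hrank : finrank ℤ (Additive (𝓞 L)ˣ) + 1 = p * Fintype.card (InfinitePlace K) := by
    rw [Units.finrank_eq, Units.rank, hcard, hKL, mul_comm]
    have : 0 < p * Fintype.card (InfinitePlace K) := Nat.mul_pos hp.out.pos ht
    omega
  have hfix : finrank ℤ (LinearMap.ker (1 - unitsEnd σ)) + 1 = Fintype.card (InfinitePlace K) := by
    rw [← range_unitsIncl σ hσ, LinearMap.finrank_range_of_inj unitsIncl_injective,
      Units.finrank_eq, Units.rank]
    omega
  obtain ⟨η, hη1, hη2⟩ := exists_mem_ker_notMem_range p (unitsEnd σ) hσp _ hrank hfix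
  refine ⟨η.toMul, ?_, ?_⟩
  · apply norm_eq_one_of_prod σ hσ
    rw [hKL, ← toMul_sum_unitsEnd, hη1]
    rfl
  · intro ε hε
    apply hη2 (Additive.ofMul ε)
    apply Additive.toMul.injective
    apply Units.ext
    apply RingOfIntegers.ext
    show ((η.toMul : 𝓞 L) : L) = (((ε * (unitsMap σ ε)⁻¹ : (𝓞 L)ˣ) : 𝓞 L) : L)
    rw [hε, div_eq_mul_inv]
    have h1 : ((((unitsMap σ ε)⁻¹ : (𝓞 L)ˣ) : 𝓞 L) : L) = (σ ((ε : 𝓞 L) : L))⁻¹ := by
      rw [← coe_unitsMap]
      exact map_units_inv (algebraMap (𝓞 L) L) _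
    rw [← h1]
    rfl

end Fermat.Agent.FLTSmall
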