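import Mathlib

/-!
# Galois-invariant ideals of an unramified extension are extended

Let `L / K` be a Galois extension of number fields which is unramified at all finite primes.
Then every nonzero ideal of `𝓞 L` which is stable under `Gal(L/K)` is of the form `J 𝓞 L` for an
ideal `J` of `𝓞 K`.
-/

set_option autoImplicit false

namespace Fermat.Agent.FLTSmall

open NumberField Ideal

variable {K L : Type*} [Field K] [NumberField K] [Field L] [NumberField L] [Algebra K L]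

/-- The image of an extended ideal under an automorphism over the base is itself. -/
theorem map_galRestrict_map_algebraMap (σ : L ≃ₐ[K] L) (J : Ideal (𝓞 K)) :
    (J.map (algebraMap (𝓞 K) (𝓞 L))).map (galRestrict (𝓞 K) K L (𝓞 L) σ) =
      J.map (algebraMap (𝓞 K) (𝓞 L)) := by
  rw [← Ideal.map_coe (galRestrict (𝓞 K) K L (𝓞 L) σ), Ideal.map_map]
  congr 1
  exact RingHom.ext fun x => AlgEquiv.commutes (galRestrict (𝓞 K) K L (𝓞 L) σ) x

theorem exists_map_eq_of_forall_map_eq [IsGalois K L]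
    (hunr : ∀ P : Ideal (𝓞 L), P.IsPrime → P ≠ ⊥ → P.ramificationIdx (𝓞 K) = 1)
    (I : Ideal (𝓞 L)) (hI : I ≠ ⊥)
    (hinv : ∀ σ : L ≃ₐ[K] L, I.map (galRestrict (𝓞 K) K L (𝓞 L) σ) = I) :
    ∃ J : Ideal (𝓞 K), J.map (algebraMap (𝓞 K) (𝓞 L)) = I := by
  induction I using WellFoundedGT.induction with
  | ind I ih =>
  by_cases htop : I = ⊤
  · exact ⟨⊤, by rw [htop, Ideal.map_top]⟩
  obtain ⟨P, hPmax, hIP⟩ := Ideal.exists_le_maximal I htop
  have hPprime : P.IsPrime := hPmax.isPrime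
  have hPbot : P ≠ ⊥ := fun h => hI (le_bot_iff.mp (h ▸ hIP))
  set p : Ideal (𝓞 K) := P.under (𝓞 K) with hp
  have hpmax : p.IsMaximal := Ideal.IsMaximal.under (𝓞 K) P
  have hpbot : p ≠ ⊥ := Ideal.under_ne_bot (𝓞 K) hPbot
  have hPover : P ∈ p.primesOver (𝓞 L) := ⟨hPprime, ⟨rfl⟩⟩
  -- `p 𝓞 L` is the product of the primes above `p`
  have hmap : p.map (algebraMap (𝓞 K) (𝓞 L)) = ∏ Q ∈ (p.primesOver (𝓞 L)).toFinset, Q := by
    rw [Ideal.map_algebraMap_eq_finsetProd_pow hpbot]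
    refine Finset.prod_congr rfl fun Q hQ => ?_
    have hQ' : Q ∈ p.primesOver (𝓞 L) := Set.mem_toFinset.mp hQ
    have hQbot : Q ≠ ⊥ := by
      have := hQ'.2
      exact Ideal.ne_bot_of_liesOver_of_ne_bot hpbot Q
    rw [hunr Q hQ'.1 hQbot, pow_one]
  -- every prime above `p` divides `I`
  have hdvd : p.map (algebraMap (𝓞 K) (𝓞 L)) ∣ I := by
    rw [hmap]
    refine Finset.prod_primes_dvd I (fun Q hQ => ?_) (fun Q hQ => ?_)
    · have hQ' : Q ∈ p.primesOver (𝓞 L) := Set.mem_toFinset.mp hQ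
      have := hQ'.2
      exact Ideal.prime_of_isPrime (Ideal.ne_bot_of_liesOver_of_ne_bot hpbot Q) hQ'.1
    · have hQ' : Q ∈ p.primesOver (𝓞 L) := Set.mem_toFinset.mp hQ
      obtain ⟨σ, hσ⟩ := Ideal.exists_comap_galRestrict_eq (𝓞 K) K L (𝓞 L) hPover hQ'
      rw [Ideal.dvd_iff_le, ← hσ]
      -- `I = comap σ (map σ I) ≤ comap σ P`
      have : I = (I.map (galRestrict (𝓞 K) K L (𝓞 L) σ)).comap (galRestrict (𝓞 K) K L (𝓞 L) σ) :=
        (Ideal.comap_map_of_bijective _ (galRestrict (𝓞 K) K L (𝓞 L) σ).bijective).symm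
      rw [this, hinv σ]
      exact Ideal.comap_mono hIP
  obtain ⟨I', hI'⟩ := hdvd
  have hmapbot : p.map (algebraMap (𝓞 K) (𝓞 L)) ≠ ⊥ := by
    rw [Ne, Ideal.map_eq_bot_iff_of_injective
      (FaithfulSMul.algebraMap_injective (𝓞 K) (𝓞 L))]
    exact hpbot
  have hI'bot : I' ≠ ⊥ := by
    rintro rfl
    exact hI (by rw [hI', Ideal.mul_bot])
  have hI'inv : ∀ σ : L ≃ₐ[K] L, I'.map (galRestrict (𝓞 K) K L (𝓞 L) σ) = I' := by
    intro σ
    have h1 := hinv σ
    rw [hI', Ideal.map_mul, map_galRestrict_map_algebraMap] at h1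
    exact mul_left_cancel₀ hmapbot h1
  have hlt : I < I' := by
    refine lt_of_le_of_ne ?_ ?_
    · rw [hI']
      exact (Ideal.mul_le_right : p.map (algebraMap (𝓞 K) (𝓞 L)) * I' ≤ I')
    · intro h
      have h2 : p.map (algebraMap (𝓞 K) (𝓞 L)) * I' = 1 * I' := by
        rw [one_mul, ← hI', h]
      have h3 := mul_right_cancel₀ hI'bot h2
      have h4 : p.map (algebraMap (𝓞 K) (𝓞 L)) ≤ P := Ideal.map_le_iff_le_comap.mpr le_rfl
      rw [h3, Ideal.one_eq_top, top_le_iff] at h4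
      exact hPmax.ne_top h4
  obtain ⟨J', hJ'⟩ := ih I' hlt hI'bot hI'inv
  exact ⟨p * J', by rw [Ideal.map_mul, hJ', hI']⟩

end Fermat.Agent.FLTSmall
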