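import Mathlib
import Fermat.Agent.FLTSmall.InvariantIdeal

/-!
# Hilbert 94 in the principal ideal domain form

Let `L / K` be a cyclic extension of number fields, unramified at all finite primes, with `𝓞 K`
a principal ideal domain. Then every unit `η` of `𝓞 L` of relative norm `1` is of the form
`ε / σ ε` for a unit `ε` of `𝓞 L` (`σ` a generator of the Galois group).

(Together with Hilbert's theorem 92 this shows that such an extension of odd prime degree does not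
exist.)
-/

set_option autoImplicit false

namespace Fermat.Agent.FLTSmall

open NumberField Ideal

variable {K L : Type} [Field K] [NumberField K] [Field L] [NumberField L] [Algebra K L]

/-- The automorphisms of `L / K` fixing a given ideal of `𝓞 L`, as a subgroup. -/
def idealStabilizer (I : Ideal (𝓞 L)) : Subgroup (L ≃ₐ[K] L) where
  carrier := {τ | I.map (galRestrict (𝓞 K) K L (𝓞 L) τ) = I}
  one_mem' := by
    change I.map (galRestrict (𝓞 K) K L (𝓞 L) 1) = I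
    rw [map_one]
    exact Ideal.map_id I
  mul_mem' := by
    intro τ₁ τ₂ h₁ h₂
    change I.map (galRestrict (𝓞 K) K L (𝓞 L) (τ₁ * τ₂)) = I
    change I.map (galRestrict (𝓞 K) K L (𝓞 L) τ₁) = I at h₁
    change I.map (galRestrict (𝓞 K) K L (𝓞 L) τ₂) = I at h₂
    rw [map_mul]
    have : I.map (galRestrict (𝓞 K) K L (𝓞 L) τ₁ * galRestrict (𝓞 K) K L (𝓞 L) τ₂) =
        (I.map (galRestrict (𝓞 K) K L (𝓞 L) τ₂)).map (galRestrict (𝓞 K) K L (𝓞 L) τ₁) := by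
      rw [← Ideal.map_coe (galRestrict (𝓞 K) K L (𝓞 L) τ₁),
        ← Ideal.map_coe (galRestrict (𝓞 K) K L (𝓞 L) τ₂), Ideal.map_map,
        ← Ideal.map_coe (galRestrict (𝓞 K) K L (𝓞 L) τ₁ * galRestrict (𝓞 K) K L (𝓞 L) τ₂)]
      rfl
    rw [this, h₂, h₁]
  inv_mem' := by
    intro τ h
    change I.map (galRestrict (𝓞 K) K L (𝓞 L) τ) = I at h
    change I.map (galRestrict (𝓞 K) K L (𝓞 L) τ⁻¹) = I
    have h1 : (I.map (galRestrict (𝓞 K) K L (𝓞 L) τ)).map (galRestrict (𝓞 K) K L (𝓞 L) τ⁻¹) = I := by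
      rw [← Ideal.map_coe (galRestrict (𝓞 K) K L (𝓞 L) τ),
        ← Ideal.map_coe (galRestrict (𝓞 K) K L (𝓞 L) τ⁻¹), Ideal.map_map]
      have : ((galRestrict (𝓞 K) K L (𝓞 L) τ⁻¹ : 𝓞 L ≃ₐ[𝓞 K] 𝓞 L) : 𝓞 L →+* 𝓞 L).comp
          ((galRestrict (𝓞 K) K L (𝓞 L) τ : 𝓞 L ≃ₐ[𝓞 K] 𝓞 L) : 𝓞 L →+* 𝓞 L) = RingHom.id _ := by
        ext x
        simp only [map_inv, RingHom.coe_comp, RingHom.coe_coe, Function.comp_apply, RingHom.id_apply]
        exact congrArg Subtype.val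
          ((galRestrict (𝓞 K) K L (𝓞 L) τ).symm_apply_apply x)
      rw [this, Ideal.map_id]
    rw [h] at h1
    exact h1

theorem mem_idealStabilizer (I : Ideal (𝓞 L)) (τ : L ≃ₐ[K] L) :
    τ ∈ idealStabilizer (K := K) I ↔ I.map (galRestrict (𝓞 K) K L (𝓞 L) τ) = I := Iff.rfl

theorem hilbert94_pid [IsGalois K L] [IsPrincipalIdealRing (𝓞 K)]
    (hunr : ∀ P : Ideal (𝓞 L), P.IsPrime → P ≠ ⊥ → P.ramificationIdx (𝓞 K) = 1)
    (σ : L ≃ₐ[K] L) (hσ : ∀ τ, τ ∈ Subgroup.zpowers σ)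
    (η : (𝓞 L)ˣ) (hη : Algebra.norm K (algebraMap (𝓞 L) L (η : 𝓞 L)) = 1) :
    ∃ ε : (𝓞 L)ˣ, (η : 𝓞 L) * galRestrict (𝓞 K) K L (𝓞 L) σ (ε : 𝓞 L) = ε := by
  have : IsCyclic (L ≃ₐ[K] L) := ⟨⟨σ, hσ⟩⟩
  obtain ⟨α, hα0, hα⟩ :=
    groupCohomology.exists_mul_galRestrict_of_norm_eq_one (A := 𝓞 K) (B := 𝓞 L) hσ hη
  set σ' := galRestrict (𝓞 K) K L (𝓞 L) σ with hσ'
  -- the ideal `(α)` is Galois invariant
  have hσmem : σ ∈ idealStabilizer (K := K) (Ideal.span {α}) := by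
    rw [mem_idealStabilizer, Ideal.map_span, Set.image_singleton]
    rw [Ideal.span_singleton_eq_span_singleton]
    refine ⟨η, ?_⟩
    rw [mul_comm]
    exact hα
  have hinv : ∀ τ : L ≃ₐ[K] L, (Ideal.span {α}).map (galRestrict (𝓞 K) K L (𝓞 L) τ) =
      Ideal.span {α} := fun τ =>
    (mem_idealStabilizer _ τ).mp ((Subgroup.zpowers_le.mpr hσmem) (hσ τ))
  have hbot : Ideal.span {α} ≠ ⊥ := by
    rw [Ne, Ideal.span_singleton_eq_bot]
    exact hα0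
  obtain ⟨J, hJ⟩ := exists_map_eq_of_forall_map_eq hunr _ hbot hinv
  obtain ⟨a, rfl⟩ := (IsPrincipalIdealRing.principal J).principal
  rw [Ideal.submodule_span_eq, Ideal.map_span, Set.image_singleton,
    Ideal.span_singleton_eq_span_singleton] at hJ
  obtain ⟨ε, hε⟩ := hJ
  refine ⟨ε, ?_⟩
  have ha0 : algebraMap (𝓞 K) (𝓞 L) a ≠ 0 := by
    rintro h
    rw [h, zero_mul] at hε
    exact hα0 hε.symm
  rw [← hε, map_mul, AlgEquiv.commutes] at hα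
  have : algebraMap (𝓞 K) (𝓞 L) a * ((η : 𝓞 L) * σ' (ε : 𝓞 L)) =
      algebraMap (𝓞 K) (𝓞 L) a * (ε : 𝓞 L) := by
    linear_combination hα
  exact mul_left_cancel₀ ha0 this

/-- `hilbert94_pid` with the conclusion stated in `L`. -/
theorem hilbert94_pid' [IsGalois K L] [IsPrincipalIdealRing (𝓞 K)]
    (hunr : ∀ P : Ideal (𝓞 L), P.IsPrime → P ≠ ⊥ → P.ramificationIdx (𝓞 K) = 1)
    (σ : L ≃ₐ[K] L) (hσ : ∀ τ, τ ∈ Subgroup.zpowers σ)
    (η : (𝓞 L)ˣ) (hη : Algebra.norm K (algebraMap (𝓞 L) L (η : 𝓞 L)) = 1) :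
    ∃ ε : (𝓞 L)ˣ, algebraMap (𝓞 L) L (η : 𝓞 L) =
      algebraMap (𝓞 L) L (ε : 𝓞 L) / σ (algebraMap (𝓞 L) L (ε : 𝓞 L)) := by
  obtain ⟨ε, hε⟩ := hilbert94_pid hunr σ hσ η hη
  refine ⟨ε, ?_⟩
  have h0 : σ (algebraMap (𝓞 L) L (ε : 𝓞 L)) ≠ 0 := by
    rw [Ne, map_eq_zero_iff σ σ.injective]
    exact (map_ne_zero_iff _ (FaithfulSMul.algebraMap_injective (𝓞 L) L)).mpr ε.ne_zero
  rw [eq_div_iff h0]
  have := congrArg (algebraMap (𝓞 L) L) hε
  rw [map_mul, algebraMap_galRestrict_apply] at this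
  exact this

/-- Hilbert 94 against Hilbert 92: a cyclic unramified extension of a number field with principal
ring of integers admits no unit of norm one that is not of the form `ε / σ ε`. -/
theorem hilbert94_pid_false [IsGalois K L] [IsPrincipalIdealRing (𝓞 K)]
    (hunr : ∀ P : Ideal (𝓞 L), P.IsPrime → P ≠ ⊥ → P.ramificationIdx (𝓞 K) = 1)
    (σ : L ≃ₐ[K] L) (hσ : ∀ τ, τ ∈ Subgroup.zpowers σ)
    (h92 : ∃ η : (𝓞 L)ˣ, Algebra.norm K (((η : 𝓞 L) : L)) = 1 ∧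
      ∀ ε : (𝓞 L)ˣ, (((η : 𝓞 L) : L)) ≠ ((ε : 𝓞 L) : L) / σ ((ε : 𝓞 L) : L)) : False := by
  obtain ⟨η, hη, hne⟩ := h92
  obtain ⟨ε, hε⟩ := hilbert94_pid' hunr σ hσ η hη
  exact hne ε hε

end Fermat.Agent.FLTSmall
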