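import Fermat.Agent.FLTSmall.KummerGeneric

/-!
# Kummer's lemma for `p = 11`

Explicit cyclotomic units at the levels `2, 4, ..., 8` of the filtration of the unit group
(generated data, checked by `linear_combination`), and Kummer's lemma for `p = 11`.
-/

namespace Fermat.Agent.FLTSmall

open NumberField

universe u

theorem kummerData11_2 {R : Type*} [CommRing R] (y : R) (hy : y ^ 3 = 0) (hp : (11 : R) = 0) :
    (1+y)^5 * (1 + (1+y))^1 = 2 + 3 * y ^ 2 := by
  linear_combination ((30) + (20)*y + (7)*y^2 + (1)*y^3) * hy + ((1)*y + (2)*y^2) * hp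

theorem kummerData11_4 {R : Type*} [CommRing R] (y : R) (hy : y ^ 5 = 0) (hp : (11 : R) = 0) :
    (1+y)^4 * (1 + (1+y))^1 * (1 + (1+y) + (1+y)^2)^1 = 6 + 10 * y ^ 4 := by
  linear_combination ((35) + (9)*y + (1)*y^2) * hy + ((3)*y + (7)*y^2 + (9)*y^3 + (6)*y^4) * hp

theorem kummerData11_6 {R : Type*} [CommRing R] (y : R) (hy : y ^ 7 = 0) (hp : (11 : R) = 0) :
    (1+y)^5 * (1 + (1+y))^1 * (1 + (1+y) + (1+y)^2 + (1+y)^3)^1 * (1 + (1+y) + (1+y)^2 + (1+y)^3 + (1+y)^4)^2 = 2 + 10 * y ^ 6 := by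
  linear_combination ((258140) + (234353)*y + (172991)*y^2 + (103749)*y^3 + (50221)*y^4 + (19361)*y^5 + (5813)*y^6 + (1311)*y^7 + (209)*y^8 + (21)*y^9 + (1)*y^10) * hy + ((18) + (200)*y + (1050)*y^2 + (3500)*y^3 + (8305)*y^4 + (14895)*y^5 + (20910)*y^6) * hp

theorem kummerData11_8 {R : Type*} [CommRing R] (y : R) (hy : y ^ 9 = 0) (hp : (11 : R) = 0) :
    (1+y)^5 * (1 + (1+y))^3 * (1 + (1+y) + (1+y)^2)^4 * (1 + (1+y) + (1+y)^2 + (1+y)^3)^1 * (1 + (1+y) + (1+y)^2 + (1+y)^3 + (1+y)^4)^5 = 7 + 4 * y ^ 8 := by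
  linear_combination ((14496195448125) + (26910639937500)*y + (44317223128125)*y^2 + (65192306958000)*y^3 + (86134234555500)*y^4 + (102659625841750)*y^5 + (110752550568750)*y^6 + (108438686432800)*y^7 + (96548106999450)*y^8 + (78275108037050)*y^9 + (57833112144200)*y^10 + (38952038989692)*y^11 + (23910812810804)*y^12 + (13367828779495)*y^13 + (6798251729293)*y^14 + (3139299113374)*y^15 + (1313216293799)*y^16 + (496117443726)*y^17 + (168622735427)*y^18 + (51317910948)*y^19 + (13902469412)*y^20 + (3328288403)*y^21 + (697749773)*y^22 + (126623310)*y^23 + (19596517)*y^24 + (2535559)*y^25 + (266856)*y^26 + (21946)*y^27 + (1323)*y^28 + (52)*y^29 + (1)*y^30) * hy + ((736363) + (16200000)*y + (175500000)*y^2 + (1247400000)*y^3 + (6538893750)*y^4 + (26941275000)*y^5 + (90794765625)*y^6 + (257170284375)*y^7 + (624276134886)*y^8) * hp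

instance fact_prime_eleven_kummer : Fact (Nat.Prime 11) := ⟨by norm_num⟩

theorem kummerWitness11_2 {K : Type u} [Field K] [NumberField K] [IsCyclotomicExtension {11} ℚ K]
    {ζ : K} (hζ : IsPrimitiveRoot ζ 11) :
    ∃ η : (𝓞 K)ˣ, η ∈ unitLevel hζ 2 ∧ η ∉ unitLevel hζ (2 + 1) := by
  refine level_witness_of_mk_eq hζ (by norm_num) (by norm_num)
    (hζ.toInteger ^ 5 * (∑ i ∈ Finset.range 2, hζ.toInteger ^ i) ^ 1)
    (((isUnit_zeta hζ).pow 5).mul ((isUnit_geom_sum hζ (h := 2) (by norm_num)).pow 1)) 2 3 (by norm_num) ?_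
  have hy := mk_pi_pow_eq_zero hζ 2
  have hp' := mk_p_eq_zero hζ (j := 2) (by norm_num)
  have hz := mk_zeta_eq hζ 2
  simp only [Nat.cast_ofNat] at hp'
  have hd := kummerData11_2 _ hy hp'
  simp only [Finset.sum_range_succ, Finset.sum_range_zero, zero_add, pow_zero, pow_one,
    map_mul, map_pow, map_add, map_one, hz, Int.cast_ofNat]
  linear_combination hd

theorem kummerWitness11_4 {K : Type u} [Field K] [NumberField K] [IsCyclotomicExtension {11} ℚ K]
    {ζ : K} (hζ : IsPrimitiveRoot ζ 11) :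
    ∃ η : (𝓞 K)ˣ, η ∈ unitLevel hζ 4 ∧ η ∉ unitLevel hζ (4 + 1) := by
  refine level_witness_of_mk_eq hζ (by norm_num) (by norm_num)
    (hζ.toInteger ^ 4 * (∑ i ∈ Finset.range 2, hζ.toInteger ^ i) ^ 1 * (∑ i ∈ Finset.range 3, hζ.toInteger ^ i) ^ 1)
    ((((isUnit_zeta hζ).pow 4).mul ((isUnit_geom_sum hζ (h := 2) (by norm_num)).pow 1)).mul ((isUnit_geom_sum hζ (h := 3) (by norm_num)).pow 1)) 6 10 (by norm_num) ?_
  have hy := mk_pi_pow_eq_zero hζ 4
  have hp' := mk_p_eq_zero hζ (j := 4) (by norm_num)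
  have hz := mk_zeta_eq hζ 4
  simp only [Nat.cast_ofNat] at hp'
  have hd := kummerData11_4 _ hy hp'
  simp only [Finset.sum_range_succ, Finset.sum_range_zero, zero_add, pow_zero, pow_one,
    map_mul, map_pow, map_add, map_one, hz, Int.cast_ofNat]
  linear_combination hd

theorem kummerWitness11_6 {K : Type u} [Field K] [NumberField K] [IsCyclotomicExtension {11} ℚ K]
    {ζ : K} (hζ : IsPrimitiveRoot ζ 11) :
    ∃ η : (𝓞 K)ˣ, η ∈ unitLevel hζ 6 ∧ η ∉ unitLevel hζ (6 + 1) := by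
  refine level_witness_of_mk_eq hζ (by norm_num) (by norm_num)
    (hζ.toInteger ^ 5 * (∑ i ∈ Finset.range 2, hζ.toInteger ^ i) ^ 1 * (∑ i ∈ Finset.range 4, hζ.toInteger ^ i) ^ 1 * (∑ i ∈ Finset.range 5, hζ.toInteger ^ i) ^ 2)
    (((((isUnit_zeta hζ).pow 5).mul ((isUnit_geom_sum hζ (h := 2) (by norm_num)).pow 1)).mul ((isUnit_geom_sum hζ (h := 4) (by norm_num)).pow 1)).mul ((isUnit_geom_sum hζ (h := 5) (by norm_num)).pow 2)) 2 10 (by norm_num) ?_
  have hy := mk_pi_pow_eq_zero hζ 6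
  have hp' := mk_p_eq_zero hζ (j := 6) (by norm_num)
  have hz := mk_zeta_eq hζ 6
  simp only [Nat.cast_ofNat] at hp'
  have hd := kummerData11_6 _ hy hp'
  simp only [Finset.sum_range_succ, Finset.sum_range_zero, zero_add, pow_zero, pow_one,
    map_mul, map_pow, map_add, map_one, hz, Int.cast_ofNat]
  linear_combination hd

theorem kummerWitness11_8 {K : Type u} [Field K] [NumberField K] [IsCyclotomicExtension {11} ℚ K]
    {ζ : K} (hζ : IsPrimitiveRoot ζ 11) :
    ∃ η : (𝓞 K)ˣ, η ∈ unitLevel hζ 8 ∧ η ∉ unitLevel hζ (8 + 1) := by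
  refine level_witness_of_mk_eq hζ (by norm_num) (by norm_num)
    (hζ.toInteger ^ 5 * (∑ i ∈ Finset.range 2, hζ.toInteger ^ i) ^ 3 * (∑ i ∈ Finset.range 3, hζ.toInteger ^ i) ^ 4 * (∑ i ∈ Finset.range 4, hζ.toInteger ^ i) ^ 1 * (∑ i ∈ Finset.range 5, hζ.toInteger ^ i) ^ 5)
    ((((((isUnit_zeta hζ).pow 5).mul ((isUnit_geom_sum hζ (h := 2) (by norm_num)).pow 3)).mul ((isUnit_geom_sum hζ (h := 3) (by norm_num)).pow 4)).mul ((isUnit_geom_sum hζ (h := 4) (by norm_num)).pow 1)).mul ((isUnit_geom_sum hζ (h := 5) (by norm_num)).pow 5)) 7 4 (by norm_num) ?_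
  have hy := mk_pi_pow_eq_zero hζ 8
  have hp' := mk_p_eq_zero hζ (j := 8) (by norm_num)
  have hz := mk_zeta_eq hζ 8
  simp only [Nat.cast_ofNat] at hp'
  have hd := kummerData11_8 _ hy hp'
  simp only [Finset.sum_range_succ, Finset.sum_range_zero, zero_add, pow_zero, pow_one,
    map_mul, map_pow, map_add, map_one, hz, Int.cast_ofNat]
  linear_combination hd

/-- **Kummer's lemma** for `p = 11`: a unit of `ℤ[ζ_11]` congruent to an integer modulo `11` is a
`11`-th power. -/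
theorem kummer_eleven (K : Type u) [Field K] [NumberField K] [IsCyclotomicExtension {11} ℚ K]
    (u : (𝓞 K)ˣ) (h : ∃ n : ℤ, ((11 : ℕ) : 𝓞 K) ∣ (u : 𝓞 K) - n) : ∃ v : (𝓞 K)ˣ, u = v ^ 11 := by
  have hζ := IsCyclotomicExtension.zeta_spec 11 ℚ K
  refine kummer_of_levels hζ (by norm_num) {1, 2, 4, 6, 8} ?_ (by decide) u h
  intro j hj
  simp only [Finset.mem_insert, Finset.mem_singleton] at hj
  rcases hj with rfl | rfl | rfl | rfl | rfl
  · exact ⟨le_rfl, by norm_num, level_one_witness hζ (by norm_num)⟩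
  · exact ⟨by norm_num, by norm_num, kummerWitness11_2 hζ⟩
  · exact ⟨by norm_num, by norm_num, kummerWitness11_4 hζ⟩
  · exact ⟨by norm_num, by norm_num, kummerWitness11_6 hζ⟩
  · exact ⟨by norm_num, by norm_num, kummerWitness11_8 hζ⟩

end Fermat.Agent.FLTSmall
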