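import Fermat.Agent.FLTSmall.KummerGeneric

/-!
# Kummer's lemma for `p = 13`

Explicit cyclotomic units at the levels `2, 4, ..., 10` of the filtration of the unit group
(generated data, checked by `linear_combination`), and Kummer's lemma for `p = 13`.
-/

namespace Fermat.Agent.FLTSmall

open NumberField

universe u

theorem kummerData13_2 {R : Type*} [CommRing R] (y : R) (hy : y ^ 3 = 0) (hp : (13 : R) = 0) :
    (1+y)^6 * (1 + (1+y))^1 = 2 + 10 * y ^ 2 := by
  linear_combination ((55) + (50)*y + (27)*y^2 + (8)*y^3 + (1)*y^4) * hy + ((1)*y + (2)*y^2) * hp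

theorem kummerData13_4 {R : Type*} [CommRing R] (y : R) (hy : y ^ 5 = 0) (hp : (13 : R) = 0) :
    (1+y)^3 * (1 + (1+y) + (1+y)^2 + (1+y)^3)^1 * (1 + (1+y) + (1+y)^2 + (1+y)^3 + (1+y)^4)^1 = 7 + 5 * y ^ 4 := by
  linear_combination ((783) + (494)*y + (220)*y^2 + (66)*y^3 + (12)*y^4 + (1)*y^5) * hy + ((1) + (10)*y + (30)*y^2 + (55)*y^3 + (68)*y^4) * hp

theorem kummerData13_6 {R : Type*} [CommRing R] (y : R) (hy : y ^ 7 = 0) (hp : (13 : R) = 0) :
    (1 + (1+y))^5 * (1 + (1+y) + (1+y)^2 + (1+y)^3)^1 * (1 + (1+y) + (1+y)^2 + (1+y)^3 + (1+y)^4 + (1+y)^5)^1 = 1 + 12 * y ^ 6 := by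
  linear_combination ((24534) + (11568)*y + (4089)*y^2 + (1050)*y^3 + (185)*y^4 + (20)*y^5 + (1)*y^6) * hy + ((59) + (384)*y + (1216)*y^2 + (2464)*y^3 + (3536)*y^4 + (3768)*y^5 + (3048)*y^6) * hp

theorem kummerData13_8 {R : Type*} [CommRing R] (y : R) (hy : y ^ 9 = 0) (hp : (13 : R) = 0) :
    (1+y)^6 * (1 + (1+y))^12 * (1 + (1+y) + (1+y)^2)^2 * (1 + (1+y) + (1+y)^2 + (1+y)^3)^2 * (1 + (1+y) + (1+y)^2 + (1+y)^3 + (1+y)^4 + (1+y)^5)^1 = 6 + 11 * y ^ 8 := by
  linear_combination ((1445604435712) + (2149633170560)*y + (2798795710912)*y^2 + (3210473919136)*y^3 + (3259843573680)*y^4 + (2940030284776)*y^5 + (2360873304140)*y^6 + (1690411676144)*y^7 + (1079871670416)*y^8 + (615341834934)*y^9 + (312445658131)*y^10 + (141099315840)*y^11 + (56512415673)*y^12 + (19996437530)*y^13 + (6219248226)*y^14 + (1689018100)*y^15 + (397146472)*y^16 + (79966550)*y^17 + (13590434)*y^18 + (1912014)*y^19 + (216734)*y^20 + (19022)*y^21 + (1213)*y^22 + (50)*y^23 + (1)*y^24) * hy + ((272226)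 + (5308416)*y + (50429952)*y^2 + (310984704)*y^3 + (1399283712)*y^4 + (4895428608)*y^5 + (13855791104)*y^6 + (32591606784)*y^7 + (64945198985)*y^8) * hp

theorem kummerData13_10 {R : Type*} [CommRing R] (y : R) (hy : y ^ 11 = 0) (hp : (13 : R) = 0) :
    (1+y)^6 * (1 + (1+y))^9 * (1 + (1+y) + (1+y)^2)^4 * (1 + (1+y) + (1+y)^2 + (1+y)^3)^10 * (1 + (1+y) + (1+y)^2 + (1+y)^3 + (1+y)^4)^1 * (1 + (1+y) + (1+y)^2 + (1+y)^3 + (1+y)^4 + (1+y)^5)^3 = 5 + 4 * y ^ 10 := by
  linear_combination ((240392785262824302575616) + (710447381930211035578368)*y + (1917614224688386116943872)*y^2 + (4753632894795823495774208)*y^3 + (10873802484435801755090944)*y^4 + (23045914339430811491303424)*y^5 + (45413974105128580431544320)*y^6 + (83463319095369961548234752)*y^7 + (143440700729319919215476736)*y^8 + (231066570075222720924733440)*y^9 + (349610471684564472264642560)*y^10 + (497739761376038169244412928)*y^11 + (667859880071974483847753728)*y^12 + (845756580380902080441332736)*y^13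 + (1012093527584439117437027328)*y^14 + (1145732263585519737928772352)*y^15 + (1228131499689247574648400384)*y^16 + (1247564535307747638827265024)*y^17 + (1201833521234246958064065792)*y^18 + (1098622811436389366622244736)*y^19 + (953436820243523112784315392)*y^20 + (785866594405281345537737856)*y^21 + (615395763116668715566688128)*y^22 + (457937522938837795042920096)*y^23 + (323865433832246666193695808)*y^24 + (217697926220922949219880912)*y^25 + (139079965199978241099426864)*y^26 + (84440232452340611453913564)*y^27 + (48711033643762559000385616)*y^28 + (26691985929214260505096644)*y^29 + (13888513383457139108199140)*y^30 + (6858981886050070952586375)*y^31 + (3213369278191256803495146)*y^32 + (1427200987117806394186074)*y^33 + (600503391112906995291003)*y^34 + (239159025805286405926164)*y^35 + (90070678638097294220880)*y^36 + (32043108760521806745193)*y^37 + (10754970491273985986187)*y^38 + (3401021467464762576422)*y^39 + (1011726680750984903493)*y^40 + (282628369456576547040)*y^41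 + (73997688690397141215)*y^42 + (18118175608248100056)*y^43 + (4138334070623742333)*y^44 + (879284006507821464)*y^45 + (173234828370879001)*y^46 + (31532201191815294)*y^47 + (5280289712861013)*y^48 + (809516322219146)*y^49 + (112973799677085)*y^50 + (14255451325482)*y^51 + (1613320522291)*y^52 + (162150308448)*y^53 + (14297482005)*y^54 + (1088893565)*y^55 + (70180449)*y^56 + (3722114)*y^57 + (155972)*y^58 + (4842)*y^59 + (99)*y^60 + (1)*y^61) * hy + ((3612728260135) + (140896402145280)*y + (2727910897090560)*y^2 + (34950135309926400)*y^3 + (333263238441467904)*y^4 + (2522021528598478848)*y^5 + (15773627854186610688)*y^6 + (83837034519953670144)*y^7 + (386436567370467115008)*y^8 + (1568757038900500758528)*y^9 + (5676979256107683726572)*y^10) * hp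

instance fact_prime_thirteen_kummer : Fact (Nat.Prime 13) := ⟨by norm_num⟩

theorem kummerWitness13_2 {K : Type u} [Field K] [NumberField K] [IsCyclotomicExtension {13} ℚ K]
    {ζ : K} (hζ : IsPrimitiveRoot ζ 13) :
    ∃ η : (𝓞 K)ˣ, η ∈ unitLevel hζ 2 ∧ η ∉ unitLevel hζ (2 + 1) := by
  refine level_witness_of_mk_eq hζ (by norm_num) (by norm_num)
    (hζ.toInteger ^ 6 * (∑ i ∈ Finset.range 2, hζ.toInteger ^ i) ^ 1)
    (((isUnit_zeta hζ).pow 6).mul ((isUnit_geom_sum hζ (h := 2) (by norm_num)).pow 1)) 2 10 (by norm_num) ?_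
  have hy := mk_pi_pow_eq_zero hζ 2
  have hp' := mk_p_eq_zero hζ (j := 2) (by norm_num)
  have hz := mk_zeta_eq hζ 2
  simp only [Nat.cast_ofNat] at hp'
  have hd := kummerData13_2 _ hy hp'
  simp only [Finset.sum_range_succ, Finset.sum_range_zero, zero_add, pow_zero, pow_one,
    map_mul, map_pow, map_add, map_one, hz, Int.cast_ofNat]
  linear_combination hd

theorem kummerWitness13_4 {K : Type u} [Field K] [NumberField K] [IsCyclotomicExtension {13} ℚ K]
    {ζ : K} (hζ : IsPrimitiveRoot ζ 13) :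
    ∃ η : (𝓞 K)ˣ, η ∈ unitLevel hζ 4 ∧ η ∉ unitLevel hζ (4 + 1) := by
  refine level_witness_of_mk_eq hζ (by norm_num) (by norm_num)
    (hζ.toInteger ^ 3 * (∑ i ∈ Finset.range 4, hζ.toInteger ^ i) ^ 1 * (∑ i ∈ Finset.range 5, hζ.toInteger ^ i) ^ 1)
    ((((isUnit_zeta hζ).pow 3).mul ((isUnit_geom_sum hζ (h := 4) (by norm_num)).pow 1)).mul ((isUnit_geom_sum hζ (h := 5) (by norm_num)).pow 1)) 7 5 (by norm_num) ?_
  have hy := mk_pi_pow_eq_zero hζ 4
  have hp' := mk_p_eq_zero hζ (j := 4) (by norm_num)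
  have hz := mk_zeta_eq hζ 4
  simp only [Nat.cast_ofNat] at hp'
  have hd := kummerData13_4 _ hy hp'
  simp only [Finset.sum_range_succ, Finset.sum_range_zero, zero_add, pow_zero, pow_one,
    map_mul, map_pow, map_add, map_one, hz, Int.cast_ofNat]
  linear_combination hd

theorem kummerWitness13_6 {K : Type u} [Field K] [NumberField K] [IsCyclotomicExtension {13} ℚ K]
    {ζ : K} (hζ : IsPrimitiveRoot ζ 13) :
    ∃ η : (𝓞 K)ˣ, η ∈ unitLevel hζ 6 ∧ η ∉ unitLevel hζ (6 + 1) := by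
  refine level_witness_of_mk_eq hζ (by norm_num) (by norm_num)
    ((∑ i ∈ Finset.range 2, hζ.toInteger ^ i) ^ 5 * (∑ i ∈ Finset.range 4, hζ.toInteger ^ i) ^ 1 * (∑ i ∈ Finset.range 6, hζ.toInteger ^ i) ^ 1)
    ((((isUnit_geom_sum hζ (h := 2) (by norm_num)).pow 5).mul ((isUnit_geom_sum hζ (h := 4) (by norm_num)).pow 1)).mul ((isUnit_geom_sum hζ (h := 6) (by norm_num)).pow 1)) 1 12 (by norm_num) ?_
  have hy := mk_pi_pow_eq_zero hζ 6
  have hp' := mk_p_eq_zero hζ (j := 6) (by norm_num)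
  have hz := mk_zeta_eq hζ 6
  simp only [Nat.cast_ofNat] at hp'
  have hd := kummerData13_6 _ hy hp'
  simp only [Finset.sum_range_succ, Finset.sum_range_zero, zero_add, pow_zero, pow_one,
    map_mul, map_pow, map_add, map_one, hz, Int.cast_ofNat]
  linear_combination hd

theorem kummerWitness13_8 {K : Type u} [Field K] [NumberField K] [IsCyclotomicExtension {13} ℚ K]
    {ζ : K} (hζ : IsPrimitiveRoot ζ 13) :
    ∃ η : (𝓞 K)ˣ, η ∈ unitLevel hζ 8 ∧ η ∉ unitLevel hζ (8 + 1) := by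
  refine level_witness_of_mk_eq hζ (by norm_num) (by norm_num)
    (hζ.toInteger ^ 6 * (∑ i ∈ Finset.range 2, hζ.toInteger ^ i) ^ 12 * (∑ i ∈ Finset.range 3, hζ.toInteger ^ i) ^ 2 * (∑ i ∈ Finset.range 4, hζ.toInteger ^ i) ^ 2 * (∑ i ∈ Finset.range 6, hζ.toInteger ^ i) ^ 1)
    ((((((isUnit_zeta hζ).pow 6).mul ((isUnit_geom_sum hζ (h := 2) (by norm_num)).pow 12)).mul ((isUnit_geom_sum hζ (h := 3) (by norm_num)).pow 2)).mul ((isUnit_geom_sum hζ (h := 4) (by norm_num)).pow 2)).mul ((isUnit_geom_sum hζ (h := 6) (by norm_num)).pow 1)) 6 11 (by norm_num) ?_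
  have hy := mk_pi_pow_eq_zero hζ 8
  have hp' := mk_p_eq_zero hζ (j := 8) (by norm_num)
  have hz := mk_zeta_eq hζ 8
  simp only [Nat.cast_ofNat] at hp'
  have hd := kummerData13_8 _ hy hp'
  simp only [Finset.sum_range_succ, Finset.sum_range_zero, zero_add, pow_zero, pow_one,
    map_mul, map_pow, map_add, map_one, hz, Int.cast_ofNat]
  linear_combination hd

theorem kummerWitness13_10 {K : Type u} [Field K] [NumberField K] [IsCyclotomicExtension {13} ℚ K]
    {ζ : K} (hζ : IsPrimitiveRoot ζ 13) :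
    ∃ η : (𝓞 K)ˣ, η ∈ unitLevel hζ 10 ∧ η ∉ unitLevel hζ (10 + 1) := by
  refine level_witness_of_mk_eq hζ (by norm_num) (by norm_num)
    (hζ.toInteger ^ 6 * (∑ i ∈ Finset.range 2, hζ.toInteger ^ i) ^ 9 * (∑ i ∈ Finset.range 3, hζ.toInteger ^ i) ^ 4 * (∑ i ∈ Finset.range 4, hζ.toInteger ^ i) ^ 10 * (∑ i ∈ Finset.range 5, hζ.toInteger ^ i) ^ 1 * (∑ i ∈ Finset.range 6, hζ.toInteger ^ i) ^ 3)
    (((((((isUnit_zeta hζ).pow 6).mul ((isUnit_geom_sum hζ (h := 2) (by norm_num)).pow 9)).mul ((isUnit_geom_sum hζ (h := 3) (by norm_num)).pow 4)).mul ((isUnit_geom_sum hζ (h := 4) (by norm_num)).pow 10)).mul ((isUnit_geom_sum hζ (h := 5) (by norm_num)).pow 1)).mul ((isUnit_geom_sum hζ (h := 6) (by norm_num)).pow 3)) 5 4 (by norm_num) ?_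
  have hy := mk_pi_pow_eq_zero hζ 10
  have hp' := mk_p_eq_zero hζ (j := 10) (by norm_num)
  have hz := mk_zeta_eq hζ 10
  simp only [Nat.cast_ofNat] at hp'
  have hd := kummerData13_10 _ hy hp'
  simp only [Finset.sum_range_succ, Finset.sum_range_zero, zero_add, pow_zero, pow_one,
    map_mul, map_pow, map_add, map_one, hz, Int.cast_ofNat]
  linear_combination hd

/-- **Kummer's lemma** for `p = 13`: a unit of `ℤ[ζ_13]` congruent to an integer modulo `13` is a
`13`-th power. -/
theorem kummer_thirteen (K : Type u) [Field K] [NumberField K] [IsCyclotomicExtension {13} ℚ K]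
    (u : (𝓞 K)ˣ) (h : ∃ n : ℤ, ((13 : ℕ) : 𝓞 K) ∣ (u : 𝓞 K) - n) : ∃ v : (𝓞 K)ˣ, u = v ^ 13 := by
  have hζ := IsCyclotomicExtension.zeta_spec 13 ℚ K
  refine kummer_of_levels hζ (by norm_num) {1, 2, 4, 6, 8, 10} ?_ (by decide) u h
  intro j hj
  simp only [Finset.mem_insert, Finset.mem_singleton] at hj
  rcases hj with rfl | rfl | rfl | rfl | rfl | rfl
  · exact ⟨le_rfl, by norm_num, level_one_witness hζ (by norm_num)⟩
  · exact ⟨by norm_num, by norm_num, kummerWitness13_2 hζ⟩
  · exact ⟨by norm_num, by norm_num, kummerWitness13_4 hζ⟩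
  · exact ⟨by norm_num, by norm_num, kummerWitness13_6 hζ⟩
  · exact ⟨by norm_num, by norm_num, kummerWitness13_8 hζ⟩
  · exact ⟨by norm_num, by norm_num, kummerWitness13_10 hζ⟩

end Fermat.Agent.FLTSmall
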