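import Fermat.Agent.FLTSmall.KummerGeneric

/-!
# Kummer's lemma for `p = 7`

Explicit cyclotomic units at the levels `2, 4, ..., 4` of the filtration of the unit group
(generated data, checked by `linear_combination`), and Kummer's lemma for `p = 7`.
-/

namespace Fermat.Agent.FLTSmall

open NumberField

universe u

theorem kummerData7_2 {R : Type*} [CommRing R] (y : R) (hy : y ^ 3 = 0) (hp : (7 : R) = 0) :
    (1+y)^3 * (1 + (1+y))^1 = 2 + 2 * y ^ 2 := by
  linear_combination ((5) + (1)*y) * hy + ((1)*y + (1)*y^2) * hp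

theorem kummerData7_4 {R : Type*} [CommRing R] (y : R) (hy : y ^ 5 = 0) (hp : (7 : R) = 0) :
    (1+y)^5 * (1 + (1+y))^2 * (1 + (1+y) + (1+y)^2)^1 = 5 + 1 * y ^ 4 := by
  linear_combination ((397) + (199)*y + (64)*y^2 + (12)*y^3 + (1)*y^4) * hy + ((1) + (12)*y + (37)*y^2 + (66)*y^3 + (75)*y^4) * hp

instance fact_prime_seven_kummer : Fact (Nat.Prime 7) := ⟨by norm_num⟩

theorem kummerWitness7_2 {K : Type u} [Field K] [NumberField K] [IsCyclotomicExtension {7} ℚ K]
    {ζ : K} (hζ : IsPrimitiveRoot ζ 7) :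
    ∃ η : (𝓞 K)ˣ, η ∈ unitLevel hζ 2 ∧ η ∉ unitLevel hζ (2 + 1) := by
  refine level_witness_of_mk_eq hζ (by norm_num) (by norm_num)
    (hζ.toInteger ^ 3 * (∑ i ∈ Finset.range 2, hζ.toInteger ^ i) ^ 1)
    (((isUnit_zeta hζ).pow 3).mul ((isUnit_geom_sum hζ (h := 2) (by norm_num)).pow 1)) 2 2 (by norm_num) ?_
  have hy := mk_pi_pow_eq_zero hζ 2
  have hp' := mk_p_eq_zero hζ (j := 2) (by norm_num)
  have hz := mk_zeta_eq hζ 2
  simp only [Nat.cast_ofNat] at hp'
  have hd := kummerData7_2 _ hy hp'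
  simp only [Finset.sum_range_succ, Finset.sum_range_zero, zero_add, pow_zero, pow_one,
    map_mul, map_pow, map_add, map_one, hz, Int.cast_ofNat]
  linear_combination hd

theorem kummerWitness7_4 {K : Type u} [Field K] [NumberField K] [IsCyclotomicExtension {7} ℚ K]
    {ζ : K} (hζ : IsPrimitiveRoot ζ 7) :
    ∃ η : (𝓞 K)ˣ, η ∈ unitLevel hζ 4 ∧ η ∉ unitLevel hζ (4 + 1) := by
  refine level_witness_of_mk_eq hζ (by norm_num) (by norm_num)
    (hζ.toInteger ^ 5 * (∑ i ∈ Finset.range 2, hζ.toInteger ^ i) ^ 2 * (∑ i ∈ Finset.range 3, hζ.toInteger ^ i) ^ 1)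
    ((((isUnit_zeta hζ).pow 5).mul ((isUnit_geom_sum hζ (h := 2) (by norm_num)).pow 2)).mul ((isUnit_geom_sum hζ (h := 3) (by norm_num)).pow 1)) 5 1 (by norm_num) ?_
  have hy := mk_pi_pow_eq_zero hζ 4
  have hp' := mk_p_eq_zero hζ (j := 4) (by norm_num)
  have hz := mk_zeta_eq hζ 4
  simp only [Nat.cast_ofNat] at hp'
  have hd := kummerData7_4 _ hy hp'
  simp only [Finset.sum_range_succ, Finset.sum_range_zero, zero_add, pow_zero, pow_one,
    map_mul, map_pow, map_add, map_one, hz, Int.cast_ofNat]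
  linear_combination hd

/-- **Kummer's lemma** for `p = 7`: a unit of `ℤ[ζ_7]` congruent to an integer modulo `7` is a
`7`-th power. -/
theorem kummer_seven (K : Type u) [Field K] [NumberField K] [IsCyclotomicExtension {7} ℚ K]
    (u : (𝓞 K)ˣ) (h : ∃ n : ℤ, ((7 : ℕ) : 𝓞 K) ∣ (u : 𝓞 K) - n) : ∃ v : (𝓞 K)ˣ, u = v ^ 7 := by
  have hζ := IsCyclotomicExtension.zeta_spec 7 ℚ K
  refine kummer_of_levels hζ (by norm_num) {1, 2, 4} ?_ (by decide) u h
  intro j hj
  simp only [Finset.mem_insert, Finset.mem_singleton] at hj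
  rcases hj with rfl | rfl | rfl
  · exact ⟨le_rfl, by norm_num, level_one_witness hζ (by norm_num)⟩
  · exact ⟨by norm_num, by norm_num, kummerWitness7_2 hζ⟩
  · exact ⟨by norm_num, by norm_num, kummerWitness7_4 hζ⟩

end Fermat.Agent.FLTSmall
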