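import Mathlib

/-!
# FLTSmall, K4a + K4b: the Kummer extension `K(u^(1/p))`

* `exists_poly_kummer` : the integral polynomial `((λX+1)^p - u)/λ^p`.
-/

set_option autoImplicit false
set_option linter.unusedSectionVars false

open Polynomial NumberField
open scoped IntermediateField

namespace Fermat.Agent.FLTSmall

/-- If `p = ε λ^(p-1)` and `λ^p ∣ u - 1` then `((λX+1)^p - u)/λ^p` has coefficients in `A`. -/
theorem exists_poly_kummer {A : Type*} [CommRing A] {p : ℕ} (hp : p.Prime) (lam ε u : A)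
    (hε : (p : A) = ε * lam ^ (p - 1)) (hu : lam ^ p ∣ u - 1) :
    ∃ Q : A[X], C (lam ^ p) * Q = (C lam * X + 1) ^ p - C u := by
  obtain ⟨n, rfl⟩ : ∃ n, p = n + 1 := ⟨p - 1, (Nat.sub_add_cancel hp.one_lt.le).symm⟩
  rw [Nat.add_sub_cancel] at hε
  suffices h : C (lam ^ (n + 1)) ∣ (C lam * X + 1) ^ (n + 1) - C u by
    obtain ⟨Q, hQ⟩ := h
    exact ⟨Q, hQ.symm⟩
  have key : ∀ m ∈ Finset.range n, C (lam ^ (n + 1)) ∣
      (C lam * X) ^ (m + 1) * 1 ^ (n + 1 - (m + 1)) * (((n + 1).choose (m + 1) : ℕ) : A[X]) := by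
    intro m hm
    have hm' : m < n := Finset.mem_range.mp hm
    obtain ⟨k, hk⟩ := hp.dvd_choose_self (Nat.succ_ne_zero m) (by omega : m + 1 < n + 1)
    rw [hk]
    refine ⟨C (lam ^ m * ε) * X ^ (m + 1) * (k : A[X]), ?_⟩
    have h1 : (((n + 1) * k : ℕ) : A[X]) = C (ε * lam ^ n) * (k : A[X]) := by
      rw [← hε]; push_cast; simp
    rw [h1, one_pow, mul_one, mul_pow, ← C_pow]
    simp only [C_mul, C_pow]
    ring
  rw [add_pow, Finset.sum_range_succ, Finset.sum_range_succ']
  have h0 : (C lam * X) ^ 0 * 1 ^ (n + 1 - 0) * (((n + 1).choose 0 : ℕ) : A[X]) = 1 := by simp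
  have htop : (C lam * X) ^ (n + 1) * 1 ^ (n + 1 - (n + 1)) * (((n + 1).choose (n + 1) : ℕ) : A[X]) =
      C (lam ^ (n + 1)) * X ^ (n + 1) := by
    simp [mul_pow]
  rw [h0, htop]
  have hsum := Finset.dvd_sum key
  obtain ⟨w, hw⟩ := hu
  have hu' : (1 : A[X]) - C u = C (lam ^ (n + 1)) * (-C w) := by
    have : u = 1 + lam ^ (n + 1) * w := by rw [← hw]; ring
    rw [this]; simp only [C_add, C_mul, C_1]; ring
  have hrearr : ∀ S : A[X], S + 1 + C (lam ^ (n + 1)) * X ^ (n + 1) - C u =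
      S + C (lam ^ (n + 1)) * X ^ (n + 1) + (1 - C u) := fun S => by ring
  rw [hrearr, hu']
  exact dvd_add (dvd_add hsum (dvd_mul_right _ _)) (dvd_mul_right _ _)


/-- The polynomial `((λX+1)^p - u)/λ^p` is monic of degree `p`. -/
theorem kummer_poly_monic {A : Type*} [CommRing A] [IsDomain A] {p : ℕ} (hp : 0 < p)
    (lam u : A) (hlam : lam ≠ 0) (Q : A[X])
    (hQ : C (lam ^ p) * Q = (C lam * X + 1) ^ p - C u) : Q.Monic ∧ Q.natDegree = p := by
  have hlin : (C lam * X + 1 : A[X]) = C lam * X + C 1 := by simp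
  have h1 : (C lam * X + 1 : A[X]).natDegree = 1 := by
    rw [hlin]; exact natDegree_linear hlam
  have h2 : (C lam * X + 1 : A[X]).leadingCoeff = lam := by
    rw [hlin]; exact leadingCoeff_linear hlam
  have h3 : ((C lam * X + 1 : A[X]) ^ p).natDegree = p := by
    rw [natDegree_pow, h1, mul_one]
  have h4 : ((C lam * X + 1 : A[X]) ^ p - C u).natDegree = p := by
    rw [natDegree_sub_C, h3]
  have h5 : ((C lam * X + 1 : A[X]) ^ p - C u).leadingCoeff = lam ^ p := by
    have h5' : ((C lam * X + 1 : A[X]) ^ p).coeff p = lam ^ p := by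
      have := leadingCoeff_pow (p := (C lam * X + 1 : A[X])) p
      rw [h2] at this
      rw [← this, leadingCoeff, h3]
    rw [leadingCoeff, h4, coeff_sub, coeff_C, if_neg hp.ne', sub_zero, h5']
  have hne : lam ^ p ≠ 0 := pow_ne_zero _ hlam
  have h6 : Q.natDegree = p := by
    rw [← h4, ← hQ, natDegree_C_mul hne]
  refine ⟨?_, h6⟩
  have h7 : (C (lam ^ p) * Q).leadingCoeff = lam ^ p := by rw [hQ, h5]
  rw [leadingCoeff_mul, leadingCoeff_C] at h7
  exact mul_left_cancel₀ hne (h7.trans (mul_one _).symm)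


section NumberFields

variable {K L : Type*} [Field K] [NumberField K] [Field L] [NumberField L] [Algebra K L]

/-- **Kummer extensions by `λ^p`-primary units are unramified**, different ideal form.
`λ` plays the role of `ζ - 1`; `α` is a `p`-th root of the unit `u ≡ 1 mod λ^p` generating
`L` over `K`, with `[L : K] = p`. -/
theorem differentIdeal_eq_top_of_kummer {p : ℕ} (hp : p.Prime) (lam : 𝓞 K) (hlam : lam ≠ 0)
    (hassoc : Associated (lam ^ (p - 1)) ((p : ℕ) : 𝓞 K))
    (u : (𝓞 K)ˣ) (hu : lam ^ p ∣ (u : 𝓞 K) - 1)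
    (α : L) (hα : α ^ p = algebraMap (𝓞 K) L (u : 𝓞 K))
    (hgen : Algebra.adjoin K {α} = ⊤) (hdeg : Module.finrank K L = p) :
    differentIdeal (𝓞 K) (𝓞 L) = ⊤ := by
  obtain ⟨v, hv⟩ := hassoc
  have hε : ((p : ℕ) : 𝓞 K) = (v : 𝓞 K) * lam ^ (p - 1) := by rw [← hv]; ring
  obtain ⟨Q, hQ⟩ := exists_poly_kummer hp lam (v : 𝓞 K) (u : 𝓞 K) hε hu
  obtain ⟨hQm, hQd⟩ := kummer_poly_monic hp.pos lam (u : 𝓞 K) hlam Q hQ
  -- the element `θ = (α - 1)/λ`
  have hinjK : Function.Injective (algebraMap (𝓞 K) L) :=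
    FaithfulSMul.algebraMap_injective (𝓞 K) L
  have hinjL : Function.Injective (algebraMap (𝓞 L) L) :=
    FaithfulSMul.algebraMap_injective (𝓞 L) L
  have hlamL : algebraMap (𝓞 K) L lam ≠ 0 := by
    intro h; exact hlam (hinjK (by rw [h, map_zero]))
  set θ : L := (α - 1) / algebraMap (𝓞 K) L lam with hθ
  have hαθ : algebraMap (𝓞 K) L lam * θ + 1 = α := by
    rw [hθ]; field_simp; ring
  have hroot : aeval θ Q = 0 := by
    have h := congrArg (aeval θ) hQ
    simp only [map_mul, aeval_C, map_sub, map_pow, map_add, aeval_X, map_one] at h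
    rw [hαθ, hα, sub_self] at h
    rcases mul_eq_zero.mp h with h | h
    · exact absurd (pow_eq_zero_iff (hp.ne_zero) |>.mp h) hlamL
    · exact h
  have hθint : IsIntegral (𝓞 K) θ := ⟨Q, hQm, by rwa [← aeval_def]⟩
  obtain ⟨θ', hθ'⟩ := (IsIntegralClosure.isIntegral_iff (A := 𝓞 L)).mp hθint
  -- `θ` generates
  have hgenθ : Algebra.adjoin K {algebraMap (𝓞 L) L θ'} = ⊤ := by
    rw [hθ', eq_top_iff, ← hgen]
    apply Algebra.adjoin_le
    intro x hx
    rw [Set.mem_singleton_iff] at hx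
    change x ∈ Algebra.adjoin K {θ}
    rw [hx, ← hαθ]
    refine Subalgebra.add_mem _ (Subalgebra.mul_mem _ ?_ (Algebra.subset_adjoin rfl))
      (Subalgebra.one_mem _)
    rw [IsScalarTower.algebraMap_apply (𝓞 K) K L]
    exact Subalgebra.algebraMap_mem _ _
  -- the minimal polynomial of `θ'` is `Q`
  have hroot' : aeval θ' Q = 0 := by
    apply hinjL
    rw [← aeval_algebraMap_apply, hθ', hroot, map_zero]
  have hθ'int : IsIntegral (𝓞 K) θ' := ⟨Q, hQm, by rwa [← aeval_def]⟩
  have hdvd : minpoly (𝓞 K) θ' ∣ Q := minpoly.isIntegrallyClosed_dvd hθ'int hroot'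
  have hmindeg : (minpoly (𝓞 K) θ').natDegree = p := by
    have h1 := minpoly.isIntegrallyClosed_eq_field_fractions K L hθ'int
    have h2 : (minpoly K (algebraMap (𝓞 L) L θ')).natDegree = (minpoly (𝓞 K) θ').natDegree := by
      rw [h1, (minpoly.monic hθ'int).natDegree_map]
    rw [← h2, ← hdeg]
    have hint : IsIntegral K (algebraMap (𝓞 L) L θ') := Algebra.IsIntegral.isIntegral _
    have htop : K⟮algebraMap (𝓞 L) L θ'⟯ = ⊤ := by
      apply IntermediateField.toSubalgebra_injective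
      rw [IntermediateField.adjoin_simple_toSubalgebra_of_isAlgebraic hint.isAlgebraic, hgenθ,
        IntermediateField.top_toSubalgebra]
    exact ((Field.primitive_element_iff_minpoly_natDegree_eq K _).mp htop)
  have hmin : minpoly (𝓞 K) θ' = Q :=
    (eq_of_monic_of_dvd_of_natDegree_le (minpoly.monic hθ'int) hQm hdvd
      (by rw [hQd, hmindeg])).symm
  -- the derivative
  have hmem := aeval_derivative_mem_differentIdeal (𝓞 K) K L θ' hgenθ
  rw [hmin] at hmem
  set α' : 𝓞 L := algebraMap (𝓞 K) (𝓞 L) lam * θ' + 1 with hα'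
  have hα'α : algebraMap (𝓞 L) L α' = α := by
    rw [hα', map_add, map_mul, map_one, hθ', ← IsScalarTower.algebraMap_apply, hαθ]
  have hα'p : α' ^ p = algebraMap (𝓞 K) (𝓞 L) (u : 𝓞 K) := by
    apply hinjL
    rw [map_pow, hα'α, hα, ← IsScalarTower.algebraMap_apply]
  have hα'unit : IsUnit α' := by
    have : IsUnit (α' ^ p) := by rw [hα'p]; exact (u.isUnit).map _
    exact (isUnit_pow_iff hp.ne_zero).mp this
  have hder : aeval θ' (derivative Q) =
      algebraMap (𝓞 K) (𝓞 L) (v : 𝓞 K) * α' ^ (p - 1) := by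
    have h := congrArg (fun P => aeval θ' (derivative P)) hQ
    simp only [derivative_mul, derivative_C, zero_mul, zero_add, derivative_sub, sub_zero,
      derivative_pow, derivative_X, mul_one, derivative_one, add_zero,
      map_mul, aeval_C, map_pow, map_add, aeval_X, map_one, map_natCast,
      mul_zero] at h
    have hpL : ((p : ℕ) : 𝓞 L) = algebraMap (𝓞 K) (𝓞 L) (v : 𝓞 K) *
        algebraMap (𝓞 K) (𝓞 L) lam ^ (p - 1) := by
      rw [← map_pow, ← map_mul, ← hε, map_natCast]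
    have hlamL' : algebraMap (𝓞 K) (𝓞 L) lam ^ p ≠ 0 := by
      apply pow_ne_zero
      intro h0
      apply hlamL
      rw [IsScalarTower.algebraMap_apply (𝓞 K) (𝓞 L) L, h0, map_zero]
    apply mul_left_cancel₀ hlamL'
    rw [h, hpL, ← hα']
    have hpp : algebraMap (𝓞 K) (𝓞 L) lam ^ p =
        algebraMap (𝓞 K) (𝓞 L) lam ^ (p - 1) * algebraMap (𝓞 K) (𝓞 L) lam := by
      rw [← pow_succ, Nat.sub_add_cancel hp.one_lt.le]
    rw [hpp]
    ring
  rw [hder] at hmem
  refine Ideal.eq_top_of_isUnit_mem _ hmem (IsUnit.mul ((v.isUnit).map _) (hα'unit.pow _))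


/-- If the different ideal is trivial, every prime of `𝓞 L` is unramified over `𝓞 K`. -/
theorem isUnramifiedAt_of_differentIdeal_eq_top (h : differentIdeal (𝓞 K) (𝓞 L) = ⊤)
    (P : Ideal (𝓞 L)) [hP : P.IsPrime] : Algebra.IsUnramifiedAt (𝓞 K) P := by
  apply not_dvd_differentIdeal_iff.mp
  rw [h, Ideal.dvd_iff_le, top_le_iff]
  exact hP.ne_top

/-- New-style ramification index `P.ramificationIdx (𝓞 K) = 1` from triviality of the different. -/
theorem ramificationIdx_eq_one_of_differentIdeal_eq_top (h : differentIdeal (𝓞 K) (𝓞 L) = ⊤)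
    (P : Ideal (𝓞 L)) [P.IsPrime] : P.ramificationIdx (𝓞 K) = 1 := by
  have := isUnramifiedAt_of_differentIdeal_eq_top h P
  exact Ideal.ramificationIdx_eq_one_of_isUnramifiedAt

/-- Old-style (multiplicity) ramification index `e(P | P ∩ 𝓞 K) = 1` from triviality of the
different. -/
theorem ramificationIdx'_eq_one_of_differentIdeal_eq_top (h : differentIdeal (𝓞 K) (𝓞 L) = ⊤)
    (P : Ideal (𝓞 L)) [P.IsPrime] (hP : P ≠ ⊥) :
    Ideal.ramificationIdx' (P.under (𝓞 K)) P = 1 := by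
  rw [Ideal.ramificationIdx'_eq_ramificationIdx (P.under (𝓞 K)) P (Ideal.under_ne_bot _ hP)]
  exact ramificationIdx_eq_one_of_differentIdeal_eq_top h P

end NumberFields


section KummerField

variable {K : Type*} [Field K] [NumberField K]

/-- The Kummer extension `K(a^(1/p))`, realised as the splitting field of `X^p - a`. -/
abbrev kummerField (p : ℕ) (a : K) : Type _ := (X ^ p - C a : K[X]).SplittingField

instance kummerField_numberField (p : ℕ) (a : K) : NumberField (kummerField p a) :=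
  NumberField.of_module_finite K _

variable {p : ℕ} (hp : p.Prime) {ζ : K} (hζ : IsPrimitiveRoot ζ p) {a : K}
  (ha : ∀ b : K, b ^ p ≠ a)

omit [NumberField K] in
include hp hζ in
theorem primitiveRoots_nonempty_of_isPrimitiveRoot : (primitiveRoots p K).Nonempty :=
  ⟨ζ, (mem_primitiveRoots hp.pos).mpr hζ⟩

include hp hζ ha in
theorem kummerField_isGalois : IsGalois K (kummerField p a) :=
  isGalois_of_isSplittingField_X_pow_sub_C (primitiveRoots_nonempty_of_isPrimitiveRoot hp hζ)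
    (X_pow_sub_C_irreducible_of_prime hp ha) _

include hp hζ ha in
theorem kummerField_finrank : Module.finrank K (kummerField p a) = p :=
  finrank_of_isSplittingField_X_pow_sub_C (primitiveRoots_nonempty_of_isPrimitiveRoot hp hζ)
    (X_pow_sub_C_irreducible_of_prime hp ha) _

include hp hζ ha in
theorem kummerField_exists_generator :
    ∃ σ : kummerField p a ≃ₐ[K] kummerField p a, ∀ τ, τ ∈ Subgroup.zpowers σ := by
  have : NeZero p := ⟨hp.ne_zero⟩
  have := isCyclic_of_isSplittingField_X_pow_sub_C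
    (primitiveRoots_nonempty_of_isPrimitiveRoot hp hζ)
    (X_pow_sub_C_irreducible_of_prime hp ha) (kummerField p a)
  exact IsCyclic.exists_generator

include hp hζ ha in
theorem kummerField_exists_root :
    ∃ α : kummerField p a, α ^ p = algebraMap K (kummerField p a) a ∧
      Algebra.adjoin K {α} = ⊤ := by
  have : NeZero p := ⟨hp.ne_zero⟩
  refine ⟨rootOfSplitsXPowSubC (NeZero.pos p) a (kummerField p a),
    rootOfSplitsXPowSubC_pow a (kummerField p a), ?_⟩
  exact Algebra.adjoin_root_eq_top_of_isSplittingField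
    (primitiveRoots_nonempty_of_isPrimitiveRoot hp hζ)
    (X_pow_sub_C_irreducible_of_prime hp ha) (rootOfSplitsXPowSubC_pow a (kummerField p a))

end KummerField


section Assembly

universe u

variable {K : Type u} [Field K] [NumberField K]

/-- The Kummer extension `K(u^(1/p))` of a unit `u ≡ 1 mod λ^p` (not a `p`-th power) is
unramified: its different is trivial. -/
theorem kummerField_differentIdeal_eq_top {p : ℕ} (hp : p.Prime) {ζ : K}
    (hζ : IsPrimitiveRoot ζ p) (lam : 𝓞 K) (hlam : lam ≠ 0)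
    (hassoc : Associated (lam ^ (p - 1)) ((p : ℕ) : 𝓞 K))
    (u : (𝓞 K)ˣ) (hu : lam ^ p ∣ (u : 𝓞 K) - 1)
    (hnp : ∀ b : K, b ^ p ≠ algebraMap (𝓞 K) K (u : 𝓞 K)) :
    differentIdeal (𝓞 K) (𝓞 (kummerField p (algebraMap (𝓞 K) K (u : 𝓞 K)))) = ⊤ := by
  obtain ⟨α, hα, hgen⟩ := kummerField_exists_root hp hζ hnp
  refine differentIdeal_eq_top_of_kummer hp lam hlam hassoc u hu α ?_ hgen
    (kummerField_finrank hp hζ hnp)
  rw [hα, ← IsScalarTower.algebraMap_apply]

/-- A `p`-th root in `K` of a unit of `𝓞 K` is a unit of `𝓞 K`. -/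
theorem exists_unit_pow_eq_of_exists_pow_eq {p : ℕ} (hp : 0 < p) (u : (𝓞 K)ˣ) (b : K)
    (hb : b ^ p = algebraMap (𝓞 K) K (u : 𝓞 K)) : ∃ v : (𝓞 K)ˣ, u = v ^ p := by
  have hbint : IsIntegral ℤ b := by
    apply IsIntegral.of_pow hp
    rw [hb]
    exact RingOfIntegers.isIntegral_coe (u : 𝓞 K)
  let b' : 𝓞 K := ⟨b, hbint⟩
  have hb' : b' ^ p = (u : 𝓞 K) := by
    apply RingOfIntegers.coe_injective
    rw [map_pow]
    exact hb
  have hunit : IsUnit b' := by
    have : IsUnit (b' ^ p) := by rw [hb']; exact u.isUnit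
    exact (isUnit_pow_iff hp.ne').mp this
  refine ⟨hunit.unit, Units.ext ?_⟩
  rw [Units.val_pow_eq_pow_val, IsUnit.unit_spec, hb']

/-- **Kummer's lemma, reduction to class field theory.**  If `K ∋ ζ_p` has no unramified cyclic
extension of degree `p` (hypothesis `H`, to be supplied by Hilbert 92 + Hilbert 94 when `𝓞 K` is a
PID), then every unit `u ≡ 1 mod λ^p` is a `p`-th power of a unit. -/
theorem exists_unit_pow_eq_of_no_unramified_cyclic {p : ℕ} (hp : p.Prime) {ζ : K}
    (hζ : IsPrimitiveRoot ζ p) (lam : 𝓞 K) (hlam : lam ≠ 0)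
    (hassoc : Associated (lam ^ (p - 1)) ((p : ℕ) : 𝓞 K))
    (H : ∀ (L : Type u) [Field L] [NumberField L] [Algebra K L] [IsGalois K L],
      Module.finrank K L = p → (∃ σ : L ≃ₐ[K] L, ∀ τ, τ ∈ Subgroup.zpowers σ) →
      differentIdeal (𝓞 K) (𝓞 L) = ⊤ → False)
    (u : (𝓞 K)ˣ) (hu : lam ^ p ∣ (u : 𝓞 K) - 1) : ∃ v : (𝓞 K)ˣ, u = v ^ p := by
  by_cases hex : ∃ b : K, b ^ p = algebraMap (𝓞 K) K (u : 𝓞 K)
  · obtain ⟨b, hb⟩ := hex
    exact exists_unit_pow_eq_of_exists_pow_eq hp.pos u b hb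
  · exfalso
    have hnp : ∀ b : K, b ^ p ≠ algebraMap (𝓞 K) K (u : 𝓞 K) := fun b hb => hex ⟨b, hb⟩
    have := kummerField_isGalois hp hζ hnp
    exact H (kummerField p (algebraMap (𝓞 K) K (u : 𝓞 K))) (kummerField_finrank hp hζ hnp)
      (kummerField_exists_generator hp hζ hnp)
      (kummerField_differentIdeal_eq_top hp hζ lam hlam hassoc u hu hnp)

end Assembly

end Fermat.Agent.FLTSmall
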