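import Mathlib

/-!
# Kummer's lemma for small regular primes: generic part

Let `p` be an odd prime, `K` a `p`-th cyclotomic field, `ζ` a primitive `p`-th root of unity,
`π = ζ - 1`.  We filter the unit group `E` of `𝓞 K` by the subgroups
`E_j = {u | u ≡ integer mod π ^ j}`.  Then `E = E_1`, `E_(p-1) = {u | u ≡ integer mod p}`
contains all `p`-th powers, and Dirichlet's unit theorem gives `[E : E ^ p] ∣ p ^ ((p-1)/2)`.
If for `(p-1)/2` values of `j` in `[1, p-2]` there is a unit in `E_j \ E_(j+1)`, then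
`p ^ ((p-1)/2) ∣ [E : E_(p-1)]`, hence `E_(p-1) = E ^ p`: this is Kummer's lemma.
-/

namespace Fermat.Agent.FLTSmall

open NumberField

set_option linter.unusedSectionVars false

section KummerGeneric

variable {p : ℕ} [hp : Fact p.Prime] {K : Type*} [Field K] [NumberField K]
  [hK : IsCyclotomicExtension {p} ℚ K] {ζ : K} (hζ : IsPrimitiveRoot ζ p)

/-- Every element of `𝓞 K` is congruent to an integer modulo `ζ - 1`. -/
theorem exists_int_sub_dvd (x : 𝓞 K) : ∃ n : ℤ, hζ.toInteger - 1 ∣ x - n := by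
  obtain ⟨f, hf⟩ := hζ.integralPowerBasis.exists_eq_aeval' x
  rw [hζ.integralPowerBasis_gen] at hf
  refine ⟨f.eval 1, ?_⟩
  have h := Polynomial.sub_dvd_eval_sub hζ.toInteger 1 (f.map (algebraMap ℤ (𝓞 K)))
  rw [Polynomial.eval_map_algebraMap, ← hf] at h
  have h1 : Polynomial.eval 1 (f.map (algebraMap ℤ (𝓞 K))) = ((f.eval 1 : ℤ) : 𝓞 K) := by
    rw [Polynomial.eval_map, Polynomial.eval₂_at_one]
    simp
  rwa [h1] at h

/-- `(ζ - 1) ^ (p - 1)` divides `p`. -/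
theorem pi_pow_dvd_p : (hζ.toInteger - 1) ^ (p - 1) ∣ (p : 𝓞 K) := by
  obtain ⟨z, -, hz⟩ := hζ.toInteger_isPrimitiveRoot.self_sub_one_pow_dvd_order
    (k := p - 1) (Nat.sub_lt hp.out.pos one_pos)
  exact ⟨z, by rw [hz]; ring⟩

theorem pi_pow_dvd_p_of_le {j : ℕ} (hj : j ≤ p - 1) : (hζ.toInteger - 1) ^ j ∣ (p : 𝓞 K) :=
  (pow_dvd_pow _ hj).trans (pi_pow_dvd_p hζ)

theorem pi_ne_zero : hζ.toInteger - 1 ≠ 0 := hζ.zeta_sub_one_prime'.ne_zero

/-- An integer divisible by `ζ - 1` is divisible by `(ζ - 1) ^ j` for `j ≤ p - 1`. -/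
theorem pi_pow_dvd_int_of_pi_dvd {j : ℕ} (hj : j ≤ p - 1) {n : ℤ}
    (h : hζ.toInteger - 1 ∣ (n : 𝓞 K)) : (hζ.toInteger - 1) ^ j ∣ (n : 𝓞 K) := by
  rw [IsCyclotomicExtension.Rat.zeta_sub_one_dvd_intCast_iff' p hζ] at h
  obtain ⟨m, rfl⟩ := h
  push_cast
  exact Dvd.dvd.mul_right (pi_pow_dvd_p_of_le hζ hj) _

include hζ in
/-- `p`-th powers are congruent to integers modulo `p`. -/
theorem exists_int_dvd_pow_sub_unitLevel (x : 𝓞 K) : ∃ n : ℤ, (p : 𝓞 K) ∣ x ^ p - n := by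
  obtain ⟨f, hf⟩ := hζ.integralPowerBasis.exists_eq_aeval' x
  rw [hζ.integralPowerBasis_gen] at hf
  have hnu : (p : 𝓞 K) ∈ nonunits (𝓞 K) := by
    intro hu
    exact hζ.zeta_sub_one_prime'.not_isUnit (isUnit_of_dvd_unit hζ.toInteger_sub_one_dvd_prime' hu)
  have : CharP (𝓞 K ⧸ Ideal.span {(p : 𝓞 K)}) p := CharP.quotient (𝓞 K) p hnu
  let R := 𝓞 K ⧸ Ideal.span {(p : 𝓞 K)}
  let mk : 𝓞 K →+* R := Ideal.Quotient.mk _
  -- two ring homs `ℤ[X] → R`
  let φ₁ : Polynomial ℤ →+* R :=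
    (frobenius R p).comp (mk.comp (Polynomial.aeval hζ.toInteger).toRingHom)
  let φ₂ : Polynomial ℤ →+* R := (Int.castRingHom R).comp (Polynomial.evalRingHom 1)
  have hφ : φ₁ = φ₂ := by
    apply Polynomial.ringHom_ext
    · intro a
      have : φ₁.comp Polynomial.C = φ₂.comp Polynomial.C := RingHom.ext_int _ _
      exact RingHom.congr_fun this a
    · simp only [φ₁, φ₂, RingHom.coe_comp, Function.comp_apply, AlgHom.toRingHom_eq_coe,
        RingHom.coe_coe, Polynomial.aeval_X, frobenius_def, Polynomial.coe_evalRingHom,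
        Polynomial.eval_X, map_one]
      rw [← map_pow, hζ.toInteger_isPrimitiveRoot.pow_eq_one, map_one]
  refine ⟨f.eval 1, ?_⟩
  have h := RingHom.congr_fun hφ f
  simp only [φ₁, φ₂, RingHom.coe_comp, Function.comp_apply, AlgHom.toRingHom_eq_coe,
    RingHom.coe_coe, frobenius_def, Polynomial.coe_evalRingHom, ← hf] at h
  rw [← Ideal.mem_span_singleton, ← Ideal.Quotient.eq]
  rw [map_pow]
  simpa using h

/-- The subgroup of units of `𝓞 K` congruent to an integer modulo `(ζ - 1) ^ j`. -/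
def unitLevel (j : ℕ) : Subgroup (𝓞 K)ˣ where
  carrier := {u | ∃ n : ℤ, (hζ.toInteger - 1) ^ j ∣ (u : 𝓞 K) - n}
  mul_mem' := by
    rintro u v ⟨n, hn⟩ ⟨m, hm⟩
    refine ⟨n * m, ?_⟩
    have : ((u * v : (𝓞 K)ˣ) : 𝓞 K) - ((n * m : ℤ) : 𝓞 K)
        = (u : 𝓞 K) * ((v : 𝓞 K) - m) + m * ((u : 𝓞 K) - n) := by
      push_cast; ring
    rw [this]
    exact dvd_add (Dvd.dvd.mul_left hm _) (Dvd.dvd.mul_left hn _)
  one_mem' := ⟨1, by simp⟩
  inv_mem' := by
    rintro u ⟨n, hn⟩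
    rcases Nat.eq_zero_or_pos j with rfl | hj
    · exact ⟨0, by simp⟩
    · have hπ := hζ.zeta_sub_one_prime'
      have hpn : ¬ (p : ℤ) ∣ n := by
        intro hdvd
        rw [← IsCyclotomicExtension.Rat.zeta_sub_one_dvd_intCast_iff' p hζ] at hdvd
        have h1 : hζ.toInteger - 1 ∣ (u : 𝓞 K) - n := (dvd_pow_self _ hj.ne').trans hn
        have h2 : hζ.toInteger - 1 ∣ (u : 𝓞 K) := by
          have := dvd_add h1 hdvd
          simpa using this
        exact hπ.not_isUnit (isUnit_of_dvd_unit h2 u.isUnit)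
      have hcop : IsCoprime n ((p : ℤ) ^ j) := by
        apply IsCoprime.pow_right
        exact ((Nat.prime_iff_prime_int.mp hp.out).irreducible.coprime_iff_not_dvd.2 hpn).symm
      obtain ⟨a, b, hab⟩ := hcop
      refine ⟨a, ?_⟩
      have hpj : (hζ.toInteger - 1) ^ j ∣ ((p : ℤ) ^ j : 𝓞 K) := by
        have := pow_dvd_pow_of_dvd hζ.toInteger_sub_one_dvd_prime' j
        simpa using this
      have hab' : (a : 𝓞 K) * n + b * (p : ℤ) ^ j = 1 := by exact_mod_cast congrArg (Int.cast : ℤ → 𝓞 K) hab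
      have : ((u⁻¹ : (𝓞 K)ˣ) : 𝓞 K) - (a : 𝓞 K)
          = ((u⁻¹ : (𝓞 K)ˣ) : 𝓞 K) * (b * (p : ℤ) ^ j - a * ((u : 𝓞 K) - n)) := by
        have hu : ((u⁻¹ : (𝓞 K)ˣ) : 𝓞 K) * (u : 𝓞 K) = 1 := by simp
        linear_combination (a : 𝓞 K) * hu - ((u⁻¹ : (𝓞 K)ˣ) : 𝓞 K) * hab'
      rw [this]
      exact Dvd.dvd.mul_left (dvd_sub (Dvd.dvd.mul_left hpj _) (Dvd.dvd.mul_left hn _)) _

theorem mem_unitLevel_iff {j : ℕ} {u : (𝓞 K)ˣ} :
    u ∈ unitLevel hζ j ↔ ∃ n : ℤ, (hζ.toInteger - 1) ^ j ∣ (u : 𝓞 K) - n := Iff.rfl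

theorem unitLevel_succ_le (j : ℕ) : unitLevel hζ (j + 1) ≤ unitLevel hζ j := by
  rintro u ⟨n, hn⟩
  exact ⟨n, (pow_dvd_pow _ (Nat.le_succ j)).trans hn⟩

theorem unitLevel_one : unitLevel hζ 1 = ⊤ := by
  rw [eq_top_iff]
  intro u _
  obtain ⟨n, hn⟩ := exists_int_sub_dvd hζ (u : 𝓞 K)
  exact ⟨n, by simpa using hn⟩

theorem range_pow_le_unitLevel {j : ℕ} (hj : j ≤ p - 1) :
    (powMonoidHom p : (𝓞 K)ˣ →* (𝓞 K)ˣ).range ≤ unitLevel hζ j := by
  rintro _ ⟨v, rfl⟩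
  obtain ⟨n, hn⟩ := exists_int_dvd_pow_sub_unitLevel hζ (v : 𝓞 K)
  exact ⟨n, (pi_pow_dvd_p_of_le hζ hj).trans (by simpa using hn)⟩

theorem mem_unitLevel_of_dvd {u : (𝓞 K)ˣ} (h : ∃ n : ℤ, (p : 𝓞 K) ∣ (u : 𝓞 K) - n) :
    u ∈ unitLevel hζ (p - 1) := by
  obtain ⟨n, hn⟩ := h
  exact ⟨n, (pi_pow_dvd_p hζ).trans hn⟩

/-- A unit `η ≡ n + a π ^ j mod π ^ (j + 1)` with `p ∤ a` lies in `E_j` but not in `E_(j+1)`. -/
theorem mem_level_not_mem_succ {j : ℕ} (hj1 : 1 ≤ j) (hj2 : j + 1 ≤ p - 1) (η : (𝓞 K)ˣ)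
    (n a : ℤ) (ha : ¬ (p : ℤ) ∣ a)
    (h : (hζ.toInteger - 1) ^ (j + 1) ∣ (η : 𝓞 K) - n - a * (hζ.toInteger - 1) ^ j) :
    η ∈ unitLevel hζ j ∧ η ∉ unitLevel hζ (j + 1) := by
  constructor
  · refine ⟨n, ?_⟩
    have : (η : 𝓞 K) - n = ((η : 𝓞 K) - n - a * (hζ.toInteger - 1) ^ j)
        + a * (hζ.toInteger - 1) ^ j := by ring
    rw [this]
    exact dvd_add ((pow_dvd_pow _ (Nat.le_succ j)).trans h) (Dvd.intro_left _ rfl)
  · rintro ⟨m, hm⟩
    -- `π ^ (j+1) ∣ (m - n) - a π ^ j`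
    have h1 : (hζ.toInteger - 1) ^ (j + 1) ∣ ((m - n : ℤ) : 𝓞 K) - a * (hζ.toInteger - 1) ^ j := by
      have := dvd_sub h hm
      have e : ((η : 𝓞 K) - n - a * (hζ.toInteger - 1) ^ j) - ((η : 𝓞 K) - m)
          = ((m - n : ℤ) : 𝓞 K) - a * (hζ.toInteger - 1) ^ j := by push_cast; ring
      rwa [e] at this
    have h2 : hζ.toInteger - 1 ∣ ((m - n : ℤ) : 𝓞 K) := by
      have h3 : hζ.toInteger - 1 ∣ ((m - n : ℤ) : 𝓞 K) - a * (hζ.toInteger - 1) ^ j :=
        (dvd_pow_self _ (Nat.succ_ne_zero j)).trans h1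
      have h4 : hζ.toInteger - 1 ∣ (a : 𝓞 K) * (hζ.toInteger - 1) ^ j :=
        Dvd.dvd.mul_left (dvd_pow_self _ (by omega)) _
      have := dvd_add h3 h4
      simpa using this
    have h5 : (hζ.toInteger - 1) ^ (j + 1) ∣ ((m - n : ℤ) : 𝓞 K) :=
      pi_pow_dvd_int_of_pi_dvd hζ hj2 h2
    have h6 : (hζ.toInteger - 1) ^ (j + 1) ∣ (a : 𝓞 K) * (hζ.toInteger - 1) ^ j := by
      have := dvd_sub h5 h1
      simpa using this
    rw [pow_succ, mul_comm (a : 𝓞 K)] at h6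
    have h7 : hζ.toInteger - 1 ∣ (a : 𝓞 K) :=
      (mul_dvd_mul_iff_left (pow_ne_zero j (pi_ne_zero hζ))).1 h6
    exact ha ((IsCyclotomicExtension.Rat.zeta_sub_one_dvd_intCast_iff' p hζ).1 h7)

variable (p K) in
/-- The unit rank of the `p`-th cyclotomic field. -/
theorem units_rank_add_one (hp2 : 2 < p) : NumberField.Units.rank K + 1 = (p - 1) / 2 := by
  have h1 := IsCyclotomicExtension.Rat.nrComplexPlaces_eq_totient_div_two p K
  have h2 := IsCyclotomicExtension.Rat.nrRealPlaces_eq_zero (n := p) K hp2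
  have h3 := InfinitePlace.card_eq_nrRealPlaces_add_nrComplexPlaces K
  rw [Nat.totient_prime hp.out] at h1
  unfold NumberField.Units.rank
  rw [h3, h2, h1, zero_add]
  have : 1 ≤ (p - 1) / 2 := by omega
  omega

instance units_group_fg : Group.FG (𝓞 K)ˣ := Group.fg_iff_monoid_fg.mpr inferInstance

variable (p K) in
/-- The unit group is generated by `(p - 1) / 2` elements. -/
theorem units_rank_le (hp2 : 2 < p) : Group.rank (𝓞 K)ˣ ≤ (p - 1) / 2 := by
  classical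
  obtain ⟨g, hg⟩ := IsCyclic.exists_generator (α := NumberField.Units.torsion K)
  let S : Finset (𝓞 K)ˣ := insert (g : (𝓞 K)ˣ) (Finset.univ.image (NumberField.Units.fundSystem K))
  have hS : Subgroup.closure (S : Set (𝓞 K)ˣ) = ⊤ := by
    rw [eq_top_iff, ← NumberField.Units.closure_fundSystem_sup_torsion_eq_top K, sup_le_iff]
    constructor
    · apply Subgroup.closure_mono
      intro x hx
      obtain ⟨i, rfl⟩ := hx
      simp [S]
    · intro x hx
      obtain ⟨k, hk⟩ := Subgroup.mem_zpowers_iff.1 (hg ⟨x, hx⟩)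
      have : x = (g : (𝓞 K)ˣ) ^ k := by
        have := congrArg (Subtype.val) hk
        simpa using this.symm
      rw [this]
      exact Subgroup.zpow_mem _ (Subgroup.subset_closure (by simp [S])) _
  refine (Group.rank_le hS).trans ?_
  refine (Finset.card_insert_le _ _).trans ?_
  rw [← units_rank_add_one p K hp2]
  have := Finset.card_image_le (s := (Finset.univ : Finset (Fin (NumberField.Units.rank K))))
    (f := NumberField.Units.fundSystem K)
  simp at this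
  omega

variable (p K) in
/-- Dirichlet: the index of the `p`-th powers in the unit group divides `p ^ ((p-1)/2)`. -/
theorem index_range_pow_dvd (hp2 : 2 < p) :
    (powMonoidHom p : (𝓞 K)ˣ →* (𝓞 K)ˣ).range.index ∣ p ^ ((p - 1) / 2) := by
  let P := (powMonoidHom p : (𝓞 K)ˣ →* (𝓞 K)ˣ).range
  have hG : ∀ g : (𝓞 K)ˣ ⧸ P, g ^ p = 1 := by
    intro g
    induction g using QuotientGroup.induction_on with
    | H x =>
      rw [← QuotientGroup.mk_pow, QuotientGroup.eq_one_iff]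
      exact ⟨x, rfl⟩
  have : Group.FG ((𝓞 K)ˣ ⧸ P) :=
    Group.fg_of_surjective (QuotientGroup.mk'_surjective P)
  have h1 := card_dvd_exponent_pow_rank' ((𝓞 K)ˣ ⧸ P) hG
  have h2 : Group.rank ((𝓞 K)ˣ ⧸ P) ≤ (p - 1) / 2 :=
    (Group.rank_le_of_surjective (QuotientGroup.mk' P) (QuotientGroup.mk'_surjective P)).trans
      (units_rank_le p K hp2)
  exact h1.trans (pow_dvd_pow _ h2)


/-- If `E_j \ E_(j+1)` contains a unit, then `p` divides the index `[E_j : E_(j+1)]`. -/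
theorem dvd_relIndex_of_mem_of_not_mem {j : ℕ} (hj2 : j + 1 ≤ p - 1) (η : (𝓞 K)ˣ)
    (h1 : η ∈ unitLevel hζ j) (h2 : η ∉ unitLevel hζ (j + 1)) :
    p ∣ (unitLevel hζ (j + 1)).relIndex (unitLevel hζ j) := by
  unfold Subgroup.relIndex Subgroup.index
  let N := (unitLevel hζ (j + 1)).subgroupOf (unitLevel hζ j)
  let x : (unitLevel hζ j) ⧸ N := QuotientGroup.mk ⟨η, h1⟩
  have hx1 : x ^ p = 1 := by
    rw [← QuotientGroup.mk_pow, QuotientGroup.eq_one_iff, Subgroup.mem_subgroupOf]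
    exact range_pow_le_unitLevel hζ hj2 ⟨η, rfl⟩
  have hx2 : x ≠ 1 := by
    intro h
    rw [QuotientGroup.eq_one_iff, Subgroup.mem_subgroupOf] at h
    exact h2 h
  have := orderOf_dvd_natCard x
  rwa [orderOf_eq_prime hx1 hx2] at this

theorem pow_card_filter_dvd_index (S : Finset ℕ)
    (hS : ∀ j ∈ S, 1 ≤ j ∧ j + 1 ≤ p - 1 ∧
      ∃ η : (𝓞 K)ˣ, η ∈ unitLevel hζ j ∧ η ∉ unitLevel hζ (j + 1))
    (J : ℕ) (hJ1 : 1 ≤ J) (hJ2 : J ≤ p - 1) :
    p ^ (S.filter (· < J)).card ∣ (unitLevel hζ J).index := by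
  induction J, hJ1 using Nat.le_induction with
  | base =>
    have : S.filter (· < 1) = ∅ := by
      rw [Finset.filter_eq_empty_iff]
      intro j hj
      have := (hS j hj).1
      omega
    rw [this]
    simp
  | succ J hJ1 ih =>
    have ih' := ih (by omega)
    rw [← Subgroup.relIndex_mul_index (unitLevel_succ_le hζ J)]
    by_cases hJS : J ∈ S
    · have hfil : S.filter (· < J + 1) = insert J (S.filter (· < J)) := by
        ext j
        simp only [Finset.mem_filter, Finset.mem_insert]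
        constructor
        · rintro ⟨h1, h2⟩
          rcases Nat.lt_succ_iff_lt_or_eq.1 h2 with h | h
          · exact Or.inr ⟨h1, h⟩
          · exact Or.inl h
        · rintro (rfl | ⟨h1, h2⟩)
          · exact ⟨hJS, Nat.lt_succ_self _⟩
          · exact ⟨h1, Nat.lt_succ_of_lt h2⟩
      rw [hfil, Finset.card_insert_of_notMem (by simp), pow_succ']
      obtain ⟨_, _, η, h1, h2⟩ := hS J hJS
      exact mul_dvd_mul (dvd_relIndex_of_mem_of_not_mem hζ hJ2 η h1 h2) ih'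
    · have hfil : S.filter (· < J + 1) = S.filter (· < J) := by
        ext j
        simp only [Finset.mem_filter]
        constructor
        · rintro ⟨h1, h2⟩
          refine ⟨h1, ?_⟩
          rcases Nat.lt_succ_iff_lt_or_eq.1 h2 with h | h
          · exact h
          · exact absurd (h ▸ h1) hJS
        · rintro ⟨h1, h2⟩
          exact ⟨h1, Nat.lt_succ_of_lt h2⟩
      rw [hfil]
      exact Dvd.dvd.mul_left ih' _

/-- **Kummer's lemma** from level data: if for at least `(p-1)/2` values of `j ∈ [1, p-2]` there is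
a unit in `E_j \ E_(j+1)`, then every unit congruent to an integer modulo `p` is a `p`-th power. -/
theorem kummer_of_levels (hp2 : 2 < p) (S : Finset ℕ)
    (hS : ∀ j ∈ S, 1 ≤ j ∧ j + 1 ≤ p - 1 ∧
      ∃ η : (𝓞 K)ˣ, η ∈ unitLevel hζ j ∧ η ∉ unitLevel hζ (j + 1))
    (hcard : (p - 1) / 2 ≤ S.card) (u : (𝓞 K)ˣ)
    (hu : ∃ n : ℤ, (p : 𝓞 K) ∣ (u : 𝓞 K) - n) : ∃ v : (𝓞 K)ˣ, u = v ^ p := by
  let P := (powMonoidHom p : (𝓞 K)ˣ →* (𝓞 K)ˣ).range
  let H := unitLevel hζ (p - 1)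
  have hPH : P ≤ H := range_pow_le_unitLevel hζ le_rfl
  have h1 : P.index ∣ p ^ ((p - 1) / 2) := index_range_pow_dvd p K hp2
  have h2 : p ^ S.card ∣ H.index := by
    have := pow_card_filter_dvd_index hζ S hS (p - 1) (by omega) le_rfl
    have hfil : S.filter (· < p - 1) = S := by
      rw [Finset.filter_eq_self]
      intro j hj
      have := (hS j hj).2.1
      omega
    rwa [hfil] at this
  have h3 : P.relIndex H * H.index = P.index := Subgroup.relIndex_mul_index hPH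
  have h4 : p ^ ((p - 1) / 2) ∣ H.index := (pow_dvd_pow p hcard).trans h2
  have hP0 : P.index ≠ 0 := by
    intro h0
    rw [h0, zero_dvd_iff] at h1
    exact (pow_ne_zero _ hp.out.ne_zero) h1
  have hH0 : H.index ≠ 0 := fun h0 => hP0 (by rw [← h3, h0, mul_zero])
  have h5 : H.index = P.index := by
    apply Nat.dvd_antisymm
    · exact Dvd.intro_left _ h3
    · exact h1.trans h4
  have h6 : P.relIndex H = 1 := by
    have : P.relIndex H * H.index = 1 * H.index := by rw [h3, one_mul, h5]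
    exact Nat.eq_of_mul_eq_mul_right (Nat.pos_of_ne_zero hH0) this
  have h7 : H ≤ P := Subgroup.relIndex_eq_one.1 h6
  obtain ⟨v, hv⟩ := h7 (mem_unitLevel_of_dvd hζ hu)
  exact ⟨v, hv.symm⟩


/-- Bridge from computations in the quotient ring `𝓞 K ⧸ (π ^ (j + 1))`. -/
theorem pi_pow_dvd_sub_of_mk_eq {j : ℕ} (a b : 𝓞 K)
    (h : Ideal.Quotient.mk (Ideal.span {(hζ.toInteger - 1) ^ (j + 1)}) a =
      Ideal.Quotient.mk (Ideal.span {(hζ.toInteger - 1) ^ (j + 1)}) b) :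
    (hζ.toInteger - 1) ^ (j + 1) ∣ a - b := by
  rw [← Ideal.mem_span_singleton, ← Ideal.Quotient.eq]
  exact h

theorem mk_pi_pow_eq_zero (j : ℕ) :
    (Ideal.Quotient.mk (Ideal.span {(hζ.toInteger - 1) ^ (j + 1)}) (hζ.toInteger - 1)) ^ (j + 1)
      = 0 := by
  rw [← map_pow, Ideal.Quotient.eq_zero_iff_mem]
  exact Ideal.mem_span_singleton_self _

theorem mk_p_eq_zero {j : ℕ} (hj : j + 1 ≤ p - 1) :
    ((p : ℕ) : 𝓞 K ⧸ Ideal.span {(hζ.toInteger - 1) ^ (j + 1)}) = 0 := by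
  have : ((p : ℕ) : 𝓞 K ⧸ Ideal.span {(hζ.toInteger - 1) ^ (j + 1)})
      = Ideal.Quotient.mk (Ideal.span {(hζ.toInteger - 1) ^ (j + 1)}) ((p : ℕ) : 𝓞 K) := by
    simp
  rw [this, Ideal.Quotient.eq_zero_iff_mem, Ideal.mem_span_singleton]
  exact pi_pow_dvd_p_of_le hζ hj

theorem mk_zeta_eq (j : ℕ) :
    Ideal.Quotient.mk (Ideal.span {(hζ.toInteger - 1) ^ (j + 1)}) hζ.toInteger
      = 1 + Ideal.Quotient.mk (Ideal.span {(hζ.toInteger - 1) ^ (j + 1)}) (hζ.toInteger - 1) := by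
  rw [map_sub, map_one]; ring

/-- Geometric sums of `ζ` (cyclotomic units). -/
theorem isUnit_geom_sum {h : ℕ} (hh : h.Coprime p) :
    IsUnit (∑ i ∈ Finset.range h, hζ.toInteger ^ i) :=
  hζ.toInteger_isPrimitiveRoot.geom_sum_isUnit hp.out.two_le hh

theorem isUnit_zeta : IsUnit hζ.toInteger :=
  hζ.toInteger_isPrimitiveRoot.isUnit hp.out.ne_zero

/-- Level one: `ζ` itself. -/
theorem level_one_witness (hp2 : 2 < p) :
    ∃ η : (𝓞 K)ˣ, η ∈ unitLevel hζ 1 ∧ η ∉ unitLevel hζ (1 + 1) := by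
  refine ⟨(isUnit_zeta hζ).unit, mem_level_not_mem_succ hζ le_rfl (by omega) _ 1 1 ?_ ?_⟩
  · intro h
    have := Int.le_of_dvd one_pos h
    have : (2 : ℤ) < p := by exact_mod_cast hp2
    omega
  · simp

/-- Witness at level `j` from a congruence computed in the quotient ring `𝓞 K ⧸ (π ^ (j + 1))`. -/
theorem level_witness_of_mk_eq {j : ℕ} (hj1 : 1 ≤ j) (hj2 : j + 1 ≤ p - 1) (η : 𝓞 K)
    (hη : IsUnit η) (n a : ℤ) (ha : ¬ (p : ℤ) ∣ a)
    (h : Ideal.Quotient.mk (Ideal.span {(hζ.toInteger - 1) ^ (j + 1)}) η =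
      (n : 𝓞 K ⧸ Ideal.span {(hζ.toInteger - 1) ^ (j + 1)}) + (a : 𝓞 K ⧸ _) *
        (Ideal.Quotient.mk (Ideal.span {(hζ.toInteger - 1) ^ (j + 1)}) (hζ.toInteger - 1)) ^ j) :
    ∃ η : (𝓞 K)ˣ, η ∈ unitLevel hζ j ∧ η ∉ unitLevel hζ (j + 1) := by
  refine ⟨hη.unit, mem_level_not_mem_succ hζ hj1 hj2 _ n a ha ?_⟩
  have key := pi_pow_dvd_sub_of_mk_eq hζ (j := j) η
    ((n : 𝓞 K) + (a : 𝓞 K) * (hζ.toInteger - 1) ^ j) (by simpa using h)
  simpa [sub_sub] using key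

end KummerGeneric

end Fermat.Agent.FLTSmall
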