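import Fermat.Agent.FLTSmall.ListEval

/-!
# Explicit units of exact level `j` in the ring of integers of the `p`-th cyclotomic field

Let `π = ζ - 1`.  An element `u` of `𝓞 K` *has level `j`* if it is congruent to a rational integer
modulo `π ^ j`.  For a product `kummerElt hζ k es = ζ ^ k * ∏ (∑ i < a, ζ ^ i) ^ e` of powers of `ζ`
and of cyclotomic units we show: if the (computable) coefficient list `lunit p (p - 1) k es` of its
image in `𝓞 K ⧸ (p) ≃ 𝔽_p[π] / (π ^ (p - 1))` has the shape `c, 0, …, 0, d, …` with `d` (in degree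
`j ≤ p - 2`) prime to `p`, then it has level `j` but not level `j + 1`.
-/

set_option autoImplicit false

namespace Fermat.Agent.FLTSmall

open NumberField

section

set_option linter.unusedSectionVars false

variable {p : ℕ} [hp : Fact p.Prime] {K : Type*} [Field K] [NumberField K]
  [hcycl : IsCyclotomicExtension {p} ℚ K] {ζ : K}

/-- `u` is congruent to a rational integer modulo `(ζ - 1) ^ j`. -/
def HasLevel (hζ : IsPrimitiveRoot ζ p) (j : ℕ) (u : 𝓞 K) : Prop :=
  ∃ n : ℤ, (hζ.toInteger - 1) ^ j ∣ u - n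

/-- The element `ζ ^ k * ∏ (∑ i < a, ζ ^ i) ^ e` (product over the pairs `(a, e)` of `es`). -/
noncomputable def kummerElt (hζ : IsPrimitiveRoot ζ p) (k : ℕ) (es : List (ℕ × ℕ)) : 𝓞 K :=
  hζ.toInteger ^ k *
    (es.map fun ae => (∑ i ∈ Finset.range ae.1, hζ.toInteger ^ i) ^ ae.2).prod

theorem isUnit_kummerElt (hζ : IsPrimitiveRoot ζ p) (k : ℕ) (es : List (ℕ × ℕ))
    (hes : ∀ ae ∈ es, Nat.Coprime ae.1 p) : IsUnit (kummerElt hζ k es) := by
  have hζ' := hζ.toInteger_isPrimitiveRoot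
  refine IsUnit.mul ((hζ'.isUnit hp.out.ne_zero).pow k) ?_
  induction es with
  | nil => simp
  | cons ae es ih =>
    rw [List.map_cons, List.prod_cons]
    refine IsUnit.mul (IsUnit.pow _ ?_) (ih fun ae' h => hes ae' (List.mem_cons_of_mem _ h))
    exact hζ'.geom_sum_isUnit hp.out.two_le (hes ae List.mem_cons_self)

/-- `kummerElt` as a unit of `𝓞 K`. -/
noncomputable def kummerUnit (hζ : IsPrimitiveRoot ζ p) (k : ℕ) (es : List (ℕ × ℕ))
    (hes : ∀ ae ∈ es, Nat.Coprime ae.1 p) : (𝓞 K)ˣ :=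
  (isUnit_kummerElt hζ k es hes).unit

@[simp] theorem coe_kummerUnit (hζ : IsPrimitiveRoot ζ p) (k : ℕ) (es : List (ℕ × ℕ))
    (hes : ∀ ae ∈ es, Nat.Coprime ae.1 p) :
    ((kummerUnit hζ k es hes : (𝓞 K)ˣ) : 𝓞 K) = kummerElt hζ k es :=
  IsUnit.unit_spec _

/-- The image of `kummerElt` modulo `p` is computed by `lunit`. -/
theorem dvd_kummerElt_sub_lev (hζ : IsPrimitiveRoot ζ p) (k : ℕ) (es : List (ℕ × ℕ)) :
    (p : 𝓞 K) ∣ kummerElt hζ k es - lev (hζ.toInteger - 1) (lunit p (p - 1) k es) := by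
  set π : 𝓞 K := hζ.toInteger - 1 with hπ
  set I : Ideal (𝓞 K) := Ideal.span {(p : 𝓞 K)} with hI
  have hpS : ((p : ℕ) : 𝓞 K ⧸ I) = 0 := by
    rw [← map_natCast (Ideal.Quotient.mk I), Ideal.Quotient.eq_zero_iff_mem]
    exact Ideal.mem_span_singleton_self _
  have hx : (Ideal.Quotient.mk I π) ^ (p - 1) = 0 := by
    rw [← map_pow, Ideal.Quotient.eq_zero_iff_mem, hI, Ideal.mem_span_singleton]
    exact (IsCyclotomicExtension.Rat.associated_zeta_sub_one_pow_prime p hζ).symm.dvd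
  have hz : Ideal.Quotient.mk I hζ.toInteger = 1 + Ideal.Quotient.mk I π := by
    rw [hπ, map_sub, map_one]; ring
  rw [← Ideal.mem_span_singleton, ← hI, ← Ideal.Quotient.eq_zero_iff_mem, map_sub, sub_eq_zero,
    map_lev, lev_lunit hpS hx, kummerElt, map_mul, map_pow, hz, map_list_prod, List.map_map]
  refine congrArg₂ _ rfl (congrArg List.prod (List.map_congr_left fun ae _ => ?_))
  simp only [Function.comp_apply, map_pow, map_sum, hz]

/-- **Level certificate.** If the coefficient list `lunit p (p - 1) k es` has the shape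
`c, 0, …, 0, d, …` with `d` in degree `j`, `1 ≤ j ≤ p - 2` and `p ∤ d`, then `kummerElt hζ k es`
is congruent to an integer modulo `(ζ - 1) ^ j` but not modulo `(ζ - 1) ^ (j + 1)`. -/
theorem kummerElt_level (hζ : IsPrimitiveRoot ζ p) (k : ℕ) (es : List (ℕ × ℕ))
    (c d j : ℕ) (rest : List ℕ) (hj1 : 1 ≤ j) (hj : j + 2 ≤ p) (hd : ¬ p ∣ d)
    (hcomp : lunit p (p - 1) k es = c :: (List.replicate (j - 1) 0 ++ d :: rest)) :
    HasLevel hζ j (kummerElt hζ k es) ∧ ¬ HasLevel hζ (j + 1) (kummerElt hζ k es) := by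
  set π : 𝓞 K := hζ.toInteger - 1 with hπ
  obtain ⟨w, hw⟩ := dvd_kummerElt_sub_lev hζ k es
  rw [hcomp, lev_level _ c d j rest hj1, ← hπ] at hw
  set r : 𝓞 K := lev π rest
  -- `p = π ^ (j + 1) * t`
  obtain ⟨t, ht⟩ : π ^ (j + 1) ∣ (p : 𝓞 K) :=
    (pow_dvd_pow π (by omega : j + 1 ≤ p - 1)).trans
      (IsCyclotomicExtension.Rat.associated_zeta_sub_one_pow_prime p hζ).dvd
  have hπ0 : π ≠ 0 := hζ.zeta_sub_one_prime'.ne_zero
  have hη : kummerElt hζ k es = (c : 𝓞 K) + π ^ j * ((d : 𝓞 K) + π * r) + π ^ (j + 1) * t * w := by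
    rw [← ht]; linear_combination hw
  constructor
  · refine ⟨(c : ℤ), (d : 𝓞 K) + π * r + π * t * w, ?_⟩
    rw [hη]; push_cast; ring
  · rintro ⟨n, v, hv⟩
    -- `π ^ (j + 1) ∣ (c - n) + π ^ j * d`
    have h1 : ((c : ℤ) - n : ℤ) + π ^ j * (d : 𝓞 K) = π ^ (j + 1) * (v - r - t * w) := by
      push_cast
      linear_combination hv - hη
    have hj0 : j ≠ 0 := by omega
    have h2 : π ∣ (((c : ℤ) - n : ℤ) : 𝓞 K) := by
      have h21 : π ∣ π ^ j * (d : 𝓞 K) := Dvd.dvd.mul_right (dvd_pow_self π hj0) _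
      have h22 : π ∣ π ^ (j + 1) * (v - r - t * w) :=
        Dvd.dvd.mul_right (dvd_pow_self π (Nat.succ_ne_zero j)) _
      rw [← h1] at h22
      exact (dvd_add_left h21).mp h22
    rw [IsCyclotomicExtension.Rat.zeta_sub_one_dvd_intCast_iff' p hζ] at h2
    obtain ⟨m, hm⟩ := h2
    have h3 : π ^ j * (d : 𝓞 K) = π ^ j * (π * (v - r - t * w - t * m)) := by
      have : (((c : ℤ) - n : ℤ) : 𝓞 K) = π ^ (j + 1) * t * m := by
        rw [hm, ← ht]; push_cast; ring
      rw [this] at h1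
      linear_combination h1
    have h4 : π ∣ ((d : ℤ) : 𝓞 K) := by
      have := mul_left_cancel₀ (pow_ne_zero j hπ0) h3
      exact ⟨_, by exact_mod_cast this⟩
    rw [IsCyclotomicExtension.Rat.zeta_sub_one_dvd_intCast_iff' p hζ] at h4
    exact hd (by exact_mod_cast h4)

end

end Fermat.Agent.FLTSmall
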