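import Mathlib

/-!
# Verified list arithmetic for truncated polynomials

`lev x l` is the value at `x` of the polynomial whose list of (natural number) coefficients is `l`.
The operations `ladd`, `lmul`, `lred`, `lpowr`, `lgeom`, `lunit` on coefficient lists are
computable (structural recursion on lists of natural numbers), so that identities between explicit
lists are proved by `decide`, and they are compatible with `lev` in any commutative ring in which
`p = 0` and `x ^ n = 0`.
-/

set_option autoImplicit false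

namespace Fermat.Agent.FLTSmall

section ListEval

variable {S : Type*} [CommRing S]

/-- Value at `x` of the polynomial with coefficient list `l`. -/
def lev (x : S) : List ℕ → S
  | [] => 0
  | a :: l => (a : S) + x * lev x l

/-- Coefficientwise sum of two coefficient lists. -/
def ladd : List ℕ → List ℕ → List ℕ
  | [], l => l
  | a :: l, [] => a :: l
  | a :: l, b :: l' => (a + b) :: ladd l l'

/-- Scalar multiple of a coefficient list. -/
def lsmul (c : ℕ) : List ℕ → List ℕ
  | [] => []
  | a :: l => (c * a) :: lsmul c l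

/-- Product (convolution) of two coefficient lists. -/
def lmul : List ℕ → List ℕ → List ℕ
  | [], _ => []
  | a :: l, l' => ladd (lsmul a l') (0 :: lmul l l')

/-- Keep the first `n` coefficients and reduce them modulo `p`. -/
def lred (p : ℕ) : ℕ → List ℕ → List ℕ
  | 0, _ => []
  | _ + 1, [] => []
  | n + 1, a :: l => (a % p) :: lred p n l

/-- Reduced product. -/
def lmulr (p n : ℕ) (l l' : List ℕ) : List ℕ := lred p n (lmul l l')

/-- Reduced power. -/
def lpowr (p n : ℕ) (l : List ℕ) : ℕ → List ℕ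
  | 0 => [1]
  | e + 1 => lmulr p n (lpowr p n l e) l

/-- Reduced coefficient list of `∑ i < a, (1 + x) ^ i`. -/
def lgeom (p n : ℕ) : ℕ → List ℕ
  | 0 => []
  | a + 1 => lred p n (ladd (lgeom p n a) (lpowr p n [1, 1] a))

/-- Reduced coefficient list of `∏ (∑ i < a, (1 + x) ^ i) ^ e` over the pairs `(a, e)` of `es`. -/
def lprod (p n : ℕ) : List (ℕ × ℕ) → List ℕ
  | [] => [1]
  | ae :: es => lmulr p n (lpowr p n (lgeom p n ae.1) ae.2) (lprod p n es)

/-- Reduced coefficient list of `(1 + x) ^ k * ∏ (∑ i < a, (1 + x) ^ i) ^ e`. -/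
def lunit (p n k : ℕ) (es : List (ℕ × ℕ)) : List ℕ :=
  lmulr p n (lpowr p n [1, 1] k) (lprod p n es)

@[simp] theorem lev_nil (x : S) : lev x [] = 0 := rfl

@[simp] theorem lev_cons (x : S) (a : ℕ) (l : List ℕ) :
    lev x (a :: l) = (a : S) + x * lev x l := rfl

theorem lev_ladd (x : S) : ∀ l l' : List ℕ, lev x (ladd l l') = lev x l + lev x l'
  | [], l => by simp [ladd]
  | a :: l, [] => by simp [ladd]
  | a :: l, b :: l' => by
    simp only [ladd, lev_cons, lev_ladd x l l']
    push_cast
    ring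

theorem lev_lsmul (x : S) (c : ℕ) : ∀ l : List ℕ, lev x (lsmul c l) = (c : S) * lev x l
  | [] => by simp [lsmul]
  | a :: l => by
    simp only [lsmul, lev_cons, lev_lsmul x c l]
    push_cast
    ring

theorem lev_lmul (x : S) : ∀ l l' : List ℕ, lev x (lmul l l') = lev x l * lev x l'
  | [], l' => by simp [lmul]
  | a :: l, l' => by
    simp only [lmul, lev_ladd, lev_lsmul, lev_cons, lev_lmul x l l']
    push_cast
    ring

theorem lev_lred {p : ℕ} {x : S} (hp : (p : S) = 0) :
    ∀ (n : ℕ) (l : List ℕ), ∃ r : S, lev x l = lev x (lred p n l) + x ^ n * r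
  | 0, l => ⟨lev x l, by simp [lred]⟩
  | n + 1, [] => ⟨0, by simp [lred]⟩
  | n + 1, a :: l => by
    obtain ⟨r, hr⟩ := lev_lred hp n l
    refine ⟨r, ?_⟩
    have ha : ((a % p : ℕ) : S) = (a : S) := by
      conv_rhs => rw [← Nat.div_add_mod a p]
      push_cast
      rw [hp]
      ring
    simp only [lred, lev_cons, ha]
    rw [hr]
    ring

theorem lev_lred_eq {p n : ℕ} {x : S} (hp : (p : S) = 0) (hx : x ^ n = 0) (l : List ℕ) :
    lev x (lred p n l) = lev x l := by
  obtain ⟨r, hr⟩ := lev_lred (x := x) hp n l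
  rw [hr, hx, zero_mul, add_zero]

theorem lev_lmulr {p n : ℕ} {x : S} (hp : (p : S) = 0) (hx : x ^ n = 0) (l l' : List ℕ) :
    lev x (lmulr p n l l') = lev x l * lev x l' := by
  rw [lmulr, lev_lred_eq hp hx, lev_lmul]

theorem lev_lpowr {p n : ℕ} {x : S} (hp : (p : S) = 0) (hx : x ^ n = 0) (l : List ℕ) :
    ∀ e : ℕ, lev x (lpowr p n l e) = lev x l ^ e
  | 0 => by simp [lpowr]
  | e + 1 => by rw [lpowr, lev_lmulr hp hx, lev_lpowr hp hx l e, pow_succ]

theorem lev_one_one (x : S) : lev x [1, 1] = 1 + x := by simp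

theorem lev_lgeom {p n : ℕ} {x : S} (hp : (p : S) = 0) (hx : x ^ n = 0) :
    ∀ a : ℕ, lev x (lgeom p n a) = ∑ i ∈ Finset.range a, (1 + x) ^ i
  | 0 => by simp [lgeom]
  | a + 1 => by
    rw [lgeom, lev_lred_eq hp hx, lev_ladd, lev_lgeom hp hx a, lev_lpowr hp hx, lev_one_one,
      Finset.sum_range_succ]

theorem lev_lprod {p n : ℕ} {x : S} (hp : (p : S) = 0) (hx : x ^ n = 0) :
    ∀ es : List (ℕ × ℕ), lev x (lprod p n es) =
      (es.map fun ae => (∑ i ∈ Finset.range ae.1, (1 + x) ^ i) ^ ae.2).prod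
  | [] => by simp [lprod]
  | ae :: es => by
    rw [lprod, lev_lmulr hp hx, lev_lpowr hp hx, lev_lgeom hp hx, lev_lprod hp hx es,
      List.map_cons, List.prod_cons]

theorem lev_lunit {p n : ℕ} {x : S} (hp : (p : S) = 0) (hx : x ^ n = 0) (k : ℕ)
    (es : List (ℕ × ℕ)) :
    lev x (lunit p n k es) =
      (1 + x) ^ k * (es.map fun ae => (∑ i ∈ Finset.range ae.1, (1 + x) ^ i) ^ ae.2).prod := by
  rw [lunit, lev_lmulr hp hx, lev_lpowr hp hx, lev_one_one, lev_lprod hp hx]

/-- Shape of a coefficient list of exact level `j`. -/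
theorem lev_level (x : S) (c d j : ℕ) (rest : List ℕ) (hj : 1 ≤ j) :
    lev x (c :: (List.replicate (j - 1) 0 ++ d :: rest)) =
      (c : S) + x ^ j * ((d : S) + x * lev x rest) := by
  obtain ⟨m, rfl⟩ : ∃ m, j = m + 1 := ⟨j - 1, by omega⟩
  simp only [Nat.add_sub_cancel, lev_cons]
  have : ∀ (m : ℕ) (l : List ℕ), lev x (List.replicate m 0 ++ l) = x ^ m * lev x l := by
    intro m l
    induction m with
    | zero => simp
    | succ m ih =>
      rw [List.replicate_succ, List.cons_append, lev_cons, ih]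
      push_cast
      ring
  rw [this, lev_cons]
  ring

theorem map_lev {T : Type*} [CommRing T] (f : S →+* T) (x : S) :
    ∀ l : List ℕ, f (lev x l) = lev (f x) l
  | [] => by simp
  | a :: l => by simp [map_lev f x l]

end ListEval

end Fermat.Agent.FLTSmall
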