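import Mathlib
import Fermat.Prelude.Def_FLTPrelim_FreyPackage

/-!
# FLTSmall: final assembly (generic part)

A `FreyPackage` whose exponent `p` satisfies the first case (`CaseIStatement p`, in the shape of
`caseI_five` … from `CaseI.lean`) and the second case (`CaseIIStatement p`, in the shape of the
conclusion of `caseII_generic`) of Fermat's Last Theorem is contradictory.
-/

set_option autoImplicit false

namespace Fermat.Agent.FLTSmall

/-- First case of FLT for exponent `p`, in the symmetric shape `x ^ p + y ^ p + z ^ p = 0`. -/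
def CaseIStatement (p : ℕ) : Prop :=
  ∀ {x y z : ℤ}, IsCoprime x y → IsCoprime y z → IsCoprime z x →
    x ^ p + y ^ p + z ^ p = 0 → (p : ℤ) ∣ x * y * z

/-- Second case of FLT for exponent `p`, with `p` dividing the right-hand side. -/
def CaseIIStatement (p : ℕ) : Prop :=
  ∀ {a b c : ℤ}, IsCoprime a b → (p : ℤ) ∣ c → c ≠ 0 → a ^ p + b ^ p = c ^ p → False

theorem isCoprime_of_gcd_eq_one {a b : ℤ} (h : gcd a b = 1) : IsCoprime a b := by
  rw [Int.isCoprime_iff_gcd_eq_one]
  rw [← Int.coe_gcd] at h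
  exact_mod_cast h

/-- No integer solution of `a ^ p + b ^ p = c ^ p` with `a, b, c` nonzero and pairwise coprime, as
soon as both cases of FLT hold for the odd prime `p`. -/
theorem false_of_cases {p : ℕ} (hp : p.Prime) (hodd : Odd p)
    (hI : CaseIStatement p) (hII : CaseIIStatement p)
    {a b c : ℤ} (ha0 : a ≠ 0) (hb0 : b ≠ 0) (hc0 : c ≠ 0)
    (hab : IsCoprime a b) (hac : IsCoprime a c) (hbc : IsCoprime b c)
    (h : a ^ p + b ^ p = c ^ p) : False := by
  have hsum : a ^ p + b ^ p + (-c) ^ p = 0 := by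
    rw [hodd.neg_pow, h]; ring
  have hdvd : (p : ℤ) ∣ a * b * (-c) := hI hab hbc.neg_right hac.neg_right.symm hsum
  have hpp : Prime (p : ℤ) := Nat.prime_iff_prime_int.mp hp
  rcases hpp.dvd_or_dvd hdvd with h1 | h1
  · rcases hpp.dvd_or_dvd h1 with h2 | h2
    · -- `p ∣ a`: `c ^ p + (-b) ^ p = a ^ p`
      refine hII (a := c) (b := -b) (c := a) hbc.symm.neg_right h2 ha0 ?_
      rw [hodd.neg_pow, ← h]; ring
    · -- `p ∣ b`: `c ^ p + (-a) ^ p = b ^ p`
      refine hII (a := c) (b := -a) (c := b) hac.symm.neg_right h2 hb0 ?_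
      rw [hodd.neg_pow, ← h]; ring
  · exact hII hab ((dvd_neg).mp h1) hc0 h

/-- A Frey package whose exponent satisfies both cases of FLT is contradictory. -/
theorem false_of_freyPackage (P : FreyPackage)
    (hI : CaseIStatement P.p) (hII : CaseIIStatement P.p) : False :=
  false_of_cases P.pp P.hp_odd hI hII P.ha0 P.hb0 P.hc0
    (isCoprime_of_gcd_eq_one P.hgcdab) (isCoprime_of_gcd_eq_one P.hgcdac)
    (isCoprime_of_gcd_eq_one P.hgcdbc) P.hFLT

end Fermat.Agent.FLTSmall
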