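import Mathlib

/-!
# FLTSmall: explicit principal prime ideals in cyclotomic rings of integers

Generic certificate lemma (via Mathlib's Kummer–Dedekind) and instances.
-/

set_option autoImplicit false

namespace Fermat.Agent.FLTSmall

open NumberField Polynomial Ideal RingOfIntegers

section Generic

variable {p : ℕ} [hp : Fact p.Prime] {K : Type*} [Field K] [NumberField K]
  [IsCyclotomicExtension {p} ℚ K]

/-- Certificate lemma: if `Q ∈ ℤ[X]` is monic, irreducible mod `q`, divides `Φ_p` mod `q`, and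
`α ∣ q`, `α ∣ Q(ζ)`, `α ∈ (q, Q(ζ))`, then `(α)` is a (principal) prime of `𝓞 K` over `q`. -/
theorem exists_principal_prime_over (q : ℕ) [Fact q.Prime] {θ : 𝓞 K} (hθ : IsPrimitiveRoot θ p)
    (Q : ℤ[X]) (hQm : Q.Monic) (hQirr : Irreducible (Q.map (Int.castRingHom (ZMod q))))
    (hQdvd : Q.map (Int.castRingHom (ZMod q)) ∣ cyclotomic p (ZMod q))
    (α β γ u v : 𝓞 K) (h1 : α * β = (q : 𝓞 K)) (h2 : α * γ = aeval θ Q)
    (h3 : α = (q : 𝓞 K) * u + aeval θ Q * v) :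
    ∃ P ∈ primesOver (span {(q : ℤ)}) (𝓞 K), Submodule.IsPrincipal P := by
  have hp0 : NeZero p := ⟨hp.out.ne_zero⟩
  have hζ : IsPrimitiveRoot (θ : K) p := hθ.map_of_injective RingOfIntegers.coe_injective
  have hθ' : hζ.toInteger = θ := RingOfIntegers.ext rfl
  have hexp : ¬ q ∣ exponent θ := by
    rw [exponent_eq_one_iff.mpr (hθ' ▸ IsCyclotomicExtension.Rat.adjoin_singleton_eq_top hζ)]
    exact (Fact.out : q.Prime).one_lt.ne' ∘ Nat.dvd_one.mp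
  have hmin : minpoly ℤ θ = cyclotomic p ℤ := by
    rw [← minpoly.algebraMap_eq (B' := K) RingOfIntegers.coe_injective θ]
    exact (cyclotomic_eq_minpoly hζ hp.out.pos).symm
  have h₀ : map (Int.castRingHom (ZMod q)) (minpoly ℤ θ) ≠ 0 :=
    map_monic_ne_zero (minpoly.monic θ.isIntegral)
  have hQ : Q.map (Int.castRingHom (ZMod q)) ∈ monicFactorsMod θ q := by
    rw [Multiset.mem_toFinset, Polynomial.mem_normalizedFactors_iff h₀]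
    refine ⟨hQirr, hQm.map _, ?_⟩
    rw [hmin, map_cyclotomic]
    exact hQdvd
  refine ⟨_, ((NumberField.Ideal.primesOverSpanEquivMonicFactorsMod hexp).symm ⟨_, hQ⟩).2, ?_⟩
  rw [NumberField.Ideal.primesOverSpanEquivMonicFactorsMod_symm_apply_eq_span hexp hQ]
  refine ⟨α, ?_⟩
  rw [Ideal.submodule_span_eq]
  apply le_antisymm
  · rw [Ideal.span_le]
    rintro x (rfl | rfl)
    · exact Ideal.mem_span_singleton.mpr ⟨β, h1.symm⟩
    · exact Ideal.mem_span_singleton.mpr ⟨γ, h2.symm⟩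
  · rw [Ideal.span_le]
    rintro x rfl
    rw [h3]
    exact Ideal.add_mem _ (Ideal.mul_mem_right _ _ (Ideal.subset_span (by simp)))
      (Ideal.mul_mem_right _ _ (Ideal.subset_span (by simp)))

end Generic

section Instances

/-- A principal prime of `𝓞 K` above `23`, for `K = ℚ(ζ_11)`: generated by `1 + ζ + ζ ^ 3`. -/
theorem exists_principal_prime_eleven_23 (K : Type*) [Field K] [NumberField K]
    [IsCyclotomicExtension {11} ℚ K] :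
    ∃ P ∈ primesOver (span {((23 : ℕ) : ℤ)}) (𝓞 K), Submodule.IsPrincipal P := by
  have : Fact (Nat.Prime 11) := ⟨by norm_num⟩
  have : Fact (Nat.Prime 23) := ⟨by norm_num⟩
  obtain ⟨θ, hθ⟩ : ∃ θ : 𝓞 K, IsPrimitiveRoot θ 11 :=
    ⟨_, (IsCyclotomicExtension.zeta_spec 11 ℚ K).toInteger_isPrimitiveRoot⟩
  have hΦ : 1 + θ + θ ^ 2 + θ ^ 3 + θ ^ 4 + θ ^ 5 + θ ^ 6 + θ ^ 7 + θ ^ 8 + θ ^ 9 + θ ^ 10 = 0 := by
    have := hθ.geom_sum_eq_zero (by norm_num : 1 < 11)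
    simpa [Finset.sum_range_succ] using this
  refine exists_principal_prime_over 23 hθ (X - C 4) (monic_X_sub_C 4) ?_ ?_
    (1 + θ + θ ^ 3)
    (-2 - 14 * θ - 17 * θ ^ 2 - 12 * θ ^ 3 - 5 * θ ^ 4 - 9 * θ ^ 5 - 10 * θ ^ 6 - 16 * θ ^ 7 - 6 * θ ^ 8 - 15 * θ ^ 9)
    (1 + 3 * θ + 3 * θ ^ 2 + 2 * θ ^ 3 + θ ^ 4 + 2 * θ ^ 5 + 2 * θ ^ 6 + 3 * θ ^ 7 + θ ^ 8 + 3 * θ ^ 9)
    (3) (17 + 4 * θ + θ ^ 2) ?_ ?_ ?_
  · rw [Polynomial.map_sub, map_X, map_C]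
    exact irreducible_X_sub_C _
  · rw [Polynomial.map_sub, map_X, map_C, dvd_iff_isRoot, cyclotomic_prime]
    simp only [IsRoot.def, eval_finsetSum, eval_pow, eval_X, eq_intCast, ← Int.cast_pow,
      ← Int.cast_sum]
    rw [ZMod.intCast_zmod_eq_zero_iff_dvd]
    decide
  · push_cast
    linear_combination (-25 + 9 * θ - 15 * θ ^ 2) * hΦ
  · rw [map_sub, aeval_X, aeval_C, algebraMap_int_eq, eq_intCast]
    push_cast
    linear_combination (5 - 2 * θ + 3 * θ ^ 2) * hΦ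
  · rw [map_sub, aeval_X, aeval_C, algebraMap_int_eq, eq_intCast]
    push_cast
    ring

/-- A principal prime of `𝓞 K` above `53`, for `K = ℚ(ζ_13)`: generated by `1 + ζ + ζ ^ 3`. -/
theorem exists_principal_prime_thirteen_53 (K : Type*) [Field K] [NumberField K]
    [IsCyclotomicExtension {13} ℚ K] :
    ∃ P ∈ primesOver (span {((53 : ℕ) : ℤ)}) (𝓞 K), Submodule.IsPrincipal P := by
  have : Fact (Nat.Prime 13) := ⟨by norm_num⟩
  have : Fact (Nat.Prime 53) := ⟨by norm_num⟩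
  obtain ⟨θ, hθ⟩ : ∃ θ : 𝓞 K, IsPrimitiveRoot θ 13 :=
    ⟨_, (IsCyclotomicExtension.zeta_spec 13 ℚ K).toInteger_isPrimitiveRoot⟩
  have hΦ : 1 + θ + θ ^ 2 + θ ^ 3 + θ ^ 4 + θ ^ 5 + θ ^ 6 + θ ^ 7 + θ ^ 8 + θ ^ 9 + θ ^ 10 + θ ^ 11 + θ ^ 12 = 0 := by
    have := hθ.geom_sum_eq_zero (by norm_num : 1 < 13)
    simpa [Finset.sum_range_succ] using this
  refine exists_principal_prime_over 53 hθ (X - C 36) (monic_X_sub_C 36) ?_ ?_
    (1 + θ + θ ^ 3)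
    (1 - 24 * θ - 35 * θ ^ 2 - 25 * θ ^ 3 - 10 * θ ^ 4 - 14 * θ ^ 5 - 20 * θ ^ 6 - 29 * θ ^ 7 - 16 * θ ^ 8 - 23 * θ ^ 9 - 7 * θ ^ 10 - 36 * θ ^ 11)
    (17 * θ + 24 * θ ^ 2 + 17 * θ ^ 3 + 7 * θ ^ 4 + 10 * θ ^ 5 + 14 * θ ^ 6 + 20 * θ ^ 7 + 11 * θ ^ 8 + 16 * θ ^ 9 + 5 * θ ^ 10 + 25 * θ ^ 11)
    (881) (1297 + 36 * θ + θ ^ 2) ?_ ?_ ?_
  · rw [Polynomial.map_sub, map_X, map_C]
    exact irreducible_X_sub_C _
  · rw [Polynomial.map_sub, map_X, map_C, dvd_iff_isRoot, cyclotomic_prime]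
    simp only [IsRoot.def, eval_finsetSum, eval_pow, eval_X, eq_intCast, ← Int.cast_pow,
      ← Int.cast_sum]
    rw [ZMod.intCast_zmod_eq_zero_iff_dvd]
    decide
  · push_cast
    linear_combination (-52 + 29 * θ - 36 * θ ^ 2) * hΦ
  · rw [map_sub, aeval_X, aeval_C, algebraMap_int_eq, eq_intCast]
    push_cast
    linear_combination (36 - 20 * θ + 25 * θ ^ 2) * hΦ
  · rw [map_sub, aeval_X, aeval_C, algebraMap_int_eq, eq_intCast]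
    push_cast
    ring

/-- A principal prime of `𝓞 K` above `79`, for `K = ℚ(ζ_13)`: generated by `1 + ζ - ζ ^ 4`. -/
theorem exists_principal_prime_thirteen_79 (K : Type*) [Field K] [NumberField K]
    [IsCyclotomicExtension {13} ℚ K] :
    ∃ P ∈ primesOver (span {((79 : ℕ) : ℤ)}) (𝓞 K), Submodule.IsPrincipal P := by
  have : Fact (Nat.Prime 13) := ⟨by norm_num⟩
  have : Fact (Nat.Prime 79) := ⟨by norm_num⟩
  obtain ⟨θ, hθ⟩ : ∃ θ : 𝓞 K, IsPrimitiveRoot θ 13 :=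
    ⟨_, (IsCyclotomicExtension.zeta_spec 13 ℚ K).toInteger_isPrimitiveRoot⟩
  have hΦ : 1 + θ + θ ^ 2 + θ ^ 3 + θ ^ 4 + θ ^ 5 + θ ^ 6 + θ ^ 7 + θ ^ 8 + θ ^ 9 + θ ^ 10 + θ ^ 11 + θ ^ 12 = 0 := by
    have := hθ.geom_sum_eq_zero (by norm_num : 1 < 13)
    simpa [Finset.sum_range_succ] using this
  refine exists_principal_prime_over 79 hθ (X - C 64) (monic_X_sub_C 64) ?_ ?_
    (1 + θ - θ ^ 4)
    (24 - 25 * θ - 27 * θ ^ 2 + 10 * θ ^ 3 - 3 * θ ^ 4 - 39 * θ ^ 5 - 5 * θ ^ 6 - 2 * θ ^ 7 - 18 * θ ^ 8 - 38 * θ ^ 9 + 16 * θ ^ 10 - 35 * θ ^ 11)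
    (-19 + 21 * θ + 22 * θ ^ 2 - 8 * θ ^ 3 + 3 * θ ^ 4 + 32 * θ ^ 5 + 4 * θ ^ 6 + 2 * θ ^ 7 + 15 * θ ^ 8 + 31 * θ ^ 9 - 13 * θ ^ 10 + 29 * θ ^ 11)
    (-212369) (-262143 - 4096 * θ - 64 * θ ^ 2 - θ ^ 3) ?_ ?_ ?_
  · rw [Polynomial.map_sub, map_X, map_C]
    exact irreducible_X_sub_C _
  · rw [Polynomial.map_sub, map_X, map_C, dvd_iff_isRoot, cyclotomic_prime]
    simp only [IsRoot.def, eval_finsetSum, eval_pow, eval_X, eq_intCast, ← Int.cast_pow,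
      ← Int.cast_sum]
    rw [ZMod.intCast_zmod_eq_zero_iff_dvd]
    decide
  · push_cast
    linear_combination (-55 + 54 * θ - 51 * θ ^ 2 + 35 * θ ^ 3) * hΦ
  · rw [map_sub, aeval_X, aeval_C, algebraMap_int_eq, eq_intCast]
    push_cast
    linear_combination (45 - 44 * θ + 42 * θ ^ 2 - 29 * θ ^ 3) * hΦ
  · rw [map_sub, aeval_X, aeval_C, algebraMap_int_eq, eq_intCast]
    push_cast
    ring

/-- A principal prime of `𝓞 K` above `131`, for `K = ℚ(ζ_13)`: generated by `1 - ζ - ζ ^ 3`. -/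
theorem exists_principal_prime_thirteen_131 (K : Type*) [Field K] [NumberField K]
    [IsCyclotomicExtension {13} ℚ K] :
    ∃ P ∈ primesOver (span {((131 : ℕ) : ℤ)}) (𝓞 K), Submodule.IsPrincipal P := by
  have : Fact (Nat.Prime 13) := ⟨by norm_num⟩
  have : Fact (Nat.Prime 131) := ⟨by norm_num⟩
  obtain ⟨θ, hθ⟩ : ∃ θ : 𝓞 K, IsPrimitiveRoot θ 13 :=
    ⟨_, (IsCyclotomicExtension.zeta_spec 13 ℚ K).toInteger_isPrimitiveRoot⟩
  have hΦ : 1 + θ + θ ^ 2 + θ ^ 3 + θ ^ 4 + θ ^ 5 + θ ^ 6 + θ ^ 7 + θ ^ 8 + θ ^ 9 + θ ^ 10 + θ ^ 11 + θ ^ 12 = 0 := by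
    have := hθ.geom_sum_eq_zero (by norm_num : 1 < 13)
    simpa [Finset.sum_range_succ] using this
  refine exists_principal_prime_over 131 hθ (X - C 80) (monic_X_sub_C 80) ?_ ?_
    (1 - θ - θ ^ 3)
    (111 + 78 * θ + 17 * θ ^ 2 + 67 * θ ^ 3 + 84 * θ ^ 4 + 40 * θ ^ 5 + 46 * θ ^ 6 + 69 * θ ^ 7 + 48 * θ ^ 8 + 33 * θ ^ 9 + 41 * θ ^ 10 + 28 * θ ^ 11)
    (-68 - 47 * θ - 10 * θ ^ 2 - 41 * θ ^ 3 - 51 * θ ^ 4 - 24 * θ ^ 5 - 28 * θ ^ 6 - 42 * θ ^ 7 - 29 * θ ^ 8 - 20 * θ ^ 9 - 25 * θ ^ 10 - 17 * θ ^ 11)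
    (-3909) (-6401 - 80 * θ - θ ^ 2) ?_ ?_ ?_
  · rw [Polynomial.map_sub, map_X, map_C]
    exact irreducible_X_sub_C _
  · rw [Polynomial.map_sub, map_X, map_C, dvd_iff_isRoot, cyclotomic_prime]
    simp only [IsRoot.def, eval_finsetSum, eval_pow, eval_X, eq_intCast, ← Int.cast_pow,
      ← Int.cast_sum]
    rw [ZMod.intCast_zmod_eq_zero_iff_dvd]
    decide
  · push_cast
    linear_combination (-20 - 13 * θ - 28 * θ ^ 2) * hΦ
  · rw [map_sub, aeval_X, aeval_C, algebraMap_int_eq, eq_intCast]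
    push_cast
    linear_combination (12 + 8 * θ + 17 * θ ^ 2) * hΦ
  · rw [map_sub, aeval_X, aeval_C, algebraMap_int_eq, eq_intCast]
    push_cast
    ring

/-- A principal prime of `𝓞 K` above `157`, for `K = ℚ(ζ_13)`: generated by `1 - ζ + ζ ^ 2 + ζ ^ 4`. -/
theorem exists_principal_prime_thirteen_157 (K : Type*) [Field K] [NumberField K]
    [IsCyclotomicExtension {13} ℚ K] :
    ∃ P ∈ primesOver (span {((157 : ℕ) : ℤ)}) (𝓞 K), Submodule.IsPrincipal P := by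
  have : Fact (Nat.Prime 13) := ⟨by norm_num⟩
  have : Fact (Nat.Prime 157) := ⟨by norm_num⟩
  obtain ⟨θ, hθ⟩ : ∃ θ : 𝓞 K, IsPrimitiveRoot θ 13 :=
    ⟨_, (IsCyclotomicExtension.zeta_spec 13 ℚ K).toInteger_isPrimitiveRoot⟩
  have hΦ : 1 + θ + θ ^ 2 + θ ^ 3 + θ ^ 4 + θ ^ 5 + θ ^ 6 + θ ^ 7 + θ ^ 8 + θ ^ 9 + θ ^ 10 + θ ^ 11 + θ ^ 12 = 0 := by
    have := hθ.geom_sum_eq_zero (by norm_num : 1 < 13)
    simpa [Finset.sum_range_succ] using this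
  refine exists_principal_prime_over 157 hθ (X - C 75) (monic_X_sub_C 75) ?_ ?_
    (1 - θ + θ ^ 2 + θ ^ 4)
    (89 + 86 * θ + 42 * θ ^ 2 + 77 * θ ^ 3 + 67 * θ ^ 4 + 25 * θ ^ 5 + 37 * θ ^ 6 + 56 * θ ^ 7 + 73 * θ ^ 8 + 113 * θ ^ 9 + 124 * θ ^ 10 + 76 * θ ^ 11)
    (-43 - 41 * θ - 20 * θ ^ 2 - 37 * θ ^ 3 - 32 * θ ^ 4 - 12 * θ ^ 5 - 18 * θ ^ 6 - 27 * θ ^ 7 - 35 * θ ^ 8 - 54 * θ ^ 9 - 59 * θ ^ 10 - 36 * θ ^ 11)
    (201568) (421949 + 5626 * θ + 75 * θ ^ 2 + θ ^ 3) ?_ ?_ ?_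
  · rw [Polynomial.map_sub, map_X, map_C]
    exact irreducible_X_sub_C _
  · rw [Polynomial.map_sub, map_X, map_C, dvd_iff_isRoot, cyclotomic_prime]
    simp only [IsRoot.def, eval_finsetSum, eval_pow, eval_X, eq_intCast, ← Int.cast_pow,
      ← Int.cast_sum]
    rw [ZMod.intCast_zmod_eq_zero_iff_dvd]
    decide
  · push_cast
    linear_combination (-68 + 65 * θ + 48 * θ ^ 2 + 76 * θ ^ 3) * hΦ
  · rw [map_sub, aeval_X, aeval_C, algebraMap_int_eq, eq_intCast]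
    push_cast
    linear_combination (32 - 31 * θ - 23 * θ ^ 2 - 36 * θ ^ 3) * hΦ
  · rw [map_sub, aeval_X, aeval_C, algebraMap_int_eq, eq_intCast]
    push_cast
    ring


theorem zmod_three_cubic_no_root : ∀ x : ZMod 3, ¬ (x ^ 3 - x - 1 = 0) := by decide

theorem zmod_three_three_eq_zero : (3 : ZMod 3) = 0 := by decide

theorem exists_principal_prime_thirteen_3 (K : Type*) [Field K] [NumberField K]
    [IsCyclotomicExtension {13} ℚ K] :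
    ∃ P ∈ primesOver (span {((3 : ℕ) : ℤ)}) (𝓞 K), Submodule.IsPrincipal P := by
  have : Fact (Nat.Prime 13) := ⟨by norm_num⟩
  have : Fact (Nat.Prime 3) := ⟨by norm_num⟩
  obtain ⟨θ, hθ⟩ : ∃ θ : 𝓞 K, IsPrimitiveRoot θ 13 :=
    ⟨_, (IsCyclotomicExtension.zeta_spec 13 ℚ K).toInteger_isPrimitiveRoot⟩
  have hΦ : 1 + θ + θ ^ 2 + θ ^ 3 + θ ^ 4 + θ ^ 5 + θ ^ 6 + θ ^ 7 + θ ^ 8 + θ ^ 9 + θ ^ 10
      + θ ^ 11 + θ ^ 12 = 0 := by
    have := hθ.geom_sum_eq_zero (by norm_num : 1 < 13)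
    simpa [Finset.sum_range_succ] using this
  have hmap : (X ^ 3 - X - 1 : ℤ[X]).map (Int.castRingHom (ZMod 3)) = X ^ 3 - X - 1 := by
    simp
  refine exists_principal_prime_over 3 hθ (X ^ 3 - X - 1) (by monicity!) ?_ ?_
    (1 + θ - θ ^ 3)
    (-1 - θ ^ 2 - θ ^ 3 - 2 * θ ^ 5 - θ ^ 7 - 2 * θ ^ 8 + θ ^ 9 - 3 * θ ^ 10)
    (-1) 0 (-1) ?_ ?_ ?_
  · rw [hmap]
    apply irreducible_of_degree_le_three_of_not_isRoot
    · have : (X ^ 3 - X - 1 : (ZMod 3)[X]).natDegree = 3 := by compute_degree!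
      rw [this]; decide
    · intro x
      simp only [IsRoot.def, eval_sub, eval_pow, eval_X, eval_one]
      exact zmod_three_cubic_no_root x
  · rw [hmap, cyclotomic_prime]
    have h3 : (3 : (ZMod 3)[X]) = 0 := by
      rw [← C_ofNat]; exact C_eq_zero.mpr zmod_three_three_eq_zero
    refine ⟨20 + 15 * X + 11 * X ^ 2 + 8 * X ^ 3 + 6 * X ^ 4 + 4 * X ^ 5 + 3 * X ^ 6 + 2 * X ^ 7 + X ^ 8 + X ^ 9, ?_⟩
    simp only [Finset.sum_range_succ, Finset.sum_range_zero]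
    linear_combination (7 + 12 * X + 9 * X ^ 2) * h3
  · push_cast
    linear_combination (-4 + 3 * θ) * hΦ
  · simp only [map_sub, map_pow, aeval_X, map_one]
    ring
  · simp only [map_sub, map_pow, aeval_X, map_one]
    ring

end Instances

end Fermat.Agent.FLTSmall
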