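import Mathlib
import Fermat.Agent.FLTSmall.ClassNumberAux
import Fermat.Agent.FLTSmall.PrincipalPrimes

/-!
# FLTSmall (K2): `ℤ[ζ₇]` and `ℤ[ζ₁₁]` are principal ideal domains
-/

set_option autoImplicit false

universe u

namespace Fermat.Agent.FLTSmall

open NumberField Polynomial InfinitePlace Nat Real cyclotomic IsCyclotomicExtension.Rat Module

/-- Variant of `lt_pow_orderOf`: no power `q ^ j ≤ B` is trivial mod `p`. -/
theorem lt_pow_orderOf_of_forall {p : ℕ} [Fact p.Prime] {q B : ℕ} (hq : q.Prime) (hqp : q ≠ p)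
    (h : ∀ j, 0 < j → q ^ j ≤ B → (q : ZMod p) ^ j ≠ 1) :
    B < q ^ orderOf (q : ZMod p) := by
  have hunit : (q : ZMod p) ≠ 0 := by
    rw [Ne, ZMod.natCast_eq_zero_iff]
    intro hdvd
    exact hqp ((Nat.prime_dvd_prime_iff_eq (Fact.out : p.Prime) hq).mp hdvd).symm
  have hfin : IsOfFinOrder (q : ZMod p) := by
    rw [isOfFinOrder_iff_pow_eq_one]
    exact ⟨p - 1, Nat.sub_pos_of_lt (Fact.out : p.Prime).one_lt, ZMod.pow_card_sub_one_eq_one hunit⟩
  by_contra hlt
  exact h _ hfin.orderOf_pos (not_lt.mp hlt) (pow_orderOf_eq_one _)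

section Seven

variable (K : Type u) [Field K] [NumberField K] [IsCyclotomicExtension {7} ℚ K]

theorem minkowski_bound_seven : (4 / π) ^ nrComplexPlaces K *
      ((finrank ℚ K).factorial / (finrank ℚ K) ^ (finrank ℚ K) * √|(discr K : ℝ)|) <
        ((4 : ℕ) : ℝ) + 1 := by
  have : Fact (Nat.Prime 7) := ⟨by norm_num⟩
  rw [discr_prime 7 K, IsCyclotomicExtension.finrank (n := 7) K
    (irreducible_rat (by simp)), nrComplexPlaces_eq_totient_div_two 7, totient_prime
      (by norm_num)]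
  norm_num
  have h1 : √(16807 : ℝ) < 130 := by
    rw [Real.sqrt_lt' (by norm_num)]
    norm_num
  have h2 : (4 : ℝ) / π < 4 / 3 :=
    div_lt_div_of_pos_left (by norm_num) (by norm_num) pi_gt_three
  have h3 : (0 : ℝ) ≤ 4 / π := by positivity
  calc (4 / π) ^ 3 * (5 / 324 * √16807)
      ≤ (4 / 3) ^ 3 * (5 / 324 * 130) := by gcongr
    _ < 5 := by norm_num

theorem seven_orders : ∀ q ∈ Finset.Icc 1 4, q.Prime → q ≠ 7 →
    ∀ j ∈ Finset.Icc 1 2, q ^ j ≤ 4 → ((q : ℕ) : ZMod 7) ^ j ≠ 1 := by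
  decide

/-- If `IsCyclotomicExtension {7} ℚ K` then `𝓞 K` is a principal ideal domain. -/
theorem seven_pid : IsPrincipalIdealRing (𝓞 K) := by
  have : Fact (Nat.Prime 7) := ⟨by norm_num⟩
  refine pid_of_bound K 7 4 (minkowski_bound_seven K) ?_
  intro q hq hqB hq7
  refine Or.inl (lt_pow_orderOf_of_forall hq hq7 fun j hj hle => ?_)
  have hj2 : j ≤ 2 := by
    by_contra hcon
    have h3 : 3 ≤ j := by omega
    have : 2 ^ 3 ≤ q ^ j :=
      (Nat.pow_le_pow_left hq.two_le 3).trans (Nat.pow_le_pow_right hq.pos h3)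
    omega
  exact seven_orders q (Finset.mem_Icc.mpr ⟨hq.pos, hqB⟩) hq hq7 j
    (Finset.mem_Icc.mpr ⟨hj, hj2⟩) hle

end Seven

section Eleven

variable (K : Type u) [Field K] [NumberField K] [IsCyclotomicExtension {11} ℚ K]

theorem minkowski_bound_eleven : (4 / π) ^ nrComplexPlaces K *
      ((finrank ℚ K).factorial / (finrank ℚ K) ^ (finrank ℚ K) * √|(discr K : ℝ)|) <
        ((58 : ℕ) : ℝ) + 1 := by
  have : Fact (Nat.Prime 11) := ⟨by norm_num⟩
  rw [discr_prime 11 K, IsCyclotomicExtension.finrank (n := 11) K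
    (irreducible_rat (by simp)), nrComplexPlaces_eq_totient_div_two 11, totient_prime
      (by norm_num)]
  norm_num
  have h1 : √(2357947691 : ℝ) < 48559 := by
    rw [Real.sqrt_lt' (by norm_num)]
    norm_num
  have h2 : (4 : ℝ) / π < 4 / 3.1415 :=
    div_lt_div_of_pos_left (by norm_num) (by norm_num) pi_gt_d4
  have h3 : (0 : ℝ) ≤ 4 / π := by positivity
  calc (4 / π) ^ 5 * (567 / 1562500 * √2357947691)
      ≤ (4 / 3.1415) ^ 5 * (567 / 1562500 * 48559) := by gcongr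
    _ < 59 := by norm_num

theorem eleven_orders : ∀ q ∈ Finset.Icc 1 58, q.Prime → q ≠ 11 → q ≠ 23 →
    ∀ j ∈ Finset.Icc 1 5, q ^ j ≤ 58 → ((q : ℕ) : ZMod 11) ^ j ≠ 1 := by
  decide

/-- If `IsCyclotomicExtension {11} ℚ K` then `𝓞 K` is a principal ideal domain. -/
theorem eleven_pid : IsPrincipalIdealRing (𝓞 K) := by
  have : Fact (Nat.Prime 11) := ⟨by norm_num⟩
  refine pid_of_bound K 11 58 (minkowski_bound_eleven K) ?_
  intro q hq hqB hq11
  by_cases h23 : q = 23
  · subst h23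
    exact Or.inr (exists_principal_prime_eleven_23 K)
  · refine Or.inl (lt_pow_orderOf_of_forall hq hq11 fun j hj hle => ?_)
    have hj5 : j ≤ 5 := by
      by_contra hcon
      have h6 : 6 ≤ j := by omega
      have : 2 ^ 6 ≤ q ^ j :=
        (Nat.pow_le_pow_left hq.two_le 6).trans (Nat.pow_le_pow_right hq.pos h6)
      omega
    exact eleven_orders q (Finset.mem_Icc.mpr ⟨hq.pos, hqB⟩) hq hq11 h23 j
      (Finset.mem_Icc.mpr ⟨hj, hj5⟩) hle

end Eleven

end Fermat.Agent.FLTSmall
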