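import Mathlib
import Fermat.Agent.FLTSmall.ClassNumberAux

/-!
# FLTSmall (K2): `ℤ[ζ₁₃]` is a PID
-/

set_option autoImplicit false

namespace Fermat.Agent.FLTSmall

open NumberField Polynomial Ideal IsCyclotomicExtension IsCyclotomicExtension.Rat Module
  InfinitePlace Real

section Minkowski

variable (K : Type*) [Field K] [NumberField K]

theorem minkowski_thirteen [IsCyclotomicExtension {13} ℚ K] :
    (4 / π) ^ nrComplexPlaces K *
      ((finrank ℚ K).factorial / (finrank ℚ K) ^ (finrank ℚ K) * √|(discr K : ℝ)|) <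
        ((306 : ℕ) : ℝ) + 1 := by
  have : Fact (Nat.Prime 13) := ⟨by norm_num⟩
  have hd : discr K = 1792160394037 := by rw [discr_prime 13 K]; norm_num
  have hfr : finrank ℚ K = 12 := by
    rw [IsCyclotomicExtension.finrank (n := 13) K
      (Polynomial.cyclotomic.irreducible_rat (by simp)), Nat.totient_prime (by norm_num)]
  have hr2 : nrComplexPlaces K = 6 := by
    rw [nrComplexPlaces_eq_totient_div_two 13, Nat.totient_prime (by norm_num)]
  rw [hd, hfr, hr2]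
  have h1 : √|((1792160394037 : ℤ) : ℝ)| < 1338716 := by
    rw [Real.sqrt_lt' (by norm_num)]
    norm_num
  have h2 : (4 / π) ^ 6 < (4 / 3.1415 : ℝ) ^ 6 := by
    gcongr
    exact pi_gt_d4
  have h4 : (0 : ℝ) < (4 / π) ^ 6 := by positivity
  calc (4 / π) ^ 6 * (((12 : ℕ).factorial : ℝ) / ((12 : ℕ) : ℝ) ^ 12 *
        √|((1792160394037 : ℤ) : ℝ)|)
      ≤ (4 / π) ^ 6 * (((12 : ℕ).factorial : ℝ) / ((12 : ℕ) : ℝ) ^ 12 * 1338716) := by
        gcongr
    _ ≤ (4 / 3.1415 : ℝ) ^ 6 * (((12 : ℕ).factorial : ℝ) / ((12 : ℕ) : ℝ) ^ 12 * 1338716) := by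
        gcongr
    _ < ((306 : ℕ) : ℝ) + 1 := by
        norm_num [Nat.factorial]

end Minkowski

section Certificates

variable (K : Type*) [Field K] [NumberField K] [IsCyclotomicExtension {13} ℚ K]

theorem minpoly_zeta_thirteen :
    minpoly ℤ (zeta_spec 13 ℚ K).toInteger = cyclotomic 13 ℤ := by
  rw [cyclotomic_eq_minpoly (zeta_spec 13 ℚ K) (by norm_num),
    ← RingOfIntegers.minpoly_coe (zeta_spec 13 ℚ K).toInteger]
  rfl

theorem sum_zeta_thirteen :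
    1 + (zeta_spec 13 ℚ K).toInteger + (zeta_spec 13 ℚ K).toInteger ^ 2 +
      (zeta_spec 13 ℚ K).toInteger ^ 3 + (zeta_spec 13 ℚ K).toInteger ^ 4 +
      (zeta_spec 13 ℚ K).toInteger ^ 5 + (zeta_spec 13 ℚ K).toInteger ^ 6 +
      (zeta_spec 13 ℚ K).toInteger ^ 7 + (zeta_spec 13 ℚ K).toInteger ^ 8 +
      (zeta_spec 13 ℚ K).toInteger ^ 9 + (zeta_spec 13 ℚ K).toInteger ^ 10 +
      (zeta_spec 13 ℚ K).toInteger ^ 11 + (zeta_spec 13 ℚ K).toInteger ^ 12 = 0 := by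
  have h := (zeta_spec 13 ℚ K).toInteger_isPrimitiveRoot.geom_sum_eq_zero (by norm_num)
  simpa [Finset.sum_range_succ] using h

theorem eval_cyclotomic_thirteen (t : ℤ) :
    eval t (cyclotomic 13 ℤ) = 1 + t + t ^ 2 + t ^ 3 + t ^ 4 + t ^ 5 + t ^ 6 + t ^ 7 + t ^ 8 +
      t ^ 9 + t ^ 10 + t ^ 11 + t ^ 12 := by
  have : Fact (Nat.Prime 13) := ⟨by norm_num⟩
  rw [cyclotomic_prime]
  simp [Finset.sum_range_succ]

/-- Degree one certificate for a principal prime of `ℤ[ζ₁₃]` above `q`. -/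
theorem principal_of_linear_cert (q : ℕ) [Fact q.Prime] (t : ℤ)
    (ht : (q : ℤ) ∣ eval t (cyclotomic 13 ℤ)) (α β γ μ ν : 𝓞 K)
    (h1 : (q : 𝓞 K) = α * β)
    (h2 : (zeta_spec 13 ℚ K).toInteger - (t : 𝓞 K) = α * γ)
    (h3 : α = (q : 𝓞 K) * μ + ((zeta_spec 13 ℚ K).toInteger - (t : 𝓞 K)) * ν) :
    ∃ P ∈ primesOver (span {(q : ℤ)}) (𝓞 K), Submodule.IsPrincipal P := by
  have hae : aeval (zeta_spec 13 ℚ K).toInteger (X - C t : ℤ[X]) =
      (zeta_spec 13 ℚ K).toInteger - (t : 𝓞 K) := by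
    simp
  refine exists_isPrincipal_primesOver_of_cert (zeta_spec 13 ℚ K).toInteger
    (adjoin_singleton_eq_top (zeta_spec 13 ℚ K)) q (X - C t) ?_ ?_ ?_ α β γ μ ν h1
    (by rw [hae]; exact h2) (by rw [hae]; exact h3)
  · rw [Polynomial.map_sub, map_X, map_C]
    exact irreducible_X_sub_C _
  · rw [Polynomial.map_sub, map_X, map_C]
    exact monic_X_sub_C _
  · rw [Polynomial.map_sub, map_X, map_C, dvd_iff_isRoot, IsRoot.def, minpoly_zeta_thirteen,
      eval_map_apply]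
    exact (ZMod.intCast_zmod_eq_zero_iff_dvd _ _).mpr ht


theorem principal_prime_thirteen_53 :
    ∃ P ∈ primesOver (span {((53 : ℕ) : ℤ)}) (𝓞 K), Submodule.IsPrincipal P := by
  have : Fact (Nat.Prime 53) := ⟨by norm_num⟩
  have hsum := sum_zeta_thirteen K
  set θ := (zeta_spec 13 ℚ K).toInteger with hθ
  refine principal_of_linear_cert K 53 16 ?_ (1 - θ + θ ^ 3)
    (25 + 10 * θ + 19 * θ ^ 2 + 3 * θ ^ 3 + 2 * θ ^ 4 - 8 * θ ^ 5 - 2 * θ ^ 6 + 5 * θ ^ 7 + 22 * θ ^ 8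
      + 33 * θ ^ 9 + 37 * θ ^ 10 + 24 * θ ^ 11)
    (-8 - 3 * θ - 6 * θ ^ 2 - θ ^ 3 - θ ^ 4 + 2 * θ ^ 5 - 2 * θ ^ 7 - 7 * θ ^ 8 - 10 * θ ^ 9 - 11 * θ ^ 10
      - 7 * θ ^ 11)
    77 (255 + 16 * θ + θ ^ 2) ?_ ?_ ?_
  · rw [eval_cyclotomic_thirteen]
    norm_num
  · push_cast
    linear_combination (28 - 13 * θ - 24 * θ ^ 2) * hsum
  · push_cast
    linear_combination (-8 + 4 * θ + 7 * θ ^ 2) * hsum
  · push_cast
    ring

theorem principal_prime_thirteen_79 :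
    ∃ P ∈ primesOver (span {((79 : ℕ) : ℤ)}) (𝓞 K), Submodule.IsPrincipal P := by
  have : Fact (Nat.Prime 79) := ⟨by norm_num⟩
  have hsum := sum_zeta_thirteen K
  set θ := (zeta_spec 13 ℚ K).toInteger with hθ
  refine principal_of_linear_cert K 79 62 ?_ (1 - θ - θ ^ 4)
    (62 + 63 * θ + 49 * θ ^ 2 + 8 * θ ^ 3 + 29 * θ ^ 4 + 51 * θ ^ 5 + 59 * θ ^ 6 + 26 * θ ^ 7 + 14 * θ ^ 8
      + 24 * θ ^ 9 + 42 * θ ^ 10 + 27 * θ ^ 11)
    (-49 - 49 * θ - 38 * θ ^ 2 - 6 * θ ^ 3 - 23 * θ ^ 4 - 40 * θ ^ 5 - 46 * θ ^ 6 - 20 * θ ^ 7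
      - 11 * θ ^ 8 - 19 * θ ^ 9 - 33 * θ ^ 10 - 21 * θ ^ 11)
    (-187043) (-238329 - 3844 * θ - 62 * θ ^ 2 - θ ^ 3) ?_ ?_ ?_
  · rw [eval_cyclotomic_thirteen]
    norm_num
  · push_cast
    linear_combination (17 - 18 * θ + 15 * θ ^ 2 + 27 * θ ^ 3) * hsum
  · push_cast
    linear_combination (-13 + 14 * θ - 12 * θ ^ 2 - 21 * θ ^ 3) * hsum
  · push_cast
    ring

theorem principal_prime_thirteen_131 :
    ∃ P ∈ primesOver (span {((131 : ℕ) : ℤ)}) (𝓞 K), Submodule.IsPrincipal P := by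
  have : Fact (Nat.Prime 131) := ⟨by norm_num⟩
  have hsum := sum_zeta_thirteen K
  set θ := (zeta_spec 13 ℚ K).toInteger with hθ
  refine principal_of_linear_cert K 131 80 ?_ (1 - θ - θ ^ 3)
    (111 + 78 * θ + 17 * θ ^ 2 + 67 * θ ^ 3 + 84 * θ ^ 4 + 40 * θ ^ 5 + 46 * θ ^ 6 + 69 * θ ^ 7
      + 48 * θ ^ 8 + 33 * θ ^ 9 + 41 * θ ^ 10 + 28 * θ ^ 11)
    (-68 - 47 * θ - 10 * θ ^ 2 - 41 * θ ^ 3 - 51 * θ ^ 4 - 24 * θ ^ 5 - 28 * θ ^ 6 - 42 * θ ^ 7
      - 29 * θ ^ 8 - 20 * θ ^ 9 - 25 * θ ^ 10 - 17 * θ ^ 11)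
    (-3909) (-6401 - 80 * θ - θ ^ 2) ?_ ?_ ?_
  · rw [eval_cyclotomic_thirteen]
    norm_num
  · push_cast
    linear_combination (20 + 13 * θ + 28 * θ ^ 2) * hsum
  · push_cast
    linear_combination (-12 - 8 * θ - 17 * θ ^ 2) * hsum
  · push_cast
    ring

theorem principal_prime_thirteen_157 :
    ∃ P ∈ primesOver (span {((157 : ℕ) : ℤ)}) (𝓞 K), Submodule.IsPrincipal P := by
  have : Fact (Nat.Prime 157) := ⟨by norm_num⟩
  have hsum := sum_zeta_thirteen K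
  set θ := (zeta_spec 13 ℚ K).toInteger with hθ
  refine principal_of_linear_cert K 157 75 ?_ (1 - θ + θ ^ 2 + θ ^ 4)
    (89 + 86 * θ + 42 * θ ^ 2 + 77 * θ ^ 3 + 67 * θ ^ 4 + 25 * θ ^ 5 + 37 * θ ^ 6 + 56 * θ ^ 7
      + 73 * θ ^ 8 + 113 * θ ^ 9 + 124 * θ ^ 10 + 76 * θ ^ 11)
    (-43 - 41 * θ - 20 * θ ^ 2 - 37 * θ ^ 3 - 32 * θ ^ 4 - 12 * θ ^ 5 - 18 * θ ^ 6 - 27 * θ ^ 7
      - 35 * θ ^ 8 - 54 * θ ^ 9 - 59 * θ ^ 10 - 36 * θ ^ 11)
    201568 (421949 + 5626 * θ + 75 * θ ^ 2 + θ ^ 3) ?_ ?_ ?_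
  · rw [eval_cyclotomic_thirteen]
    norm_num
  · push_cast
    linear_combination (68 - 65 * θ - 48 * θ ^ 2 - 76 * θ ^ 3) * hsum
  · push_cast
    linear_combination (-32 + 31 * θ + 23 * θ ^ 2 + 36 * θ ^ 3) * hsum
  · push_cast
    ring

theorem cyclotomic_thirteen_eq :
    cyclotomic 13 ℤ = (X ^ 3 - X - 1) * (20 + 15 * X + 11 * X ^ 2 + 8 * X ^ 3 + 6 * X ^ 4 +
      4 * X ^ 5 + 3 * X ^ 6 + 2 * X ^ 7 + X ^ 8 + X ^ 9) + C 3 * (7 + 12 * X + 9 * X ^ 2) := by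
  have : Fact (Nat.Prime 13) := ⟨by norm_num⟩
  rw [cyclotomic_prime]
  simp only [Finset.sum_range_succ, Finset.range_zero, Finset.sum_empty, map_ofNat]
  ring

theorem cyclotomic_thirteen_mod_three :
    (cyclotomic 13 ℤ).map (Int.castRingHom (ZMod 3)) =
      (X ^ 3 - X - 1) * ((20 + 15 * X + 11 * X ^ 2 + 8 * X ^ 3 + 6 * X ^ 4 +
      4 * X ^ 5 + 3 * X ^ 6 + 2 * X ^ 7 + X ^ 8 + X ^ 9 : ℤ[X]).map (Int.castRingHom (ZMod 3))) := by
  have h3 : (Int.castRingHom (ZMod 3)) 3 = 0 := by decide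
  rw [cyclotomic_thirteen_eq, Polynomial.map_add, Polynomial.map_mul, Polynomial.map_mul, map_C,
    h3, C_0, zero_mul, add_zero]
  congr 1
  simp

theorem irreducible_cubic_mod_three : Irreducible (X ^ 3 - X - 1 : (ZMod 3)[X]) := by
  have key : ∀ x : ZMod 3, x ^ 3 - x - 1 ≠ 0 := by decide
  have : Fact (Nat.Prime 3) := ⟨by norm_num⟩
  apply irreducible_of_degree_le_three_of_not_isRoot
  · have : (X ^ 3 - X - 1 : (ZMod 3)[X]).natDegree = 3 := by compute_degree!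
    rw [this]; decide
  · intro x hx
    rw [IsRoot.def] at hx
    simp only [eval_sub, eval_pow, eval_X, eval_one] at hx
    exact key x hx

theorem principal_prime_thirteen_3 :
    ∃ P ∈ primesOver (span {((3 : ℕ) : ℤ)}) (𝓞 K), Submodule.IsPrincipal P := by
  have : Fact (Nat.Prime 3) := ⟨by norm_num⟩
  have hsum := sum_zeta_thirteen K
  set θ := (zeta_spec 13 ℚ K).toInteger with hθ
  have hae : aeval θ (X ^ 3 - X - 1 : ℤ[X]) = θ ^ 3 - θ - 1 := by simp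
  have hmap : (X ^ 3 - X - 1 : ℤ[X]).map (Int.castRingHom (ZMod 3)) = X ^ 3 - X - 1 := by simp
  refine exists_isPrincipal_primesOver_of_cert θ (adjoin_singleton_eq_top (zeta_spec 13 ℚ K)) 3
    (X ^ 3 - X - 1) ?_ ?_ ?_ (1 + θ - θ ^ 3)
    (-1 - θ ^ 2 - θ ^ 3 - 2 * θ ^ 5 - θ ^ 7 - 2 * θ ^ 8 + θ ^ 9 - 3 * θ ^ 10) (-1) 0 (-1) ?_ ?_ ?_
  · rw [hmap]
    exact irreducible_cubic_mod_three
  · rw [hmap]
    monicity!
  · rw [hmap, minpoly_zeta_thirteen, cyclotomic_thirteen_mod_three]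
    exact Dvd.intro _ rfl
  · push_cast
    linear_combination (4 - 3 * θ) * hsum
  · rw [hae]; ring
  · rw [hae]; ring

end Certificates

section Main

theorem zmod_thirteen_two : ∀ j < 9, 0 < j → ((2 : ℕ) : ZMod 13) ^ j ≠ 1 := by decide

theorem zmod_thirteen_five : ∀ j < 4, 0 < j → ((5 : ℕ) : ZMod 13) ^ j ≠ 1 := by decide

theorem zmod_thirteen_seven : ∀ j < 3, 0 < j → ((7 : ℕ) : ZMod 13) ^ j ≠ 1 := by decide

theorem zmod_thirteen_eleven : ∀ j < 3, 0 < j → ((11 : ℕ) : ZMod 13) ^ j ≠ 1 := by decide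

theorem zmod_thirteen_seventeen : ∀ j < 3, 0 < j → ((17 : ℕ) : ZMod 13) ^ j ≠ 1 := by decide

universe u

/-- The ring of integers of the `13`-th cyclotomic field is a PID. -/
theorem thirteen_pid (K : Type u) [Field K] [NumberField K] [IsCyclotomicExtension {13} ℚ K] :
    IsPrincipalIdealRing (𝓞 K) := by
  have : Fact (Nat.Prime 13) := ⟨by norm_num⟩
  refine pid_of_bound K 13 306 (minkowski_thirteen K) ?_
  intro q hqp hqB hq13
  have hunit : (q : ZMod 13) ≠ 0 := by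
    rw [Ne, ZMod.natCast_eq_zero_iff]
    intro h
    exact hq13 ((Nat.prime_dvd_prime_iff_eq (by norm_num) hqp).mp h).symm
  by_cases h1 : q % 13 = 1
  · right
    obtain ⟨k, rfl⟩ : ∃ k, q = 13 * k + 1 := ⟨q / 13, by omega⟩
    have hk : k ≤ 23 := by omega
    interval_cases k
    all_goals first
      | (exfalso; norm_num at hqp; done)
      | exact principal_prime_thirteen_53 K
      | exact principal_prime_thirteen_79 K
      | exact principal_prime_thirteen_131 K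
      | exact principal_prime_thirteen_157 K
  · by_cases h18 : 18 ≤ q
    · left
      refine lt_pow_orderOf (k := 2) hqp.pos hunit ?_ (by nlinarith)
      intro j hj hj0
      interval_cases j
      rw [pow_one]
      intro h
      apply h1
      have h2 : ((q : ℕ) : ZMod 13) = ((1 : ℕ) : ZMod 13) := by simpa using h
      rw [ZMod.natCast_eq_natCast_iff'] at h2
      simpa using h2
    · have hq18 : q < 18 := not_le.mp h18
      interval_cases q
      all_goals first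
        | (exfalso; norm_num at hqp; done)
        | exact absurd rfl hq13
        | exact Or.inr (principal_prime_thirteen_3 K)
        | exact Or.inl (lt_pow_orderOf (k := 9) (by norm_num) hunit zmod_thirteen_two (by norm_num))
        | exact Or.inl (lt_pow_orderOf (k := 4) (by norm_num) hunit zmod_thirteen_five (by norm_num))
        | exact Or.inl (lt_pow_orderOf (k := 3) (by norm_num) hunit zmod_thirteen_seven
            (by norm_num))
        | exact Or.inl (lt_pow_orderOf (k := 3) (by norm_num) hunit zmod_thirteen_eleven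
            (by norm_num))
        | exact Or.inl (lt_pow_orderOf (k := 3) (by norm_num) hunit zmod_thirteen_seventeen
            (by norm_num))

end Main

end Fermat.Agent.FLTSmall
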